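import Fermat.Agent.ModularityLifting.PointsDatum.Characters
import Fermat.Agent.ModularityLifting.Start.Transfer
import Fermat.Agent.LevelLowering.Site.Newform
import Fermat.Agent.FiniteFlat.Operations

/-!
# Local facts on residual representations

Flatness descends along field extensions, and the sign of a strictly ordinary residual
representation is determined by the representation.
-/

set_option autoImplicit false

noncomputable section

open IsLocalRing Matrix
open scoped Pointwise

namespace FLTAgent.PointsDatum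

open FLTAgent.ModularityLifting FLTAgent.DefRing
open FLTAgent.Density (GalQ Qbar)

/-- A Frobenius element times inertia is a Frobenius element. -/
theorem isFrobeniusAt_mul_inertia {A : ValuationSubring Qbar} {q : ℕ} {φ τ : GalQ}
    (hφ : A.IsFrobeniusAt φ q) (hτ : τ ∈ A.inertiaSubgroupIn ℚ) :
    A.IsFrobeniusAt (φ * τ) q := by
  obtain ⟨hd, h⟩ := Density.isFrobeniusAt_iff.mp hφ
  obtain ⟨hd', h'⟩ := Density.mem_inertiaSubgroupIn_iff.mp hτ
  refine Density.isFrobeniusAt_iff.mpr ⟨mul_mem hd hd', fun x hx => ?_⟩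
  have hnon : ∀ y, y ∈ A.nonunits → φ y ∈ A.nonunits := fun y hy => by
    rw [ValuationSubring.mem_nonunits_iff_or] at hy ⊢
    rcases hy with rfl | hy
    · exact Or.inl (map_zero φ)
    · refine Or.inr fun hm => hy ?_
      rw [← map_inv₀] at hm
      exact (Density.apply_mem_iff hd _).mp hm
  have h1 : φ (τ x - x) ∈ A.nonunits := hnon _ (h' x hx)
  have h2 : φ x - x ^ q ∈ A.nonunits := h x hx
  have h3 : (φ * τ) x - x ^ q = φ (τ x - x) + (φ x - x ^ q) := by
    rw [AlgEquiv.mul_apply, map_sub]; ring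
  rw [h3]
  have hA : ∀ y, y ∈ A.nonunits → y ∈ A := fun y hy =>
    (ValuationSubring.nonunits_subset (A := A)) hy
  have hadd : ((⟨_, hA _ h1⟩ : A) + ⟨_, hA _ h2⟩) ∈ maximalIdeal A :=
    add_mem (ValuationSubring.coe_mem_nonunits_iff.mp h1)
      (ValuationSubring.coe_mem_nonunits_iff.mp h2)
  exact ValuationSubring.coe_mem_nonunits_iff.mpr hadd

variable {k k' : Type} [Field k] [Field k']

/-- Flatness descends along an extension of fields. -/
theorem flatAt_of_map (ι : k →+* k') [Finite k'] {M : MatRep k} {p : ℕ}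
    (h : FlatAt (mapRep ι M) p) : FlatAt M p := by
  intro I hI
  rcases Ideal.eq_bot_or_top I with rfl | rfl
  · have : Finite (k' ⧸ (⊥ : Ideal k')) := Finite.of_surjective _ Ideal.Quotient.mk_surjective
    let e : k ⧸ (⊥ : Ideal k) →+* k' ⧸ (⊥ : Ideal k') :=
      Ideal.quotientMap ⊥ ι bot_le
    refine FiniteFlat.HasFlatModel.of_jointly_injective (ι := Unit) (fun _ => h ⊥ inferInstance)
      (fun _ => e.toAddMonoidHom.compLeft (Fin 2)) (fun _ σ x => ?_)
      fun x y hxy => funext fun i => Ideal.quotientMap_injective' (H := bot_le)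
        (Ideal.comap_bot_of_injective ι ι.injective).le (congrFun (hxy ()) i)
    funext i
    show e ((((Ideal.Quotient.mk (⊥ : Ideal k)).mapMatrix (M σ)) *ᵥ x) i) =
      (((Ideal.Quotient.mk (⊥ : Ideal k')).mapMatrix (mapRep ι M σ)) *ᵥ fun l => e (x l)) i
    rw [RingHom.map_mulVec]
    rfl
  · have : Subsingleton (k ⧸ (⊤ : Ideal k)) := Ideal.Quotient.subsingleton_iff.mpr rfl
    exact FiniteFlat.HasFlatModel.of_jointly_injective (ι := Empty)
      (N := fun _ => Fin 2 → k ⧸ (⊤ : Ideal k)) (actN := fun _ => redAct M ⊤)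
      (fun i => i.elim) (fun i => i.elim) (fun i => i.elim) fun x y _ => Subsingleton.elim _ _

/-- Trace and determinant at a Frobenius element of a strictly ordinary representation. -/
theorem trace_of_strictAt {R : MatRep k} {p : ℕ} {e : k} (he : e * e = 1) (h : StrictAt R p e)
    {A : ValuationSubring Qbar} (hA : A.LiesOverPrime p) {φ : GalQ} (hφ : A.IsFrobeniusAt φ p) :
    (R φ).trace = e * ((R φ).det + 1) := by
  obtain ⟨g, hg⟩ := h A hA
  obtain ⟨h10, -, h11⟩ := hg φ (Density.isFrobeniusAt_iff.mp hφ).1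
  specialize h11 hφ
  set M := (g : Matrix (Fin 2) (Fin 2) k) * R φ * (g⁻¹ : GL (Fin 2) k) with hM
  have htr : M.trace = (R φ).trace := Matrix.trace_units_conj g (R φ)
  have hdet : M.det = (R φ).det := Matrix.det_units_conj g (R φ)
  rw [Matrix.trace_fin_two, h11] at htr
  rw [Matrix.det_fin_two, h10, h11, mul_zero, sub_zero] at hdet
  rw [← htr, ← hdet]
  linear_combination -(M 0 0) * he

/-- The sign of a strictly ordinary residual representation is determined by it. -/
theorem sign_eq_of_strictAt {p : ℕ} [Fact p.Prime] [CharP k p] (hp2 : p ≠ 2) {R : MatRep k}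
    (hdet : DetCyclotomic R p) {e e' : k} (he : e * e = 1) (he' : e' * e' = 1)
    (h : StrictAt R p e) (h' : StrictAt R p e') : e = e' := by
  have hp : p.Prime := Fact.out
  have : NeZero p := ⟨hp.ne_zero⟩
  obtain ⟨u, hu⟩ : ∃ u : (ZMod p)ˣ, (u : ZMod p) ≠ 1 := by
    refine ⟨Units.mk0 (-1) (neg_ne_zero.mpr one_ne_zero), fun h1 => ?_⟩
    have : Fact (2 < p) := ⟨lt_of_le_of_ne hp.two_le (Ne.symm hp2)⟩
    exact ZMod.neg_one_ne_one h1
  obtain ⟨A, τ, hA, hτ, hτu⟩ := exists_inertia_cycloChar u
  obtain ⟨φ, hφ⟩ := Density.exists_isFrobeniusAt A hp hA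
  have hφτ := isFrobeniusAt_mul_inertia hφ hτ
  have hdτ : (R τ).det ≠ 1 := by
    obtain ⟨ζ, hζ⟩ := HasEnoughRootsOfUnity.exists_primitiveRoot Qbar p
    set a := (ExtVanishing.cycChar p τ).val
    have h1 := hdet 1 τ a fun μ hμ => by
      rw [pow_one] at hμ
      obtain ⟨i, -, hi⟩ := hζ.eq_pow_of_pow_eq_one hμ
      rw [← hi, map_pow, ExtVanishing.apply_primitiveRoot p hζ τ, pow_right_comm]
    rw [pow_one, CharP.cast_eq_zero, Ideal.span_singleton_eq_bot.mpr rfl, Ideal.mem_bot,
      sub_eq_zero] at h1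
    intro h2
    refine hu ?_
    rw [h1] at h2
    have h3 : ((a : ℕ) : k) = ((1 : ℕ) : k) := by rw [h2, Nat.cast_one]
    rw [CharP.natCast_eq_natCast k p, ← ZMod.natCast_eq_natCast_iff, ZMod.natCast_zmod_val,
      Nat.cast_one] at h3
    rw [← hτu]
    exact h3
  have e1 := trace_of_strictAt he h hA hφ
  have e1' := trace_of_strictAt he' h' hA hφ
  have e2 := trace_of_strictAt he h hA hφτ
  have e2' := trace_of_strictAt he' h' hA hφτ
  by_contra hne
  have hd : e - e' ≠ 0 := sub_ne_zero.mpr hne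
  have d1 : (R φ).det + 1 = 0 :=
    (mul_eq_zero.mp (show (e - e') * ((R φ).det + 1) = 0 by
      linear_combination e1' - e1)).resolve_left hd
  have d2 : (R (φ * τ)).det + 1 = 0 :=
    (mul_eq_zero.mp (show (e - e') * ((R (φ * τ)).det + 1) = 0 by
      linear_combination e2' - e2)).resolve_left hd
  rw [map_mul, Matrix.det_mul, eq_neg_of_add_eq_zero_left d1] at d2
  exact hdτ (by linear_combination -d2)

end FLTAgent.PointsDatum
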