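import Fermat.Agent.ModularityLifting.PointsDatum.Action
import Fermat.Agent.ModularityLifting.PointsDatum.LocalFacts
import Fermat.Agent.ModularityLifting.FlatOfTrace
import Fermat.Agent.Newforms.Occurrence
import Fermat.Agent.MFIntegral.IntegralStructure
import Mathlib.FieldTheory.AlgebraicClosure
import Mathlib.FieldTheory.IsAlgClosed.Basic

/-!
# Local properties of the points

Every point lies on a newform of a level dividing the level of its twist; this gives the local
properties at the primes of the problem, and the sign at `p` is the residual one.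
-/

set_option autoImplicit false
set_option linter.unusedSectionVars false

noncomputable section

open IsLocalRing Matrix

namespace FLTAgent.PointsDatum

open FLTAgent.LevelRaising FLTAgent.ModularityLifting FLTAgent.DefRing FLTAgent.HeckePoints
  FLTAgent.GaloisAttach CongruenceSubgroup
open FLTAgent.Density (GalQ Qbar)

/-- Local properties pass through a conjugation in both directions. -/
theorem localProps_conjRep_symm {k : Type} [CommRing k] {M M' : MatRep k} {g : GL (Fin 2) k}
    (h : M = Engine.conjRep g M') (q : ℕ) (e : k) :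
    (StrictAt M q e → StrictAt M' q e) ∧ (FlatAt M q → FlatAt M' q) := by
  have h' : ∀ σ, M' σ = ((g⁻¹ : GL (Fin 2) k) : Matrix (Fin 2) (Fin 2) k) * M σ *
      (((g⁻¹)⁻¹ : GL (Fin 2) k) : Matrix (Fin 2) (Fin 2) k) := fun σ => by
    have h1 : ((g⁻¹ : GL (Fin 2) k) : Matrix (Fin 2) (Fin 2) k) * g = 1 := by
      rw [← Units.val_mul, inv_mul_cancel, Units.val_one]
    rw [h, Engine.conjRep_apply, inv_inv]
    calc M' σ = (((g⁻¹ : GL (Fin 2) k) : Matrix (Fin 2) (Fin 2) k) * g) * M' σ *
          (((g⁻¹ : GL (Fin 2) k) : Matrix (Fin 2) (Fin 2) k) * g) := by rw [h1, one_mul, mul_one]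
      _ = _ := by simp only [mul_assoc]
  obtain ⟨-, -, h3, h4⟩ := localProps_conj (M := M') (M' := M) h' q e
  exact ⟨h3, h4⟩

variable {O : Type} [CommRing O] [IsDomain O] [IsDiscreteValuationRing O] {P : LiftProblem O}
  {n : ℕ} {Q : TWSet P n} [Fact P.p.Prime] [IsAdicComplete (maximalIdeal O) O]
  [Finite (ResidueField O)] [CharZero O] [ExtraThree P]
  {C : Type} [CommRing C] [IsDomain C] [IsDiscreteValuationRing C] [Algebra O C]
  [IsLocalHom (algebraMap O C)] [IsAdicComplete (maximalIdeal C) C] [Module.Finite O C] [CharZero C]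
  [Finite (ResidueField C)]
  {j : C →ₐ[O] Kbar O} (hj : Function.Injective j)
  {J : Finset ℕ} (hJ : J ⊆ P.raise) (x : Q.heckeAlg J →ₐ[O] C)

namespace TWSet

include hj hJ in
/-- An eigenform at the level of the twist carrying the traces of a point. -/
theorem exists_eigenform :
    ∃ (F : Subfield (Kbar O)) (e : F →+* ℂ) (f : CuspForm (Gamma0 (Q.twLevel (Q.geomHom j x) J)) 2),
      f.IsNormalizedEigenform ∧ ∀ l, l.Prime → ¬ l ∣ Q.level J * P.p →
        ∃ h : j (x (Q.frobElt J l)) ∈ F,
          ModularFormClass.qCoeff f l = e ⟨j (x (Q.frobElt J l)), h⟩ := by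
  classical
  have : NeZero (Q.twLevel (Q.geomHom j x) J) := ⟨Q.twLevel_ne_zero _ hJ⟩
  obtain ⟨θ, hθ, -⟩ := Q.exists_attached j hj hJ x
  let F : IntermediateField ℚ (Kbar O) := algebraicClosure ℚ (Kbar O)
  have := Eigenforms.heckeAlgebra_isIntegral (N := Q.twLevel (Q.geomHom j x) J)
    (MFIntegral.hasIntegralStructure (Q.twLevel (Q.geomHom j x) J) 2) (Q.levelPrimes J : Set ℕ)
  have hmem : ∀ t, (j : C →+* Kbar O).comp θ t ∈ F := fun t => by
    refine mem_algebraicClosure_iff'.mpr ?_
    have h := map_isIntegral_int ((j : C →+* Kbar O).comp θ)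
      (Algebra.IsIntegral.isIntegral (R := ℤ) t)
    obtain ⟨q, hm, hq⟩ := h
    refine ⟨q.map (Int.castRingHom ℚ), hm.map _, ?_⟩
    rw [Polynomial.eval₂_map]
    exact (congrArg (fun g : ℤ →+* Kbar O => Polynomial.eval₂ g _ q) (RingHom.ext_int _ _)).trans hq
  have : Algebra.IsAlgebraic ℚ F := algebraicClosure.isAlgebraic ℚ (Kbar O)
  let e : F →ₐ[ℚ] ℂ := IsAlgClosed.lift
  let χ : CuspForm.heckeAlgebra (Q.twLevel (Q.geomHom j x) J) 2 (Q.levelPrimes J : Set ℕ) →+* ℂ :=
    (e : F →+* ℂ).comp (((j : C →+* Kbar O).comp θ).codRestrict F.toSubfield hmem)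
  obtain ⟨f, hf, hfχ⟩ :=
    Eigenforms.exists_eigenform_of_char (MFIntegral.hasIntegralStructure _ 2) χ
  refine ⟨F.toSubfield, (e : F →+* ℂ), f, hf, fun l hl hlL => ?_⟩
  obtain ⟨h1, h2, -, -⟩ := not_dvd_twLevel hl hlL (Q.geomHom j x)
  have hh := hmem (CuspForm.heckeAlgebra.T hl h1 h2)
  rw [RingHom.comp_apply, hθ l hl h1 h2] at hh
  refine ⟨hh, ?_⟩
  rw [← Eigenforms.eigenChar_T hf hl h1 h2, hfχ]
  exact congrArg e (Subtype.ext (congrArg j (hθ l hl h1 h2)))

theorem det_pointRep_cycChar (σ : GalQ) :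
    (pointRep hj hJ x σ).det = cycChar (p_mem_of_isLocalHom P (C := C)) σ := by
  rw [det_pointRep, ← algebraMap_detHom P (p_mem_of_isLocalHom P (C := C))]
  rfl

/-- Every point lies on a newform of a level dividing the level of its twist. -/
theorem exists_onNewform :
    ∃ (M : ℕ) (_ : NeZero M) (g : CuspForm (Gamma0 M) 2), M ∣ Q.twLevel (Q.geomHom j x) J ∧
      LevelLowering.OnNewform (p_mem_of_isLocalHom P (C := C)) (Q.levelPrimes J)
        (pointRep hj hJ x) g := by
  classical
  have : NeZero (Q.twLevel (Q.geomHom j x) J) := ⟨Q.twLevel_ne_zero _ hJ⟩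
  obtain ⟨F, e, f, hf, hcoeff⟩ := exists_eigenform hj hJ x
  obtain ⟨M, hM0, g, hML, hg, hgf⟩ := Newforms.exists_newform_of_eigenform hf
  have hL0 : Q.level J * P.p ≠ 0 := mul_ne_zero (Q.level_ne_zero hJ) P.hp.ne_zero
  refine ⟨M, hM0, g, hML, LevelLowering.onNewform_of_coeff (j : C →+* Kbar O) hj hg
    (Nat.mem_primeFactors.mpr ⟨P.hp, dvd_mul_left _ _, hL0⟩) (fun q hq hqM => ?_)
    (matCont_pointRep hj hJ x) (det_pointRep_cycChar hj hJ x) e (fun l => x (Q.frobElt J l))
    (fun l hl hlS => ?_) fun l hl hlS A hA φ hφ => ?_⟩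
  · exact Nat.mem_primeFactors.mpr
      ⟨hq, ((Q.dvd_twLevel_iff _ hq).mp (hqM.trans hML)).mul_right _, hL0⟩
  · have hlL := (Q.notMem_levelPrimes hJ hl).mp hlS
    obtain ⟨h, he⟩ := hcoeff l hl hlL
    exact ⟨h, (hgf l hl (not_dvd_twLevel hl hlL _).1).trans he⟩
  · rw [trace_pointRep, pointTrace_frobenius hj hJ x hl ((Q.notMem_levelPrimes hJ hl).mp hlS) hA hφ]

/-- A prime different from the `q i` divides the level of the twist at most once. -/
theorem not_sq_dvd_twLevel {J : Finset ℕ} (hJ : J ⊆ P.raise) (φ : TW P n →+* Kbar O) {v : ℕ}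
    (hv : v.Prime) (hvq : ∀ i, Q.q i ≠ v) : ¬ v ^ 2 ∣ Q.twLevel φ J := by
  classical
  intro h
  have h2 : v.Coprime ((∏ t ∈ (Finset.univ.image Q.q).filter (fun t => Q.chiFam φ t = 1), t) *
      ∏ t ∈ Q.twT φ, t ^ 2) := by
    refine Nat.Coprime.mul_right (Nat.Coprime.prod_right fun t ht => ?_)
      (Nat.Coprime.prod_right fun t ht => ?_)
    · simp only [Finset.mem_filter, Finset.mem_image, Finset.mem_univ, true_and] at ht
      obtain ⟨⟨i, rfl⟩, -⟩ := ht
      exact (Nat.coprime_primes hv (Q.q_prime i).1).mpr (Ne.symm (hvq i))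
    · obtain ⟨i, rfl, hp, -⟩ := Q.twT_spec φ ht
      exact ((Nat.coprime_primes hv hp).mpr (Ne.symm (hvq i))).pow_right 2
  rw [twLevel, twM, mul_assoc] at h
  have h3 : v ^ 2 ∣ ∏ u ∈ P.minimal ∪ P.extra ∪ J, u :=
    (Nat.Coprime.pow_left 2 h2).dvd_of_dvd_mul_right h
  obtain ⟨u, hu, hvu⟩ := hv.prime.exists_mem_finset_dvd ((dvd_pow_self v two_ne_zero).trans h3)
  obtain rfl := (Nat.prime_dvd_prime_iff_eq hv (mem_primes hJ hu).1).mp hvu
  rw [← Finset.mul_prod_erase _ _ hu, pow_two, Nat.mul_dvd_mul_iff_left hv.pos] at h3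
  obtain ⟨w, hw, hvw⟩ := hv.prime.exists_mem_finset_dvd h3
  exact (Finset.mem_erase.mp hw).1
    ((Nat.prime_dvd_prime_iff_eq hv (mem_primes hJ (Finset.mem_erase.mp hw).2).1).mp hvw).symm

/-- Away from `p` and the `q i` a point is unramified or Steinberg. -/
theorem unramified_or_steinberg {v : ℕ}
    (hv : v.Prime) (hvp : v ≠ P.p) (hvq : ∀ i, Q.q i ≠ v) :
    UnramifiedAt (pointRep hj hJ x) v ∨
      ∃ e : C, (e = 1 ∨ e = -1) ∧ SteinbergAt (pointRep hj hJ x) v e := by
  obtain ⟨M, hM0, g, hML, H⟩ := exists_onNewform hj hJ x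
  by_cases hvM : v ∣ M
  · obtain ⟨ε, hε, h⟩ := H.steinbergAt P.hp2 (absIrreducible_pointRep hj hJ x) hv hvp hvM
      fun h => not_sq_dvd_twLevel hJ _ hv hvq (h.trans hML)
    refine Or.inr ⟨ε, ?_, h⟩
    rcases hε with rfl | rfl <;> simp
  · exact Or.inl (H.unramifiedAt (absIrreducible_pointRep hj hJ x) hv hvp hvM)

/-- Steinberg type forces the residual trace to be `± (v + 1)`. -/
theorem residue_sq_of_steinberg {v : ℕ} (hv : v.Prime) {e : C} (he : e = 1 ∨ e = -1)
    (h : SteinbergAt (pointRep hj hJ x) v e) :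
    residue O (P.ρ (P.frob v)).trace ^ 2 = ((v : ResidueField O) + 1) ^ 2 := by
  have h1 := (h (P.place v) (P.place_spec v hv)).2 (P.frob v) (P.frob_spec v hv)
  rw [trace_pointRep] at h1
  have h2 := residue_pointTrace hj hJ x (P.frob v)
  rw [h1, ← ResidueField.map_residue] at h2
  refine (ResidueField.map (algebraMap O C)).injective ?_
  rw [map_pow, ← h2, map_pow, map_add, map_natCast, map_one, map_mul, map_add, map_natCast,
    map_one, mul_pow, ← map_pow]
  rcases he with rfl | rfl <;> simp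

/-- Unramified at the extra primes and at the raising primes outside the level. -/
theorem unramifiedAt_of_notMem
    (hextra : ∀ t ∈ P.extra,
      residue O (P.ρ (P.frob t)).trace ^ 2 ≠ ((t : ResidueField O) + 1) ^ 2)
    {v : ℕ} (hv : v ∈ P.loc) (hvp : v ≠ P.p) (hvJ : v ∉ P.minimal ∪ J) :
    UnramifiedAt (pointRep hj hJ x) v := by
  have hvP : v.Prime := P.prime v hv
  have hvq : ∀ i, Q.q i ≠ v := fun i h => (Q.q_prime i).2.1 (h ▸ hv)
  simp only [Finset.mem_union, not_or] at hvJ
  by_cases hve : v ∈ P.extra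
  · rcases unramified_or_steinberg hj hJ x hvP hvp hvq with h | ⟨e, he, h⟩
    · exact h
    · exact absurd (residue_sq_of_steinberg hj hJ x hvP he h) (hextra v hve)
  · refine unramifiedAt_pointRep hj hJ x hvP fun hd => ?_
    rcases hvP.dvd_mul.mp hd with hd | hd
    · rcases (Q.prime_dvd_level hJ hvP).mp hd with h | ⟨i, hi⟩
      · simp only [Finset.mem_union] at h
        tauto
      · exact hvq i hi
    · exact hvp ((Nat.prime_dvd_prime_iff_eq hvP P.hp).mp hd)

/-- Flat at `p` outside the level. -/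
theorem flatAt_pointRep (hp : P.p ∉ P.minimal ∪ J) : FlatAt (pointRep hj hJ x) P.p := by
  have : NeZero (Q.twLevel (Q.geomHom j x) J) := ⟨Q.twLevel_ne_zero _ hJ⟩
  have hpL : ¬ P.p ∣ Q.twLevel (Q.geomHom j x) J := fun hd => by
    rcases (Q.prime_dvd_level hJ P.hp).mp ((Q.dvd_twLevel_iff _ P.hp).mp hd) with h | ⟨i, hi⟩
    · simp only [Finset.mem_union] at h hp
      rcases h with (h | h) | h
      · exact hp (Or.inl h)
      · exact P.p_notMem_extra h
      · exact hp (Or.inr h)
    · exact (Q.q_prime i).2.2 hi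
  exact flatAt_of_trace P.p P.hp2 (p_mem_of_isLocalHom P) hpL (Q.levelPrimes J) _
    (Q.exists_attached j hj hJ x).choose_spec.2.choose _ (matCont_pointRep hj hJ x)
    (fun σ => trace_pointRep hj hJ x σ) (absIrreducible_pointRep hj hJ x)

include hj hJ in
/-- The sign of a strictly ordinary point at `p` is the one of the problem. -/
theorem strictAt_sign (hpmem : P.p ∈ P.minimal ∪ P.raise) {ε : ℤ} (hε : ε = 1 ∨ ε = -1)
    (hstr : StrictAt (pointRep hj hJ x) P.p (ε : C)) :
    StrictAt (pointRep hj hJ x) P.p (algebraMap O C (P.ε P.p)) := by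
  obtain ⟨g0, hg0⟩ := exists_conj_residual hj hJ x
  have h1 : StrictAt (mapRep (ResidueField.map (algebraMap O C)) P.ρbar) P.p
      (residue C (ε : C)) :=
    (localProps_conjRep_symm hg0 P.p _).1 (Start.strictAt_map (residue C) hstr)
  have h2 : StrictAt (mapRep (ResidueField.map (algebraMap O C)) P.ρbar) P.p
      (ResidueField.map (algebraMap O C) (residue O (P.ε P.p))) :=
    Start.strictAt_map _ (Start.strictAt_map (residue O) (P.strict hpmem))
  have : CharP (ResidueField C) P.p :=
    haveI := charP_residueField P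
    charP_of_injective_ringHom (ResidueField.map (algebraMap O C)).injective P.p
  have hsq : ∀ {R : Type} [CommRing R] (z : R), z = 1 ∨ z = -1 → z * z = 1 := by
    rintro R _ z (rfl | rfl) <;> ring
  have hεC : (ε : C) = 1 ∨ (ε : C) = -1 := by rcases hε with rfl | rfl <;> simp
  have hεP : algebraMap O C (P.ε P.p) = 1 ∨ algebraMap O C (P.ε P.p) = -1 := by
    rcases P.sign P.p with h | h <;> simp [h]
  have heq := sign_eq_of_strictAt P.hp2 (Start.detCyclotomic_map _ (rhobar_det P))
    (by rw [← map_mul, hsq _ hεC, map_one])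
    (by rw [← map_mul, ← map_mul, hsq _ (P.sign P.p), map_one, map_one]) h1 h2
  rw [ResidueField.map_residue] at heq
  convert hstr using 1
  have h20 : (2 : ResidueField C) ≠ 0 := fun h => P.hp2 <| by
    have h' : ((2 : ℕ) : ResidueField C) = 0 := by exact_mod_cast h
    rw [CharP.cast_eq_zero_iff _ P.p] at h'
    exact (Nat.prime_dvd_prime_iff_eq P.hp Nat.prime_two).mp h'
  rcases hεC with h | h <;> rcases hεP with h' | h' <;> rw [h, h'] at heq ⊢ <;>
    (try simp only [map_one, map_neg] at heq) <;>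
    first
      | rfl
      | exact absurd (by linear_combination heq : (2 : ResidueField C) = 0) h20
      | exact absurd (by linear_combination -heq : (2 : ResidueField C) = 0) h20

/-- At `p` a point is flat or strictly ordinary with the sign of the problem. -/
theorem flat_or_strict (hpmem : P.p ∈ P.minimal ∪ P.raise) :
    FlatAt (pointRep hj hJ x) P.p ∨
      StrictAt (pointRep hj hJ x) P.p (algebraMap O C (P.ε P.p)) := by
  obtain ⟨M, hM0, g, hML, H⟩ := exists_onNewform hj hJ x
  by_cases hpM : P.p ∣ M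
  swap
  · obtain ⟨θ, hker, -, T, hT⟩ := H.exists_attached
    exact Or.inl (flatAt_of_trace P.p P.hp2 (p_mem_of_isLocalHom P) hpM (Q.levelPrimes J) θ T _
      H.cont hT (absIrreducible_pointRep hj hJ x))
  refine Or.inr ?_
  obtain ⟨ε, hε, hstr⟩ := H.exists_strictAt P.hp2 (absIrreducible_pointRep hj hJ x) hpM
    fun h => not_sq_dvd_twLevel hJ _ P.hp (fun i => (Q.q_prime i).2.2) (h.trans hML)
  exact strictAt_sign hj hJ x hpmem hε hstr

/-- Strictly ordinary at `p` when `p` is in the minimal level and the residual representation is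
not flat. -/
theorem strictAt_pointRep (hmin : P.p ∈ P.minimal)
    (hnf : ¬ FlatAt P.ρbar P.p) :
    StrictAt (pointRep hj hJ x) P.p (algebraMap O C (P.ε P.p)) := by
  rcases flat_or_strict hj hJ x (Finset.mem_union_left _ hmin) with h | h
  · obtain ⟨g0, hg0⟩ := exists_conj_residual hj hJ x
    exact absurd (flatAt_of_map _
      ((localProps_conjRep_symm hg0 P.p 1).2 (Start.flatAt_map (residue C) h))) hnf
  · exact h

end TWSet

end FLTAgent.PointsDatum
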