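import Fermat.Agent.ModularityLifting.PointsDatum.Hecke
import Fermat.Agent.ModularityLifting.Points.Coeff

/-!
# One coefficient ring for all the points of a set of Taylor–Wiles primes

`exists_coefficients`: one complete discrete valuation ring receives the points of the Hecke
algebras of all the levels (`AllPointsLift`).
-/

set_option autoImplicit false

noncomputable section

open IsLocalRing

namespace FLTAgent.PointsDatum

open FLTAgent.ModularityLifting FLTAgent.DefRing FLTAgent.HeckePoints

variable {O : Type} [CommRing O] [IsDomain O] [IsDiscreteValuationRing O] {P : LiftProblem O}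
  {n : ℕ} (Q : TWSet P n) [Fact P.p.Prime] [IsAdicComplete (maximalIdeal O) O]
  [Finite (ResidueField O)] [CharZero O] [ExtraThree P]

namespace TWSet

/-- All points of all levels take values in `C`. -/
def AllPointsLift {C : Type} [CommRing C] [Algebra O C] (j : C →ₐ[O] Kbar O) : Prop :=
  ∀ J ⊆ P.raise, ∀ f : Q.heckeAlg J →ₐ[O] Kbar O, ∃ x : Q.heckeAlg J →ₐ[O] C, j.comp x = f

/-- A complete discrete valuation ring receiving all the points. -/
theorem exists_coefficients :
    ∃ (C : Type) (_ : CommRing C) (_ : IsDomain C) (_ : IsDiscreteValuationRing C)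
      (_ : IsAdicComplete (maximalIdeal C) C) (_ : Finite (ResidueField C)) (_ : CharZero C)
      (_ : Algebra O C) (_ : Module.Finite O C) (_ : IsLocalHom (algebraMap O C))
      (j : C →ₐ[O] Kbar O),
      Function.Injective j ∧ Function.Injective (algebraMap O C) ∧ Q.AllPointsLift j := by
  classical
  have hfg : ∀ J : Finset ℕ, ∃ s : Finset (Q.heckeAlg J),
      Submodule.span O (s : Set (Q.heckeAlg J)) = ⊤ := fun J => Module.Finite.fg_top
  choose s hs using hfg
  have : ∀ J : Finset ℕ, Finite (Q.heckeAlg J →ₐ[O] Kbar O) := fun J =>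
    finite_points O (Q.heckeAlg J)
  let S : Set (Kbar O) := ⋃ J ∈ P.raise.powerset, ⋃ f : Q.heckeAlg J →ₐ[O] Kbar O, f '' (s J)
  have hSfin : S.Finite := P.raise.powerset.finite_toSet.biUnion fun J _ =>
    Set.finite_iUnion fun f => (s J).finite_toSet.image f
  obtain ⟨C, iC, iD, iV, iA, iF, iZ, iAlg, iFin, -, iL, j, hj, hinj, hsub⟩ :=
    exists_coeff O S hSfin fun z hz => by
      simp only [S, Set.mem_iUnion, Set.mem_image] at hz
      obtain ⟨J, -, f, x, -, rfl⟩ := hz
      exact (Algebra.IsIntegral.isIntegral (R := O) x).map f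
  refine ⟨C, iC, iD, iV, iA, iF, iZ, iAlg, iFin, iL, j, hj, hinj, fun J hJ f => ?_⟩
  have hrange : ∀ x, f x ∈ j.range := fun x => by
    have hx : x ∈ Submodule.span O (s J : Set (Q.heckeAlg J)) := hs J ▸ Submodule.mem_top
    induction hx using Submodule.span_induction with
    | mem y hy => exact hsub (Set.mem_biUnion (Finset.mem_powerset.mpr hJ)
        (Set.mem_iUnion.mpr ⟨f, y, hy, rfl⟩))
    | zero => rw [map_zero]; exact zero_mem _
    | add a b _ _ ha hb => rw [map_add]; exact add_mem ha hb
    | smul c a _ ha => rw [map_smul]; exact Subalgebra.smul_mem _ ha c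
  refine ⟨(AlgEquiv.ofInjective j hj).symm.toAlgHom.comp (f.codRestrict j.range hrange),
    AlgHom.ext fun x => ?_⟩
  exact congrArg Subtype.val ((AlgEquiv.ofInjective j hj).apply_symm_apply ⟨f x, hrange x⟩)

end TWSet

end FLTAgent.PointsDatum
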