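import Fermat.Agent.ModularityLifting.PointsDatum.PointRep
import Fermat.Agent.ModularityLifting.PointsDatum.Coefficients
import Fermat.Agent.ModularityLifting.Points.Product
import Mathlib.LinearAlgebra.Matrix.ToLin

/-!
# The action of the trace algebra on the eigenparts

The points of all levels form one finite set; by density each element of the trace algebra agrees at
the points of a level with a unique element of the Hecke algebra of that level, whose matrix gives
the action.
-/

set_option autoImplicit false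
set_option linter.unusedSectionVars false

noncomputable section

open IsLocalRing Matrix

namespace FLTAgent.PointsDatum

open FLTAgent.LevelRaising FLTAgent.ModularityLifting FLTAgent.DefRing FLTAgent.HeckePoints
  FLTAgent.GaloisAttach
open FLTAgent.Density (GalQ Qbar)

variable {O : Type} [CommRing O] [IsDomain O] [IsDiscreteValuationRing O] {P : LiftProblem O}
  {n : ℕ} {Q : TWSet P n} [Fact P.p.Prime] [IsAdicComplete (maximalIdeal O) O]
  [Finite (ResidueField O)] [CharZero O] [ExtraThree P]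
  {C : Type} [CommRing C] [IsDomain C] [IsDiscreteValuationRing C] [Algebra O C]
  [IsLocalHom (algebraMap O C)] [IsAdicComplete (maximalIdeal C) C] [Module.Finite O C] [CharZero C]
  {j : C →ₐ[O] Kbar O} (hj : Function.Injective j)

namespace TWSet

/-- The points of all levels. -/
abbrev Point (Q : TWSet P n) (C : Type) [CommRing C] [Algebra O C] : Type :=
  Σ J : ↥(P.raise.powerset), (Q.heckeAlg (J : Finset ℕ) →ₐ[O] C)

theorem point_subset (θ : Q.Point C) : (θ.1 : Finset ℕ) ⊆ P.raise :=
  Finset.mem_powerset.mp θ.1.2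

include hj in
theorem finite_levelPoints (J : Finset ℕ) : Finite (Q.heckeAlg J →ₐ[O] C) := by
  have := finite_points O (Q.heckeAlg J)
  exact Finite.of_injective (fun x => j.comp x) fun x y h => AlgHom.ext fun a =>
    hj (AlgHom.congr_fun h a)

include hj in
theorem finite_point : Finite (Q.Point C) := by
  have : ∀ J : ↥(P.raise.powerset), Finite (Q.heckeAlg (J : Finset ℕ) →ₐ[O] C) := fun J =>
    finite_levelPoints hj J
  infer_instance

/-- The representations at the points. -/
def rep (θ : Q.Point C) : MatRep C := pointRep hj (point_subset θ) θ.2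

/-- The diamond values at the points. -/
def uVal (θ : Q.Point C) (i : Fin P.r) : C := Q.pointHom θ.2 (twU O P.p P.r n i)

/-- The points of a level. -/
def pts (J : Finset ℕ) : Set (Q.Point C) := {θ | (θ.1 : Finset ℕ) = J}

theorem uVal_sub_one_mem (θ : Q.Point C) (i : Fin P.r) : uVal θ i - 1 ∈ maximalIdeal C := by
  have := isLocalHom_of_finite (Q.pointHom θ.2)
  rw [uVal, ← map_one (Q.pointHom θ.2), ← map_sub]
  exact map_nonunit (Q.pointHom θ.2 : TW P n →+* C) _ (twU_sub_one_mem O P.p P.r n P.p_mem i)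

/-- Values at the points of a level. -/
def restrictPts {J : Finset ℕ} (hJ : J ⊆ P.raise) :
    (Q.Point C → C) →ₐ[O] ((Q.heckeAlg J →ₐ[O] C) → C) :=
  AlgHom.pi fun x =>
    Pi.evalAlgHom O (fun _ : Q.Point C => C) ⟨⟨J, Finset.mem_powerset.mpr hJ⟩, x⟩

/-- Evaluation of a Hecke algebra at its points. -/
def evalPts (J : Finset ℕ) : Q.heckeAlg J →ₐ[O] ((Q.heckeAlg J →ₐ[O] C) → C) :=
  AlgHom.pi fun x => x

variable (hlift : Q.AllPointsLift j)

include hlift in
theorem evalPts_injective {J : Finset ℕ} (hJ : J ⊆ P.raise) :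
    Function.Injective (evalPts (Q := Q) (C := C) J) := by
  have := Q.isReduced_heckeAlg hJ
  refine (injective_iff_map_eq_zero _).mpr fun h hh =>
    IsReduced.eq_zero _ (isNilpotent_of_forall_point O (Q.heckeAlg J) fun f => ?_)
  obtain ⟨x, rfl⟩ := hlift J hJ f
  rw [AlgHom.comp_apply, show x h = 0 from congrFun hh x, map_zero]

include hj in
theorem algebraMap_p_ne_zero : algebraMap O C (P.p : O) ≠ 0 := by
  rw [map_natCast]
  exact Nat.cast_ne_zero.mpr P.hp.ne_zero

theorem restrict_mem_range {J : Finset ℕ} (hJ : J ⊆ P.raise)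
    (t : traceAlg O (rep (Q := Q) hj) uVal) :
    restrictPts hJ (t : Q.Point C → C) ∈ (evalPts (C := C) (Q := Q) J).range := by
  have := finite_levelPoints (Q := Q) hj J
  obtain ⟨t, ht⟩ := t
  have hle : traceAlg O (rep (Q := Q) hj) uVal ≤
      ((evalPts (C := C) (Q := Q) J).range).comap (restrictPts hJ) := by
    refine Algebra.adjoin_le ?_
    rintro _ (⟨σ, rfl⟩ | ⟨i, rfl⟩)
    · show restrictPts hJ _ ∈ (evalPts (C := C) (Q := Q) J).range
      have h := trace_mem_subalgebra (X := Q.heckeAlg J →ₐ[O] C) (ε := detHom P)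
        (lam := (P.p : O)) P.p_mem (algebraMap_p_ne_zero hj)
        (evalPts (C := C) (Q := Q) J).range (f := fun x => pointTrace hj hJ x)
        (fun x => isPseudoRep_pointTrace hj hJ x) (fun x => traceCont_pointTrace hj hJ x)
        (Q.levelPrimes J)
        (fun l hl hlS A hA φ hφ => ⟨Q.frobElt J l, funext fun x =>
          (pointTrace_frobenius hj hJ x hl ((Q.notMem_levelPrimes hJ hl).mp hlS) hA hφ).symm⟩) σ
      convert h using 1
      funext x
      exact trace_pointRep hj hJ x σ
    · exact ⟨algebraMap (TW P n) (Q.heckeAlg J) (twU O P.p P.r n i), rfl⟩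
  exact hle ht

/-- The element of a Hecke algebra agreeing with an element of the trace algebra. -/
def toHecke {J : Finset ℕ} (hJ : J ⊆ P.raise) :
    traceAlg O (rep (Q := Q) hj) uVal →ₐ[O] Q.heckeAlg J :=
  (AlgEquiv.ofInjective (evalPts (C := C) (Q := Q) J)
    (evalPts_injective hlift hJ)).symm.toAlgHom.comp
    (((restrictPts hJ).comp (traceAlg O (rep (Q := Q) hj) uVal).val).codRestrict
      (evalPts (C := C) (Q := Q) J).range (restrict_mem_range hj hJ))

theorem eval_toHecke {J : Finset ℕ} (hJ : J ⊆ P.raise) (t : traceAlg O (rep (Q := Q) hj) uVal)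
    (x : Q.heckeAlg J →ₐ[O] C) :
    x (toHecke hj hlift hJ t) =
      (t : Q.Point C → C) ⟨⟨J, Finset.mem_powerset.mpr hJ⟩, x⟩ :=
  congrFun (congrArg Subtype.val ((AlgEquiv.ofInjective (evalPts (C := C) (Q := Q) J)
    (evalPts_injective hlift hJ)).apply_symm_apply _)) x

theorem toHecke_eq {J : Finset ℕ} (hJ : J ⊆ P.raise) (t : traceAlg O (rep (Q := Q) hj) uVal)
    (h : Q.heckeAlg J) (hh : ∀ x : Q.heckeAlg J →ₐ[O] C,
      x h = (t : Q.Point C → C) ⟨⟨J, Finset.mem_powerset.mpr hJ⟩, x⟩) :
    toHecke hj hlift hJ t = h :=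
  evalPts_injective hlift hJ (funext fun x => (eval_toHecke hj hlift hJ t x).trans (hh x).symm)

theorem rank_eq_zero {J : Finset ℕ} (hJ : ¬ J ⊆ P.raise) : Q.rank J = 0 := if_neg hJ

open scoped Classical in
/-- The action on the eigenpart of a level. -/
def act (J : Finset ℕ) : traceAlg O (rep (Q := Q) hj) uVal →ₐ[O]
    Matrix (Fin (Q.rank J)) (Fin (Q.rank J)) (TW P n) :=
  if hJ : J ⊆ P.raise then
    ((Q.heckeAlg J).val.restrictScalars O).comp (toHecke hj hlift hJ)
  else
    haveI : IsEmpty (Fin (Q.rank J)) := by rw [rank_eq_zero hJ]; infer_instance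
    { toFun := fun _ => 0
      map_one' := Subsingleton.elim _ _
      map_mul' := fun _ _ => Subsingleton.elim _ _
      map_zero' := rfl
      map_add' := fun _ _ => Subsingleton.elim _ _
      commutes' := fun _ => Subsingleton.elim _ _ }

theorem act_eq {J : Finset ℕ} (hJ : J ⊆ P.raise) (t : traceAlg O (rep (Q := Q) hj) uVal) :
    act hj hlift J t = (toHecke hj hlift hJ t : Matrix _ _ (TW P n)) := by
  rw [act, dif_pos hJ]
  rfl

theorem act_u {J : Finset ℕ} (hJ : J ⊆ P.raise) (i : Fin P.r) :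
    act hj hlift J (uElem O (rep (Q := Q) hj) uVal i) =
      Matrix.scalar (Fin (Q.rank J)) (1 + Ideal.Quotient.mk _ (MvPowerSeries.X i)) := by
  rw [act_eq hj hlift hJ, toHecke_eq hj hlift hJ _
    (algebraMap (TW P n) (Q.heckeAlg J) (twU O P.p P.r n i)) fun x => rfl]
  rfl

theorem act_frob {J : Finset ℕ} (hJ : J ⊆ P.raise) {l : ℕ} (hl : l.Prime)
    (hlL : ¬ l ∣ Q.level J * P.p) {A : ValuationSubring Qbar} (hA : A.LiesOverPrime l) {σ : GalQ}
    (hσ : A.IsFrobeniusAt σ l) :
    act hj hlift J (trElem O (rep (Q := Q) hj) uVal σ) =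
      Ring.inverse (Q.twScalar l) • Q.tm J l := by
  rw [act_eq hj hlift hJ, toHecke_eq hj hlift hJ _ (Q.frobElt J l) fun x =>
    (pointTrace_frobenius hj hJ x hl hlL hA hσ).symm.trans (trace_pointRep hj hJ x σ).symm]
  show Subtype.val (algebraMap (TW P n) (Q.heckeAlg J) (Ring.inverse (Q.twScalar l)) * Q.tH J l) = _
  rw [← Algebra.smul_def]
  rfl

theorem act_vanish {J : Finset ℕ} (hJ : J ⊆ P.raise) (t : traceAlg O (rep (Q := Q) hj) uVal)
    (ht : ∀ θ ∈ pts J, (t : Q.Point C → C) θ = 0) : act hj hlift J t = 0 := by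
  rw [act_eq hj hlift hJ, toHecke_eq hj hlift hJ t 0 fun x => by rw [map_zero, ht _ rfl]]
  rfl

theorem act_vanish_zero {J : Finset ℕ} (hJ : J ⊆ P.raise)
    (t : traceAlg O (rep (Q := Q) hj) uVal)
    (ht : ∀ θ ∈ pts J, (∀ i, uVal θ i = 1) → (t : Q.Point C → C) θ = 0) (a b : Fin (Q.rank J)) :
    act hj hlift J t a b ∈ augIdeal O P.p P.r n := by
  classical
  rw [act_eq hj hlift hJ]
  set h := toHecke hj hlift hJ t
  let aug : Q.heckeAlg J →ₐ[O] Matrix (Fin (Q.rank J)) (Fin (Q.rank J)) O :=
    (twAug O P.p P.r n).mapMatrix.comp ((Q.heckeAlg J).val.restrictScalars O)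
  have : Module.IsTorsionFree O (Q.heckeAlg J ⧸ RingHom.ker aug) :=
    Function.Injective.moduleIsTorsionFree (Ideal.kerLiftAlg aug)
      (Ideal.kerLiftAlg_injective aug) fun c m => map_smul _ c m
  have hnil : IsNilpotent (Ideal.Quotient.mk (RingHom.ker aug) h) := by
    refine isNilpotent_of_forall_point O (Q.heckeAlg J ⧸ RingHom.ker aug) fun g => ?_
    obtain ⟨x, hx⟩ := hlift J hJ (g.comp (Ideal.Quotient.mkₐ O (RingHom.ker aug)))
    have hx' : ∀ y, j (x y) = g (Ideal.Quotient.mk (RingHom.ker aug) y) := fun y =>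
      AlgHom.congr_fun hx y
    rw [← hx', eval_toHecke hj hlift hJ t x]
    refine (congrArg j (ht _ rfl fun i => hj ?_)).trans (map_zero j)
    show j (x (algebraMap (TW P n) (Q.heckeAlg J) (twU O P.p P.r n i))) = j 1
    rw [hx', map_one, ← map_one g]
    congr 1
    refine Ideal.Quotient.eq.mpr ?_
    rw [RingHom.mem_ker, map_sub, map_one, sub_eq_zero]
    ext k l
    show twAug O P.p P.r n (algebraMap (TW P n) (Matrix (Fin (Q.rank J)) (Fin (Q.rank J)) (TW P n))
      (twU O P.p P.r n i) k l) = _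
    rw [Matrix.algebraMap_matrix_apply, Matrix.one_apply]
    split_ifs <;> simp [twAug_twU]
  have hn : IsNilpotent (aug h) := hnil.map (Ideal.kerLiftAlg aug)
  let f : TW P n →ₐ[O] Kbar O := (Algebra.ofId O (Kbar O)).comp (twAug O P.p P.r n)
  have hz : (h : Matrix (Fin (Q.rank J)) (Fin (Q.rank J)) (TW P n)).map f = 0 := by
    refine (Matrix.toLinAlgEquiv' (R := Kbar O)).injective ?_
    rw [map_zero]
    refine Module.End.eq_zero_of_isNilpotent_isSemisimple ?_ (Q.isSemisimple_heckeAlg hJ f h)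
    exact (hn.map ((algebraMap O (Kbar O)).mapMatrix)).map
      (Matrix.toLinAlgEquiv' (R := Kbar O) (n := Fin (Q.rank J)))
  rw [← ker_twAug O P.p P.r n P.p_mem, RingHom.mem_ker]
  exact algebraMap_kbar_injective O ((congrFun (congrFun hz a) b).trans (map_zero _).symm)

/-- The trace algebra is generated by the traces at good Frobenius elements and the diamond
values. -/
theorem adjoin_frob_eq_top :
    Algebra.adjoin O ({s | ∃ l, l.Prime ∧ l ∉ Q.badSet ∧
        s = trElem O (rep (Q := Q) hj) uVal (P.frob l)} ∪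
      Set.range (uElem O (rep (Q := Q) hj) uVal)) = ⊤ := by
  have := finite_point (Q := Q) hj
  refine Subalgebra.map_injective (f := (traceAlg O (rep (Q := Q) hj) uVal).val)
    Subtype.val_injective ?_
  rw [AlgHom.map_adjoin, Algebra.map_top, Subalgebra.range_val]
  refine le_antisymm (Algebra.adjoin_le fun _ ⟨y, _, e⟩ => e ▸ y.2) (Algebra.adjoin_le ?_)
  rintro _ (⟨σ, rfl⟩ | ⟨i, rfl⟩)
  · have h := trace_mem_subalgebra (X := Q.Point C) (ε := detHom P) (lam := (P.p : O)) P.p_mem
      (algebraMap_p_ne_zero hj) (Algebra.adjoin O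
        ((traceAlg O (rep (Q := Q) hj) uVal).val '' ({s | ∃ l, l.Prime ∧ l ∉ Q.badSet ∧
            s = trElem O (rep (Q := Q) hj) uVal (P.frob l)} ∪
          Set.range (uElem O (rep (Q := Q) hj) uVal))))
      (f := fun θ => pointTrace hj (point_subset θ) θ.2)
      (fun θ => isPseudoRep_pointTrace hj _ θ.2) (fun θ => traceCont_pointTrace hj _ θ.2) Q.badSet
      (fun l hl hlS A hA φ hφ => by
        refine Algebra.subset_adjoin ⟨trElem O (rep (Q := Q) hj) uVal (P.frob l),
          Or.inl ⟨l, hl, hlS, rfl⟩, funext fun θ => ?_⟩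
        have hlL : ¬ l ∣ Q.level θ.1 * P.p := fun h =>
          hlS (Q.mem_badSet_of_dvd (point_subset θ) hl h)
        exact (trace_pointRep hj (point_subset θ) θ.2 _).trans
          ((pointTrace_frobenius hj (point_subset θ) θ.2 hl hlL (P.place_spec l hl)
            (P.frob_spec l hl)).trans
            (pointTrace_frobenius hj (point_subset θ) θ.2 hl hlL hA hφ).symm)) σ
    refine SetLike.mem_coe.mpr ?_
    convert h using 1
    funext θ
    exact trace_pointRep hj _ θ.2 σ
  · exact Algebra.subset_adjoin ⟨uElem O (rep (Q := Q) hj) uVal i, Or.inr ⟨i, rfl⟩, rfl⟩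

/-- The basis of an eigenpart as a module basis. -/
def moduleBasis {J : Finset ℕ} (hJ : J ⊆ P.raise) :
    Module.Basis (Fin (Q.rank J)) (TW P n) (eigenPart (TW P n) (Q.delta J) Q.badSet Q.aTW) :=
  Module.Basis.mk (v := fun i => (⟨(Q.basis hJ).b i, (Q.basis hJ).mem i⟩ :
      eigenPart (TW P n) (Q.delta J) Q.badSet Q.aTW))
    (by
      refine LinearIndependent.of_comp (eigenPart (TW P n) (Q.delta J) Q.badSet Q.aTW).subtype ?_
      refine Fintype.linearIndependent_iff.mpr fun g hg i => ?_
      have h : comb (Q.basis hJ).b g = comb (Q.basis hJ).b 0 := by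
        rw [map_zero, comb_apply]
        simpa using hg
      exact congrFun ((Q.basis hJ).comb_inj h) i)
    (fun Φ _ => by
      obtain ⟨v, hv⟩ := (Q.basis hJ).span Φ.1 Φ.2
      rw [comb_apply] at hv
      rw [Submodule.mem_span_range_iff_exists_fun]
      exact ⟨v, Subtype.ext (by simpa using hv)⟩)

theorem moduleBasis_apply {J : Finset ℕ} (hJ : J ⊆ P.raise) (i : Fin (Q.rank J)) :
    ((moduleBasis hJ i : eigenPart (TW P n) (Q.delta J) Q.badSet Q.aTW) : Cusp → Cusp → TW P n) =
      (Q.basis hJ).b i := by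
  rw [moduleBasis, Module.Basis.mk_apply]

/-- The matrix of `T_l` in the module basis. -/
theorem toMatrix_tm {J : Finset ℕ} (hJ : J ⊆ P.raise) {l : ℕ} (hl : l.Prime)
    (hlL : ¬ l ∣ Q.level J * P.p)
    (T : Module.End (TW P n) (eigenPart (TW P n) (Q.delta J) Q.badSet Q.aTW))
    (hT : ∀ Φ : eigenPart (TW P n) (Q.delta J) Q.badSet Q.aTW,
      (T Φ : Cusp → Cusp → TW P n) = tOpChar (TW P n) (Q.delta J) l (Φ : Cusp → Cusp → TW P n)) :
    LinearMap.toMatrix (moduleBasis hJ) (moduleBasis hJ) T = Q.tm J l := by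
  ext a b
  rw [LinearMap.toMatrix_apply]
  have h : T (moduleBasis hJ b) =
      ∑ i, (Q.tm J l) i b • moduleBasis hJ i := Subtype.ext (by
    rw [hT, moduleBasis_apply, Q.tm_eq hJ hl hlL,
      (Q.basis hJ).tOp_b (Q.mem_badSet_of_dvd_level hJ) hl fun hd => hlL (hd.mul_right _),
      comb_apply]
    simp [moduleBasis_apply])
  rw [h, Module.Basis.repr_sum_self]

end TWSet

end FLTAgent.PointsDatum
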