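import Fermat.Agent.ModularityLifting.PointsDatum.Basic
import Fermat.Agent.LanglandsTunnell.CFT.AuxPrimes

/-!
# The Galois character of a set of Taylor–Wiles primes

The characters of the units at the primes `q i`, read through the cyclotomic characters, give a
character of the Galois group with values in the coefficient ring; inertia at `q i` contains an
element at which it takes the value `1 + X_i`.
-/

set_option autoImplicit false

noncomputable section

open IsLocalRing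
open scoped Pointwise

namespace FLTAgent.PointsDatum

open FLTAgent.ModularityLifting FLTAgent.DefRing
open FLTAgent.Density (GalQ Qbar)

/-- The cyclotomic character at a Frobenius element. -/
theorem cycloChar_frobenius {r : ℕ} [Fact r.Prime] {ℓ : ℕ} (hℓ : ℓ.Prime) (hℓr : ℓ ≠ r)
    {A : ValuationSubring Qbar} (hA : A.LiesOverPrime ℓ) {σ : GalQ} (hσ : A.IsFrobeniusAt σ ℓ) :
    ((ExtCitation.cycloChar r σ : (ZMod r)ˣ) : ZMod r) = (ℓ : ZMod r) := by
  have hr : r.Prime := Fact.out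
  have : NeZero r := ⟨hr.ne_zero⟩
  obtain ⟨ζ, hζ⟩ := HasEnoughRootsOfUnity.exists_primitiveRoot Qbar r
  have h1 := ExtVanishing.apply_primitiveRoot r hζ σ
  rw [Density.isFrobeniusAt_apply_of_pow_eq_one hℓ hA hσ
    (fun h => hℓr ((Nat.prime_dvd_prime_iff_eq hℓ hr).mp h)) hζ.pow_eq_one] at h1
  have h2 := (hζ.isOfFinOrder hr.ne_zero).pow_eq_pow_iff_modEq.mp h1
  rw [← hζ.eq_orderOf] at h2
  have h3 := (ZMod.natCast_eq_natCast_iff ..).mpr h2
  rw [ZMod.natCast_zmod_val] at h3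
  exact h3.symm

/-- Some element of inertia at `r` has a given cyclotomic value at `r`. -/
theorem exists_inertia_cycloChar {r : ℕ} [Fact r.Prime] (u : (ZMod r)ˣ) :
    ∃ (A : ValuationSubring Qbar) (σ : GalQ),
      A.LiesOverPrime r ∧ σ ∈ A.inertiaSubgroupIn ℚ ∧ ExtCitation.cycloChar r σ = u := by
  have hr : r.Prime := Fact.out
  have hu := LanglandsTunnell.CFT.cycloChar_surjective_inertia r u
  obtain ⟨A₀, hA₀⟩ := Density.exists_liesOverPrime hr
  let S : Subgroup (ZMod r)ˣ := (A₀.inertiaSubgroupIn ℚ).map (ExtCitation.cycloChar r)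
  have hle : Subgroup.closure {v : (ZMod r)ˣ | ∃ (A : ValuationSubring Qbar) (σ : GalQ),
      A.LiesOverPrime r ∧ σ ∈ A.inertiaSubgroupIn ℚ ∧ ExtCitation.cycloChar r σ = v} ≤ S := by
    rw [Subgroup.closure_le]
    rintro v ⟨A, σ, hA, hσ, rfl⟩
    obtain ⟨g, rfl⟩ := Density.exists_smul_eq_of_liesOverPrime hr hA₀ hA
    have h := Density.mem_inertiaSubgroupIn_smul hσ g⁻¹
    simp only [inv_inv, inv_smul_smul] at h
    exact ⟨_, h, by rw [map_mul, map_mul, map_inv, mul_comm (_⁻¹) _, inv_mul_cancel_right]⟩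
  obtain ⟨σ, hσ, h⟩ := hle hu
  exact ⟨A₀, σ, hA₀, hσ, h⟩

variable {O : Type} [CommRing O] [IsDomain O] [IsDiscreteValuationRing O] {P : LiftProblem O}
  {n : ℕ} (Q : TWSet P n)

namespace TWSet

/-- The cyclotomic character at `q i`. -/
def cyU (i : Fin P.r) : GalQ →* (ZMod (Q.q i))ˣ :=
  haveI : Fact (Q.q i).Prime := ⟨(Q.q_prime i).1⟩
  ExtCitation.cycloChar (Q.q i)

theorem cyU_frobenius (i : Fin P.r) {ℓ : ℕ} (hℓ : ℓ.Prime) (hℓq : Q.q i ≠ ℓ)
    {A : ValuationSubring Qbar} (hA : A.LiesOverPrime ℓ) {σ : GalQ} (hσ : A.IsFrobeniusAt σ ℓ) :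
    ((Q.cyU i σ : (ZMod (Q.q i))ˣ) : ZMod (Q.q i)) = (ℓ : ZMod (Q.q i)) :=
  haveI : Fact (Q.q i).Prime := ⟨(Q.q_prime i).1⟩
  cycloChar_frobenius hℓ (Ne.symm hℓq) hA hσ

theorem cyU_inertia (i : Fin P.r) {ℓ : ℕ} (hℓ : ℓ.Prime) (hℓq : Q.q i ≠ ℓ)
    {A : ValuationSubring Qbar} (hA : A.LiesOverPrime ℓ) {σ : GalQ}
    (hσ : σ ∈ A.inertiaSubgroupIn ℚ) : Q.cyU i σ = 1 :=
  haveI : Fact (Q.q i).Prime := ⟨(Q.q_prime i).1⟩
  LanglandsTunnell.CFT.cycloChar_eq_one_of_mem_inertia hℓ (Ne.symm hℓq) hA hσ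

/-- The Galois character with values in the coefficient ring. -/
def psi : GalQ →* TW P n where
  toFun σ := ∏ i, Q.twChar i (Q.cyU i σ : ZMod (Q.q i))
  map_one' := Finset.prod_eq_one fun i _ => by rw [map_one, Units.val_one, map_one]
  map_mul' σ τ := by
    rw [← Finset.prod_mul_distrib]
    exact Finset.prod_congr rfl fun i _ => by rw [map_mul, Units.val_mul, map_mul]

theorem psi_apply (σ : GalQ) : Q.psi σ = ∏ i, Q.twChar i (Q.cyU i σ : ZMod (Q.q i)) := rfl

theorem psi_frobenius {ℓ : ℕ} (hℓ : ℓ.Prime) (hℓq : ∀ i, Q.q i ≠ ℓ)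
    {A : ValuationSubring Qbar} (hA : A.LiesOverPrime ℓ) {σ : GalQ} (hσ : A.IsFrobeniusAt σ ℓ) :
    Q.psi σ = Q.twScalar ℓ := by
  rw [psi_apply, twScalar]
  exact Finset.prod_congr rfl fun i _ => by rw [Q.cyU_frobenius i hℓ (hℓq i) hA hσ]

/-- The character is trivial on the fixing group of a number field. -/
theorem psi_finite_level : ∃ L : IntermediateField ℚ Qbar, FiniteDimensional ℚ L ∧
    ∀ σ : GalQ, (∀ x ∈ L, σ x = x) → Q.psi σ = 1 := by
  have : ∀ i, NeZero (Q.q i) := fun i => Q.neZero_q i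
  choose ζ hζ using fun i => HasEnoughRootsOfUnity.exists_primitiveRoot Qbar (Q.q i)
  refine ⟨IntermediateField.adjoin ℚ (Set.range ζ),
    IntermediateField.finiteDimensional_adjoin fun z _ => Algebra.IsIntegral.isIntegral z,
    fun σ hσ => (Q.psi_apply σ).trans (Finset.prod_eq_one fun i _ => ?_)⟩
  have : Fact (Q.q i).Prime := ⟨(Q.q_prime i).1⟩
  have h : ((Q.cyU i σ : (ZMod (Q.q i))ˣ) : ZMod (Q.q i)) = 1 :=
    (ExtVanishing.cycChar_eq_one_iff _ (hζ i) σ).mpr
      (hσ _ (IntermediateField.subset_adjoin ℚ _ ⟨i, rfl⟩))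
  rw [h, map_one]

theorem residue_psi [Fact P.p.Prime] [IsAdicComplete (maximalIdeal O) O]
    [Finite (ResidueField O)] (σ : GalQ) : residue (TW P n) (Q.psi σ) = 1 := by
  rw [psi_apply, map_prod]
  refine Finset.prod_eq_one fun i _ => ?_
  obtain ⟨k, hk⟩ := Q.twChar_apply_zpow i (Q.cyU i σ)
  rw [hk, map_pow, Q.residue_twU, one_pow]

theorem exists_tame (i : Fin P.r) : ∃ (A : ValuationSubring Qbar) (τ : GalQ),
    A.LiesOverPrime (Q.q i) ∧ τ ∈ A.inertiaSubgroupIn ℚ ∧ Q.cyU i τ = Q.gen i :=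
  haveI : Fact (Q.q i).Prime := ⟨(Q.q_prime i).1⟩
  exists_inertia_cycloChar (Q.gen i)

/-- An element of inertia at `q i` acting by the generator on the roots of unity. -/
def tame (i : Fin P.r) : GalQ := (Q.exists_tame i).choose_spec.choose

theorem tame_mem (i : Fin P.r) : ∃ A : ValuationSubring Qbar,
    A.LiesOverPrime (Q.q i) ∧ Q.tame i ∈ A.inertiaSubgroupIn ℚ :=
  ⟨_, (Q.exists_tame i).choose_spec.choose_spec.1, (Q.exists_tame i).choose_spec.choose_spec.2.1⟩

theorem psi_tame (i : Fin P.r) : Q.psi (Q.tame i) = twU O P.p P.r n i := by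
  classical
  obtain ⟨hA, hτ, hgen⟩ := (Q.exists_tame i).choose_spec.choose_spec
  rw [psi_apply, Finset.prod_eq_single i (fun j _ hj => ?_) (by simp)]
  · rw [show Q.cyU i (Q.tame i) = Q.gen i from hgen, twChar_gen]
  · rw [show Q.cyU j (Q.tame i) = 1 from
      Q.cyU_inertia j (Q.q_prime i).1 (fun h => hj (Q.q_inj h)) hA hτ, Units.val_one, map_one]

end TWSet

end FLTAgent.PointsDatum
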