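import Fermat.Agent.ModularityLifting.PointsDatum.TameVector
import Fermat.Agent.ModularityLifting.PointsDatum.Action
import Fermat.Agent.ModularityLifting.PointsDatum.Characters
import Fermat.Agent.ModularityLifting.TWInertia
import Fermat.Agent.ModularityLifting.Degeneracy.TWOld
import Fermat.Agent.ModularityLifting.Start.Transfer

/-!
# The trace on tame inertia at a Taylor–Wiles prime

The untwisted representation of a point, over a ring containing an eigenvalue of `U` at `q i`,
satisfies `trace = 1 + det` on inertia at `q i`.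
-/

set_option autoImplicit false
set_option linter.unusedSectionVars false
set_option maxSynthPendingDepth 3

noncomputable section

open IsLocalRing Matrix CongruenceSubgroup

namespace FLTAgent.PointsDatum

open FLTAgent.LevelRaising FLTAgent.ModularityLifting FLTAgent.DefRing FLTAgent.HeckePoints
open FLTAgent.Density (GalQ Qbar)

/-- `trace_inertia_of_twPrime` at a level given by an equation. -/
theorem trace_inertia_of_twPrime_level (p : ℕ) [Fact p.Prime] (hp2 : p ≠ 2) {L M t : ℕ}
    (hL : L = M * t) [NeZero M] (ht : t.Prime) (htp : t ≠ p) (hM : ¬ t ∣ M) (ht1 : p ∣ t - 1)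
    {O' : Type} [CommRing O'] [IsDomain O'] [IsDiscreteValuationRing O']
    [IsAdicComplete (maximalIdeal O') O'] [Finite (ResidueField O')] [CharZero O']
    [CharP (ResidueField O') p]
    (δ : DirichletCharacter O' L) (hδ : ∀ u : (ZMod L)ˣ, ∃ k, δ u ^ p ^ k = 1)
    (S : Finset ℕ) (hS : ∀ q, q.Prime → q ∣ L * p → q ∈ S) (a : ℕ → O')
    (Φ : Cusp → Cusp → O') (hΦ : Φ ∈ SymbChar O' δ) (hne : Φ ≠ 0)
    (ha : ∀ l, l.Prime → l ∉ S → tOpChar O' δ l Φ = a l • Φ)
    (b : O') (hb : uOp O' t Φ = b • Φ) (ρ : MatRep O') (hρ : MatCont ρ)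
    (hfrob : ∀ l, l.Prime → l ∉ S → ∀ P : ValuationSubring Qbar, P.LiesOverPrime l →
      ∀ φ, P.IsFrobeniusAt φ l → (ρ φ).trace = a l ∧ (ρ φ).det = l * δ (l : ZMod L))
    (hirr : AbsIrreducibleOn (mapRep (residue O') ρ) ⊤)
    (hunr : UnramifiedAt (mapRep (residue O') ρ) t)
    (hdist : ∀ P : ValuationSubring Qbar, P.LiesOverPrime t → ∀ φ, P.IsFrobeniusAt φ t →
      ∃ α β, α ≠ β ∧ α + β = (mapRep (residue O') ρ φ).trace ∧
        α * β = (mapRep (residue O') ρ φ).det ∧ residue O' b = α) :
    ∀ P : ValuationSubring Qbar, P.LiesOverPrime t → ∀ τ ∈ P.inertiaSubgroupIn ℚ,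
      (ρ τ).trace = 1 + (ρ τ).det := by
  subst hL
  exact trace_inertia_of_twPrime p hp2 ht htp hM ht1 δ hδ S hS a Φ hΦ hne ha b hb ρ hρ hfrob hirr
    hunr hdist

/-- The residual root property of `U_t` at a level given by an equation. -/
theorem root_of_twPrime (p : ℕ) [Fact p.Prime] (hp2 : p ≠ 2) {O : Type} [CommRing O] [IsDomain O]
    [IsDiscreteValuationRing O] [IsAdicComplete (maximalIdeal O) O] [Finite (ResidueField O)]
    [CharZero O] [CharP (ResidueField O) p]
    {L N t : ℕ} (hL : L = N * t) [NeZero N] (ht : t.Prime) (htp : t ≠ p) (htN : ¬ t ∣ N)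
    (ht1 : t % p = 1) (S : Finset ℕ) (hS : ∀ l, l.Prime → l ∣ L * p → l ∈ S)
    (hell : p = 3 → ∃ s, s.Prime ∧ s ∣ N ∧ s % 3 = 2)
    (ρ : MatRep (ResidueField O)) (hρ : MatCont ρ) (hdet : DetCyclotomic ρ p)
    (hirr : AbsIrreducibleOn ρ ⊤) (hunr : UnramifiedAt ρ t)
    (hdist : ∀ A : ValuationSubring Qbar, A.LiesOverPrime t → ∀ φ, A.IsFrobeniusAt φ t →
      ∃ α β, α ≠ β ∧ α + β = (ρ φ).trace ∧ α * β = (ρ φ).det)
    (a : ℕ → O) (ha : ∀ l, l.Prime → l ∉ S → ∀ A : ValuationSubring Qbar, A.LiesOverPrime l →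
      ∀ φ, A.IsFrobeniusAt φ l → (ρ φ).trace = residue O (a l))
    (hne : ∃ ℓ, ℓ.Prime ∧ ℓ ∉ S ∧ ℓ % L = 1 % L ∧ residue O (a ℓ) ≠ residue O (1 + ℓ))
    (δ : DirichletCharacter (ResidueField O) L) (hδ : δ = 1)
    {A : ValuationSubring Qbar} (hA : A.LiesOverPrime t) {φ : GalQ} (hφ : A.IsFrobeniusAt φ t)
    {Φ : Cusp → Cusp → ResidueField O}
    (hΦ : Φ ∈ eigenPart (ResidueField O) δ S (residue O ∘ a)) (hΦ0 : Φ ≠ 0)
    {b : ResidueField O} (hb : uOp (ResidueField O) t Φ = b • Φ) :
    b ^ 2 - (ρ φ).trace * b + (ρ φ).det = 0 := by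
  subst hL hδ
  exact (twPrime_old p hp2 ht htp htN ht1 S hS hell ρ hρ hdet hirr hunr hdist a ha hne).2
    A hA φ hφ Φ hΦ hΦ0 b hb

variable {O : Type} [CommRing O] [IsDomain O] [IsDiscreteValuationRing O] {P : LiftProblem O}
  {n : ℕ} {Q : TWSet P n} [Fact P.p.Prime] [IsAdicComplete (maximalIdeal O) O]
  [Finite (ResidueField O)] [CharZero O] [ExtraThree P]
  {C : Type} [CommRing C] [IsDomain C] [IsDiscreteValuationRing C] [Algebra O C]
  [IsLocalHom (algebraMap O C)] [IsAdicComplete (maximalIdeal C) C] [Module.Finite O C] [CharZero C]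
  {j : C →ₐ[O] Kbar O} (hj : Function.Injective j)
  {J : Finset ℕ} (hJ : J ⊆ P.raise) (x : Q.heckeAlg J →ₐ[O] C)

namespace TWSet

/-- A representation twisted by a character. -/
def twistRep {R : Type} [CommRing R] (χ : GalQ →* R) (M : MatRep R) : MatRep R where
  toFun σ := χ σ • M σ
  map_one' := by rw [map_one, map_one, one_smul]
  map_mul' σ τ := by rw [map_mul, map_mul, smul_mul_smul_comm]

theorem trace_twistRep {R : Type} [CommRing R] (χ : GalQ →* R) (M : MatRep R) (σ : GalQ) :
    (twistRep χ M σ).trace = χ σ * (M σ).trace := by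
  show (χ σ • M σ).trace = _
  rw [Matrix.trace_smul, smul_eq_mul]

theorem det_twistRep {R : Type} [CommRing R] (χ : GalQ →* R) (M : MatRep R) (σ : GalQ) :
    (twistRep χ M σ).det = χ σ ^ 2 * (M σ).det := by
  show (χ σ • M σ).det = _
  rw [Matrix.det_smul, Fintype.card_fin]

theorem q_mod_p (i : Fin P.r) : Q.q i % P.p = 1 := by
  rw [← Nat.mod_mod_of_dvd (Q.q i) (dvd_pow_self P.p (Nat.succ_ne_zero n)), Q.q_cong i,
    Nat.one_mod_eq_one.mpr P.hp.ne_one]

theorem rho_unramified_q (i : Fin P.r) : UnramifiedAt P.ρ (Q.q i) :=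
  P.unram (Q.q i) (Q.q_prime i).1 (fun h => (Q.q_prime i).2.1 (by
    simp only [LiftProblem.loc, Finset.mem_union] at h ⊢
    tauto)) (Q.q_prime i).2.2

/-- The level of `J` without the prime `q i`. -/
private def awayLevel (Q : TWSet P n) (J : Finset ℕ) (i : Fin P.r) : ℕ :=
  baseLevel P J * ∏ u ∈ Finset.univ.erase i, Q.q u

private theorem level_eq_awayLevel_mul (i : Fin P.r) :
    Q.level J = awayLevel Q J i * Q.q i := by
  rw [awayLevel, mul_assoc, Finset.prod_erase_mul _ _ (Finset.mem_univ i)]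
  rfl

include hJ in
private theorem not_dvd_awayLevel (i : Fin P.r) : ¬ Q.q i ∣ awayLevel Q J i := fun h => by
  have htP : (Q.q i).Prime := (Q.q_prime i).1
  rcases htP.dvd_mul.mp h with h | h
  · obtain ⟨v, hv, hd⟩ := htP.prime.exists_mem_finset_dvd h
    obtain ⟨hvP, hvl⟩ := mem_primes hJ hv
    have e : Q.q i = v := (Nat.prime_dvd_prime_iff_eq htP hvP).mp hd
    rw [← e] at hvl
    exact (Q.q_prime i).2.1 hvl
  · obtain ⟨u, hu, hd⟩ := htP.prime.exists_mem_finset_dvd h
    exact (Finset.mem_erase.mp hu).1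
      (Q.q_inj ((Nat.prime_dvd_prime_iff_eq htP (Q.q_prime u).1).mp hd)).symm

section Untwist

variable {C' : Type} [CommRing C'] [IsDomain C'] [IsDiscreteValuationRing C']
  [IsAdicComplete (maximalIdeal C') C'] [Finite (ResidueField C')] [CharZero C'] [Algebra O C']
  [Module.Finite O C'] [IsLocalHom (algebraMap O C')] (ι : C →ₐ[O] C')

/-- The character of a point removed by the twist, in an extension of the coefficients. -/
private def untwistChar : GalQ →* C' :=
  ((ι.comp (Q.pointHom x) : TW P n →ₐ[O] C') : TW P n →+* C').toMonoidHom.comp Q.psi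

private theorem untwistChar_apply (σ : GalQ) :
    untwistChar x ι σ = ι (Q.pointHom x (Q.psi σ)) := rfl

/-- The untwisted representation of a point. -/
private def untwistRep : MatRep C' :=
  twistRep (untwistChar x ι) (mapRep (ι : C →+* C') (pointRep hj hJ x))

/-- The untwisted representation has the residual representation of the point. -/
private theorem residual_untwistRep [IsLocalHom (ι : C →+* C')] :
    mapRep (residue C') (untwistRep hj hJ x ι) =
      mapRep (ResidueField.map (ι : C →+* C')) (mapRep (residue C) (pointRep hj hJ x)) := by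
  have := isLocalHom_of_finite (ι.comp (Q.pointHom x))
  refine MonoidHom.ext fun σ => ?_
  ext a c
  show residue C' ((untwistChar x ι σ • mapRep (ι : C →+* C') (pointRep hj hJ x) σ) a c) =
    ResidueField.map (ι : C →+* C') (residue C (pointRep hj hJ x σ a c))
  have hψ : residue C' (untwistChar x ι σ) = 1 := by
    show residue C' (((ι.comp (Q.pointHom x)) : TW P n →+* C') (Q.psi σ)) = 1
    rw [← ResidueField.map_residue, Q.residue_psi, map_one]
  rw [Matrix.smul_apply, smul_eq_mul, map_mul, hψ, one_mul, ResidueField.map_residue]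
  rfl

/-- Residually, trace and determinant of the untwisted representation are those of `ρbar`. -/
private theorem residual_untwistRep_trace_det [IsLocalHom (ι : C →+* C')] (σ : GalQ) :
    (mapRep (residue C') (untwistRep hj hJ x ι) σ).trace =
        ResidueField.map (algebraMap O C') (P.ρbar σ).trace ∧
      (mapRep (residue C') (untwistRep hj hJ x ι) σ).det =
        ResidueField.map (algebraMap O C') (P.ρbar σ).det := by
  obtain ⟨g0, hg0⟩ := exists_conj_residual hj hJ x
  rw [residual_untwistRep, hg0]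
  refine ⟨?_, ?_⟩
  · rw [Start.mapRep_trace, Engine.trace_conjRep, Start.mapRep_trace, LiftProblem.ρbar,
      Start.mapRep_trace, ResidueField.map_residue, ResidueField.map_residue,
      ResidueField.map_residue]
    exact congrArg _ (ι.commutes _)
  · rw [Start.mapRep_det, Engine.det_conjRep, Start.mapRep_det, LiftProblem.ρbar,
      Start.mapRep_det, ResidueField.map_residue, ResidueField.map_residue,
      ResidueField.map_residue]
    exact congrArg _ (ι.commutes _)

/-- The untwisted representation is continuous. -/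
private theorem matCont_untwistRep [IsLocalHom (ι : C →+* C')] :
    MatCont (untwistRep hj hJ x ι) := by
  intro m
  obtain ⟨L1, hL1, h1⟩ := (matCont_pointRep hj hJ x).map (ι : C →+* C') ‹_› m
  obtain ⟨L2, hL2, h2⟩ := Q.psi_finite_level
  refine ⟨L1 ⊔ L2, inferInstance, fun σ hσ a c => ?_⟩
  have h := h1 σ (fun y hy => hσ y (SetLike.le_def.mp le_sup_left hy)) a c
  have e : untwistRep hj hJ x ι σ = mapRep (ι : C →+* C') (pointRep hj hJ x) σ := by
    show untwistChar x ι σ • mapRep (ι : C →+* C') (pointRep hj hJ x) σ = _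
    rw [untwistChar_apply, h2 σ fun y hy => hσ y (SetLike.le_def.mp le_sup_right hy), map_one,
      map_one, one_smul]
  rwa [e]

/-- At good primes the untwisted representation has the trace and determinant of the level. -/
private theorem untwistRep_frobenius {l : ℕ} (hl : l.Prime) (hlS : l ∉ Q.levelPrimes J)
    {A : ValuationSubring Qbar} (hA : A.LiesOverPrime l) {σ : GalQ} (hσ : A.IsFrobeniusAt σ l) :
    (untwistRep hj hJ x ι σ).trace = ι (x (Q.tH J l)) ∧
      (untwistRep hj hJ x ι σ).det =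
        l * (Q.delta J).ringHomComp ((ι.comp (Q.pointHom x) : TW P n →ₐ[O] C') : TW P n →+* C')
          (l : ZMod (Q.level J)) := by
  have hlL := (Q.notMem_levelPrimes hJ hl).mp hlS
  have hψσ : untwistChar x ι σ = ι (Q.pointHom x (Q.twScalar l)) := by
    rw [untwistChar_apply,
      Q.psi_frobenius hl (fun u h => hlL ((h ▸ Q.q_dvd_level u J).mul_right _)) hA hσ]
  refine ⟨?_, ?_⟩
  · rw [untwistRep, trace_twistRep, hψσ, Start.mapRep_trace, trace_pointRep,
      pointTrace_frobenius hj hJ x hl hlL hA hσ]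
    show _ = ι (x (Q.tH J l))
    rw [← Q.pointHom_twScalar_mul x hl hlL, map_mul, mul_comm]
    rfl
  · have hlp : l ≠ P.p := fun h => hlL (by rw [h]; exact dvd_mul_left P.p _)
    rw [untwistRep, det_twistRep, hψσ, Start.mapRep_det, det_pointRep,
      show algebraMap O C (P.ρ σ).det = algebraMap O C (detHom P σ) from rfl, detHom_eq_cycChar,
      cycChar_frobenius P.p_mem hl hlp hA hσ, map_natCast, map_natCast,
      MulChar.ringHomComp_apply,
      ← Q.twScalar_mul_self J (hl.coprime_iff_not_dvd.mpr fun h => hlL (h.mul_right _)), map_mul,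
      pow_two, mul_comm (l : C')]
    rfl

end Untwist

section Residual

variable {C' : Type} [CommRing C'] [IsDomain C'] [IsDiscreteValuationRing C']
  [IsAdicComplete (maximalIdeal C') C'] [Finite (ResidueField C')] [CharZero C'] [Algebra O C']
  [Module.Finite O C'] [IsLocalHom (algebraMap O C')] (φ : TW P n →ₐ[O] C')

include hJ in
/-- A primitive vector gives a symbol with nonzero reduction. -/
private theorem residue_comb_ne_zero {w : Fin (Q.rank J) → C'} (hw : ∃ k, IsUnit (w k)) :
    mapVal (residue C') (comb (Q.symb hJ (φ : TW P n →+* C')) w) ≠ 0 := by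
  obtain ⟨k0, hk0⟩ := hw
  have hw0 : residue C' ∘ w ≠ 0 := fun h => hk0.map (residue C') |>.ne_zero (congrFun h k0)
  have hΦres : mapVal (residue C') (comb (Q.symb hJ (φ : TW P n →+* C')) w) =
      comb (Q.symb hJ ((residue C').comp (φ : TW P n →+* C'))) (residue C' ∘ w) := by
    funext a c
    simp only [HeckePoints.comb_apply, mapVal, symb, Finset.sum_apply, Pi.smul_apply,
      smul_eq_mul, map_sum, map_mul, Function.comp_apply, RingHom.comp_apply]
  exact fun h => hw0 (Q.symb_comb_injective hJ _ (by rw [← hΦres, h, map_zero]))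

/-- The character of a level is residually trivial. -/
private theorem residue_delta :
    ((Q.delta J).ringHomComp (φ : TW P n →+* C')).ringHomComp (residue C') = 1 := by
  have := isLocalHom_of_finite φ
  refine MulChar.ext fun u => ?_
  obtain ⟨d, hd⟩ := ZMod.intCast_surjective (u : ZMod (Q.level J))
  rw [MulChar.one_apply_coe, MulChar.ringHomComp_apply, MulChar.ringHomComp_apply, ← hd,
    Q.delta_apply J (hd.symm ▸ u.isUnit), map_prod, map_prod]
  refine Finset.prod_eq_one fun s _ => ?_
  have hs : IsUnit (d : ZMod (Q.q s)) := by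
    have := (hd.symm ▸ u.isUnit : IsUnit (d : ZMod (Q.level J))).map
      (ZMod.castHom (Q.q_dvd_level s J) (ZMod (Q.q s)))
    rwa [map_intCast] at this
  obtain ⟨e, he⟩ := Q.twChar_apply_zpow s hs.unit
  rw [hs.unit_spec] at he
  rw [he, map_pow, map_pow, map_pow, map_pow, ← ResidueField.map_residue, Q.residue_twU,
    map_one, one_pow, one_pow]

include hJ in
/-- An eigenvalue of `U` at `q i` is residually a root of the polynomial of Frobenius. -/
private theorem residual_root (i : Fin P.r) {w : Fin (Q.rank J) → C'} (hw : ∃ k, IsUnit (w k))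
    {b : C'} (hU : (Q.uM hJ (Q.q i)).map φ *ᵥ w = b • w)
    {A : ValuationSubring Qbar} (hA : A.LiesOverPrime (Q.q i)) {σ : GalQ}
    (hσ : A.IsFrobeniusAt σ (Q.q i)) :
    residue C' b ^ 2 - ResidueField.map (algebraMap O C') (P.ρbar σ).trace * residue C' b +
      ResidueField.map (algebraMap O C') (P.ρbar σ).det = 0 := by
  classical
  have := isLocalHom_of_finite φ
  have : CharP (ResidueField C') P.p :=
    haveI := charP_residueField P
    charP_of_injective_ringHom (ResidueField.map (algebraMap O C')).injective P.p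
  have : NeZero (awayLevel Q J i) :=
    ⟨left_ne_zero_of_mul (level_eq_awayLevel_mul (Q := Q) (J := J) i ▸ Q.level_ne_zero hJ)⟩
  set ι' := ResidueField.map (algebraMap O C') with hι'
  set Φ := comb (Q.symb hJ (φ : TW P n →+* C')) w
  have hρc : MatCont (mapRep ι' P.ρbar) := by
    obtain ⟨L, hL', hfix⟩ := rhobar_finite P
    refine fun m => ⟨L, hL', fun τ hτ a c => ?_⟩
    rw [Start.mapRep_eq, hfix τ hτ, map_one, sub_self]
    exact zero_mem _
  have hell : P.p = 3 → ∃ s, s.Prime ∧ s ∣ awayLevel Q J i ∧ s % 3 = 2 := fun h3 => by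
    obtain ⟨s, hs, hs3⟩ := ExtraThree.out (P := P) h3
    exact ⟨s, P.prime s (by simp [hs]),
      (Finset.dvd_prod_of_mem _ (by simp [hs] : s ∈ P.minimal ∪ P.extra ∪ J)).mul_right _, hs3⟩
  have hΦmem : mapVal (residue C') Φ ∈ eigenPart (ResidueField C')
      (((Q.delta J).ringHomComp (φ : TW P n →+* C')).ringHomComp (residue C')) Q.badSet
      (residue C' ∘ fun l => φ (Q.aTW l)) :=
    mapVal_mem_eigenPart (residue C') residue_surjective (Q.mem_badSet_of_dvd_level hJ)
      (Q.comb_mem_eigenPart hJ (φ : TW P n →+* C') w)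
  have hbres : uOp (ResidueField C') (Q.q i) (mapVal (residue C') Φ) =
      residue C' b • mapVal (residue C') Φ := by
    rw [← Degeneracy.map_uOp, Q.uOp_comb hJ _ (Q.q_prime i).1 (Q.q_dvd_level i J),
      show (Q.uM hJ (Q.q i)).map (φ : TW P n →+* C') *ᵥ w = b • w from hU, map_smul, mapVal_smul]
  have htr : ∀ (τ : GalQ), (mapRep ι' P.ρbar τ).trace = ι' (P.ρbar τ).trace := fun τ =>
    Start.mapRep_trace _ τ
  rw [← htr σ, ← Start.mapRep_det ι' σ]
  refine root_of_twPrime P.p P.hp2 (level_eq_awayLevel_mul (Q := Q) (J := J) i) (Q.q_prime i).1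
    (Q.q_prime i).2.2 (not_dvd_awayLevel hJ i) (q_mod_p i) Q.badSet
    (fun l hl h => Q.mem_badSet_of_dvd hJ hl h) hell _ hρc
    (Start.detCyclotomic_map _ (rhobar_det P))
    (Start.absIrreducibleOn_map _ P.irr) (Start.unramifiedAt_map _ (Start.unramifiedAt_map _
      (rho_unramified_q i))) (fun A' hA' τ hτ => ?_) (fun l => φ (Q.aTW l))
    (fun l hl hlS A' hA' τ hτ => ?_) ?_ _ (residue_delta φ) hA hσ hΦmem
    (residue_comb_ne_zero hJ φ hw) hbres
  · obtain ⟨α, β, hne, hs, hp⟩ := Q.dist i A' hA' τ hτ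
    exact ⟨ι' α, ι' β, fun h => hne (ι'.injective h), by rw [← map_add, hs, htr],
      by rw [← map_mul, hp, Start.mapRep_det]⟩
  · have hlU : l ∉ P.minimal ∪ P.raise := fun h => hlS (by
      simp only [badSet, LiftProblem.loc, Finset.mem_union] at h ⊢
      tauto)
    have hlp : l ≠ P.p := fun h => hlS (by simp [badSet, h])
    rw [htr, LiftProblem.ρbar, Start.mapRep_trace, hι', ResidueField.map_residue,
      (trace_frobenius_eq hl (P.unram l hl hlU hlp) hA' (P.place_spec l hl) hτ
        (P.frob_spec l hl)).1,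
      aTW, AlgHom.commutes]
  · obtain ⟨ℓ, h1, h2, h3, h4⟩ := Q.exists_non_eisenstein_map (φ : TW P n →+* C') Q.badSet
      (Q.level_ne_zero hJ)
    exact ⟨ℓ, h1, h2, h3, h4⟩

end Residual

include hj in
theorem tame_trace_point (i : Fin P.r) :
    (pointRep hj hJ x (Q.tame i)).trace * Q.pointHom x (twU O P.p P.r n i) =
      Q.pointHom x (twU O P.p P.r n i) ^ 2 + 1 := by
  classical
  have htP : (Q.q i).Prime := (Q.q_prime i).1
  have htL : Q.q i ∣ Q.level J := Q.q_dvd_level i J
  obtain ⟨C', iC', iD', iV', iA', iF', iZ', iAlg', iFin', iL', ι, j', hj', hι, w, b, hw,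
    hT, hU⟩ := Q.exists_integral_uEigen j hJ x htP htL
  set φ : TW P n →ₐ[O] C' := ι.comp (Q.pointHom x) with hφdef
  have := isLocalHom_of_finite ι
  have : CharP (ResidueField C') P.p :=
    haveI := charP_residueField P
    charP_of_injective_ringHom (ResidueField.map (algebraMap O C')).injective P.p
  have hL := level_eq_awayLevel_mul (Q := Q) (J := J) i
  have : NeZero (awayLevel Q J i) := ⟨left_ne_zero_of_mul (hL ▸ Q.level_ne_zero hJ)⟩
  set Φ := comb (Q.symb hJ (φ : TW P n →+* C')) w
  set δ := (Q.delta J).ringHomComp (φ : TW P n →+* C') with hδdef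
  set a : ℕ → C' := fun l => ι (x (Q.tH J l))
  have hΦ0 : Φ ≠ 0 := fun h => residue_comb_ne_zero hJ φ hw (by
    show mapVal (residue C') Φ = 0
    rw [h, mapVal_zero])
  have ha : ∀ l, l.Prime → l ∉ Q.levelPrimes J → tOpChar C' δ l Φ = a l • Φ := fun l hl hlS => by
    rw [hδdef, Q.tOpChar_comb hJ _ hl ((Q.notMem_levelPrimes hJ hl).mp hlS),
      show (Q.tm J l).map (φ : TW P n →+* C') *ᵥ w = ι (x (Q.tH J l)) • w from hT l, map_smul]
  have hb : uOp C' (Q.q i) Φ = b • Φ := by
    rw [Q.uOp_comb hJ _ htP htL,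
      show (Q.uM hJ (Q.q i)).map (φ : TW P n →+* C') *ᵥ w = b • w from hU, map_smul]
  have hirr : AbsIrreducibleOn (mapRep (residue C') (untwistRep hj hJ x ι)) ⊤ := by
    rw [residual_untwistRep]
    exact Start.absIrreducibleOn_map _ (absIrreducible_pointRep hj hJ x)
  have hunr : UnramifiedAt (mapRep (residue C') (untwistRep hj hJ x ι)) (Q.q i) := by
    obtain ⟨g0, hg0⟩ := exists_conj_residual hj hJ x
    rw [residual_untwistRep, hg0]
    exact Start.unramifiedAt_map _ ((localProps_conj (M' := mapRep _ P.ρbar) (fun _ => rfl) _ 1).1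
      (Start.unramifiedAt_map _ (Start.unramifiedAt_map _ (rho_unramified_q i))))
  have ht1 : P.p ∣ Q.q i - 1 := by
    refine (Nat.modEq_iff_dvd' htP.one_le).mp ?_
    show 1 % P.p = Q.q i % P.p
    rw [q_mod_p i, Nat.one_mod_eq_one.mpr P.hp.ne_one]
  have hδord : ∀ u : (ZMod (Q.level J))ˣ, ∃ k, δ u ^ P.p ^ k = 1 := fun u => ⟨n, by
    rw [hδdef, MulChar.ringHomComp_apply, ← map_pow, Q.delta_pow J u, map_one]⟩
  obtain ⟨A, hA, hτ⟩ := Q.tame_mem i
  have key := trace_inertia_of_twPrime_level P.p P.hp2 hL htP (Q.q_prime i).2.2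
    (not_dvd_awayLevel hJ i) ht1 δ hδord (Q.levelPrimes J)
    (fun q hq h => Nat.mem_primeFactors.mpr
      ⟨hq, h, mul_ne_zero (Q.level_ne_zero hJ) P.hp.ne_zero⟩) a Φ
    (Q.comb_mem_symbChar hJ _ w) hΦ0 ha b hb _ (matCont_untwistRep hj hJ x ι)
    (fun l hl hlS A' hA' σ hσ => untwistRep_frobenius hj hJ x ι hl hlS hA' hσ) hirr hunr
    (fun A' hA' σ hσ => ?_) A hA (Q.tame i) hτ
  swap
  · obtain ⟨α, β, hne, hs, hp⟩ := Q.dist i A' hA' σ hσ
    have hr := residual_root hJ φ i hw hU hA' hσ
    rw [← hs, ← hp, map_add, map_mul] at hr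
    set ι' := ResidueField.map (algebraMap O C')
    have hr' : (residue C' b - ι' α) * (residue C' b - ι' β) = 0 := by linear_combination hr
    obtain ⟨h1, h2⟩ := residual_untwistRep_trace_det hj hJ x ι σ
    rcases mul_eq_zero.mp hr' with h | h
    · exact ⟨ι' α, ι' β, fun h => hne (ι'.injective h), by rw [h1, ← map_add, hs],
        by rw [h2, ← map_mul, hp], sub_eq_zero.mp h⟩
    · exact ⟨ι' β, ι' α, fun h => hne (ι'.injective h).symm,
        by rw [h1, ← map_add, add_comm, hs], by rw [h2, ← map_mul, mul_comm, hp],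
        sub_eq_zero.mp h⟩
  have hρτ : P.ρ (Q.tame i) = 1 := rho_unramified_q i A hA _ hτ
  rw [untwistRep, trace_twistRep, det_twistRep, untwistChar_apply, Q.psi_tame, Start.mapRep_trace,
    Start.mapRep_det, det_pointRep, hρτ, det_one, map_one, map_one, mul_one] at key
  have hinj : Function.Injective ι := fun a c h => hj (by
    rw [← AlgHom.congr_fun hι a, ← AlgHom.congr_fun hι c]
    exact congrArg j' h)
  refine hinj ?_
  rw [map_mul, map_add, map_pow, map_one]
  simp only [RingHom.coe_coe] at key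
  linear_combination key

theorem tame_trace (θ : Q.Point C) (i : Fin P.r) :
    (rep hj θ (Q.tame i)).trace * uVal θ i = uVal θ i ^ 2 + 1 :=
  tame_trace_point hj (point_subset θ) θ.2 i

end TWSet

end FLTAgent.PointsDatum
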