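import Fermat.Agent.ModularityLifting.Setup
import Fermat.Agent.LevelRaising.NonEisenstein

/-!
# Frobenius elements at unramified primes, and non-Eisenstein primes

At an unramified prime the trace and determinant of a Frobenius element do not depend on the
choices; an irreducible residual representation with cyclotomic determinant and an involution of
determinant `-1` has primes `ℓ ≡ 1` modulo any `m` with Frobenius trace different from `2`.
-/

set_option autoImplicit false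

noncomputable section

open Matrix IsLocalRing
open scoped Pointwise

namespace FLTAgent.PointsDatum

open FLTAgent.ModularityLifting FLTAgent.DefRing
open FLTAgent.Density (GalQ Qbar)

variable {A : Type} [CommRing A]

/-- At an unramified prime trace and determinant are independent of the Frobenius element. -/
theorem trace_frobenius_eq {ρ : MatRep A} {q : ℕ} (hq : q.Prime) (hunr : UnramifiedAt ρ q)
    {P P' : ValuationSubring Qbar} (hP : P.LiesOverPrime q) (hP' : P'.LiesOverPrime q)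
    {φ φ' : GalQ} (hφ : P.IsFrobeniusAt φ q) (hφ' : P'.IsFrobeniusAt φ' q) :
    (ρ φ).trace = (ρ φ').trace ∧ (ρ φ).det = (ρ φ').det := by
  obtain ⟨g, rfl⟩ := Density.exists_smul_eq_of_liesOverPrime hq hP hP'
  have h := hunr _ hP' _ (Density.inv_mul_mem_inertiaSubgroupIn
    (Density.isFrobeniusAt_smul hφ g) hφ')
  have e : ρ φ' = ρ g * ρ φ * ρ g⁻¹ := by
    calc ρ φ' = ρ ((g * φ * g⁻¹) * ((g * φ * g⁻¹)⁻¹ * φ')) := by rw [mul_inv_cancel_left]
      _ = ρ g * ρ φ * ρ g⁻¹ := by rw [map_mul, h, mul_one, map_mul, map_mul]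
  have hgg : ρ g⁻¹ * ρ g = 1 := by rw [← map_mul, inv_mul_cancel, map_one]
  have hdet : (ρ g⁻¹).det * (ρ g).det = 1 := by rw [← Matrix.det_mul, hgg, Matrix.det_one]
  rw [e]
  refine ⟨?_, ?_⟩
  · rw [Matrix.trace_mul_comm, ← Matrix.mul_assoc, hgg, Matrix.one_mul]
  · rw [Matrix.det_mul, Matrix.det_mul]
    linear_combination -(ρ φ).det * hdet

/-- The determinant at a Frobenius element when it is the cyclotomic character. -/
theorem det_frobenius_residual {k : Type} [Field k] {p : ℕ} [CharP k p] (hp : p.Prime)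
    {ρ : MatRep k} (hdet : DetCyclotomic ρ p) {ℓ : ℕ} (hℓ : ℓ.Prime) (hℓp : ℓ ≠ p)
    {P : ValuationSubring Qbar} (hP : P.LiesOverPrime ℓ) {φ : GalQ} (hφ : P.IsFrobeniusAt φ ℓ) :
    (ρ φ).det = (ℓ : k) := by
  have h := hdet 1 φ ℓ fun μ hμ => Density.isFrobeniusAt_apply_of_pow_eq_one hℓ hP hφ
    (fun hd => hℓp ((Nat.prime_dvd_prime_iff_eq hℓ hp).mp (hℓ.dvd_of_dvd_pow hd))) hμ
  rwa [pow_one, CharP.cast_eq_zero, Ideal.span_singleton_eq_bot.mpr rfl, Ideal.mem_bot,
    sub_eq_zero] at h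

/-- Primes `ℓ ≡ 1 (mod m p)` whose Frobenius elements have trace different from `2`. -/
theorem exists_prime_trace_ne_two {k : Type} [Field k] {p : ℕ} [CharP k p] (hp : p.Prime)
    (hp2 : p ≠ 2) (ρ : MatRep k)
    (hfin : ∃ L : IntermediateField ℚ Qbar, FiniteDimensional ℚ L ∧
      ∀ σ : GalQ, (∀ x ∈ L, σ x = x) → ρ σ = 1)
    (hdet : DetCyclotomic ρ p) (hirr : AbsIrreducibleOn ρ ⊤) {c : GalQ} (hc : c * c = 1)
    (hcdet : (ρ c).det = -1) {m : ℕ} (hm : 0 < m) (S : Finset ℕ) :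
    ∃ ℓ, ℓ.Prime ∧ ℓ ∉ S ∧ ℓ % (m * p) = 1 % (m * p) ∧
      ∀ P : ValuationSubring Qbar, P.LiesOverPrime ℓ → ∀ φ, P.IsFrobeniusAt φ ℓ →
        (ρ φ).trace ≠ 2 := by
  classical
  have hnostable : ¬ ∃ v, GaloisImage.StableVec ρ ⊤ v := fun ⟨v, hv, hs⟩ =>
    hv (hirr k (RingHom.id k) v fun σ hσ => by simpa using hs σ hσ)
  have h2 : (2 : k) ≠ 0 := fun h => hp2 ((Nat.prime_dvd_prime_iff_eq hp Nat.prime_two).mp
    ((CharP.cast_eq_zero_iff k p 2).mp (by exact_mod_cast h)))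
  have hm0 : m * p ≠ 0 := mul_ne_zero hm.ne' hp.ne_zero
  have : NeZero (m * p) := ⟨hm0⟩
  have : NeZero ((m * p : ℕ) : Qbar) := ⟨Nat.cast_ne_zero.mpr hm0⟩
  obtain ⟨ζ, hζ⟩ := (inferInstance : HasEnoughRootsOfUnity Qbar (m * p)).prim
  let H : Subgroup GalQ := MulAction.stabilizer GalQ ζ
  obtain ⟨hHn, hcomm⟩ := LevelRaising.commute_on_rootOfUnity hζ
  have hdetH : ∀ σ ∈ H, (ρ σ).det = 1 := fun σ hσ => by
    have h := hdet 1 σ 1 fun μ hμ => by
      obtain ⟨i, -, hi⟩ := hζ.eq_pow_of_pow_eq_one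
        (show μ ^ (m * p) = 1 by rw [mul_comm, pow_mul, ← pow_one p, hμ, one_pow])
      rw [← hi, map_pow, show σ ζ = ζ from hσ, pow_one]
    rwa [pow_one, CharP.cast_eq_zero, Ideal.span_singleton_eq_bot.mpr rfl, Ideal.mem_bot,
      sub_eq_zero, Nat.cast_one] at h
  obtain ⟨g, hgH, hg⟩ : ∃ g ∈ H, (ρ g).trace ≠ 2 := by
    by_contra hall
    push Not at hall
    refine hnostable ?_
    by_cases h1 : ∃ h₀ ∈ H, ρ h₀ ≠ 1
    · obtain ⟨h₀, hh₀, hne⟩ := h1
      exact LevelRaising.exists_stable_of_unipotent ρ hall hdetH hh₀ hne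
    · push Not at h1
      refine LevelRaising.exists_stable_of_commute ρ (c := c) (by rw [← map_mul, hc, map_one])
        hcdet h2 fun σ => ?_
      have hmem : σ * c * σ⁻¹ * c⁻¹ ∈ H := by
        show (σ * c * σ⁻¹ * c⁻¹) ζ = ζ
        simp only [AlgEquiv.mul_apply]
        rw [hcomm σ⁻¹ c⁻¹, ← AlgEquiv.mul_apply c, mul_inv_cancel, AlgEquiv.one_apply,
          ← AlgEquiv.mul_apply σ, mul_inv_cancel, AlgEquiv.one_apply]
      have := h1 _ hmem
      calc ρ σ * ρ c = ρ (σ * c * σ⁻¹ * c⁻¹) * (ρ c * ρ σ) := by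
            rw [← map_mul, ← map_mul, ← map_mul]
            congr 1
            group
        _ = ρ c * ρ σ := by rw [this, one_mul]
  obtain ⟨E, hE, hEfix⟩ := hfin
  set L₀ : IntermediateField ℚ Qbar := E ⊔ IntermediateField.adjoin ℚ {ζ}
  have : FiniteDimensional ℚ (IntermediateField.adjoin ℚ ({ζ} : Set Qbar)) :=
    IntermediateField.adjoin.finiteDimensional (Algebra.IsIntegral.isIntegral ζ)
  have : FiniteDimensional ℚ L₀ := IntermediateField.finiteDimensional_sup _ _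
  set L : IntermediateField ℚ Qbar := IntermediateField.normalClosure ℚ L₀ Qbar
  have : FiniteDimensional ℚ L := normalClosure.is_finiteDimensional ..
  have : Normal ℚ L := normalClosure.normal ..
  have : IsGalois ℚ L := {}
  obtain ⟨ℓ, hℓ, hℓS, A', hA', hI, φ', hφ', hagree⟩ := Density.exists_frobenius_agree L g
    (S ∪ (m * p).primeFactors)
  simp only [Finset.mem_union, not_or] at hℓS
  have hℓmp : ¬ ℓ ∣ m * p := fun h => hℓS.2 (Nat.mem_primeFactors.mpr ⟨hℓ, h, hm0⟩)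
  have hle : ∀ x ∈ L₀, x ∈ L := fun x hx => IntermediateField.le_normalClosure _ hx
  have hρeq : ρ φ' = ρ g := by
    have h1 : ρ (g⁻¹ * φ') = 1 := hEfix _ fun x hx => by
      rw [AlgEquiv.mul_apply, ← hagree x (hle x (SetLike.le_def.mp le_sup_left hx)),
        ← AlgEquiv.mul_apply, inv_mul_cancel, AlgEquiv.one_apply]
    calc ρ φ' = ρ g * ρ (g⁻¹ * φ') := by rw [← map_mul, mul_inv_cancel_left]
      _ = ρ g := by rw [h1, mul_one]
  have hunr : UnramifiedAt ρ ℓ := by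
    intro P hP τ hτ
    obtain ⟨h, rfl⟩ := Density.exists_smul_eq_of_liesOverPrime hℓ hA' hP
    have hτ' : h⁻¹ * τ * h ∈ A'.inertiaSubgroupIn ℚ := by
      have := Density.mem_inertiaSubgroupIn_smul hτ h⁻¹
      simpa using this
    have h1 : ρ (h⁻¹ * τ * h) = 1 :=
      hEfix _ fun x hx => hI _ hτ' x (hle x (SetLike.le_def.mp le_sup_left hx))
    calc ρ τ = ρ h * ρ (h⁻¹ * τ * h) * ρ h⁻¹ := by rw [← map_mul, ← map_mul]; congr 1; group
      _ = 1 := by rw [h1, mul_one, ← map_mul, mul_inv_cancel, map_one]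
  refine ⟨ℓ, hℓ, hℓS.1, ?_, fun P hP φ hφ => ?_⟩
  · have h1 : ζ ^ ℓ = ζ ^ 1 := by
      rw [← Density.isFrobeniusAt_apply_of_pow_eq_one hℓ hA' hφ' hℓmp hζ.pow_eq_one,
        ← hagree ζ (hle ζ (SetLike.le_def.mp le_sup_right
          (IntermediateField.mem_adjoin_simple_self ℚ ζ))), show g ζ = ζ from hgH, pow_one]
    have := (hζ.isOfFinOrder hm0).pow_eq_pow_iff_modEq.mp h1
    rwa [← hζ.eq_orderOf] at this
  · rw [(trace_frobenius_eq hℓ hunr hP hA' hφ hφ').1, hρeq]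
    exact hg

end FLTAgent.PointsDatum
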