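import Fermat.Agent.ModularityLifting.PointsDatum.Basic
import Fermat.Agent.ModularityLifting.PointsDatum.NonEisenstein
import Fermat.Agent.ModularityLifting.EigenFree
import Mathlib.RingTheory.Finiteness.Basic

/-!
# The residual representation of a lifting problem and the coefficient rings

The coefficient rings of the levels are complete local rings with finite residue field; the residual
system of eigenvalues is not Eisenstein at any level.
-/

set_option autoImplicit false

noncomputable section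

open IsLocalRing

namespace FLTAgent.PointsDatum

open FLTAgent.LevelRaising FLTAgent.ModularityLifting FLTAgent.DefRing
open FLTAgent.Density (GalQ Qbar)

/-- The auxiliary prime needed when `p = 3`. -/
class ExtraThree {O : Type} [CommRing O] [IsDomain O] [IsDiscreteValuationRing O]
    (P : LiftProblem O) : Prop where
  out : P.p = 3 → ∃ t ∈ P.extra, t % 3 = 2

variable {O : Type} [CommRing O] [IsDomain O] [IsDiscreteValuationRing O] (P : LiftProblem O)
  [Fact P.p.Prime] [IsAdicComplete (maximalIdeal O) O] [Finite (ResidueField O)]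

instance finite_TW (n : ℕ) : Module.Finite O (TW P n) := finite_twRing O P.p P.r n P.p_mem

instance free_TW (n : ℕ) : Module.Free O (TW P n) := free_twRing O P.p P.r n P.p_mem

instance isLocalHom_TW (n : ℕ) : IsLocalHom (algebraMap O (TW P n)) :=
  isLocalHom_twRing O P.p P.r n P.p_mem

instance isAdicComplete_TW (n : ℕ) : IsAdicComplete (maximalIdeal (TW P n)) (TW P n) :=
  isAdicComplete_twRing O P.p P.r n P.p_mem

instance finite_residueField_TW (n : ℕ) : Finite (ResidueField (TW P n)) :=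
  finite_residueField_twRing O P.p P.r n P.p_mem

instance charP_residueField_TW (n : ℕ) : CharP (ResidueField (TW P n)) P.p :=
  charP_residueField_twRing O P.p P.r n P.p_mem

instance isNoetherianRing_TW (n : ℕ) : IsNoetherianRing (TW P n) :=
  isNoetherianRing_twRing O P.p P.r n P.p_mem

instance isReduced_TW [CharZero O] (n : ℕ) : IsReduced (TW P n) :=
  isReduced_twRing O P.p P.r n P.p_mem

omit [Fact (Nat.Prime P.p)] [IsAdicComplete (maximalIdeal O) O] [Finite (ResidueField O)] in
theorem charP_residueField : CharP (ResidueField O) P.p := by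
  refine (CharP.charP_iff_prime_eq_zero P.hp).mpr ?_
  rw [← map_natCast (residue O), residue_eq_zero_iff]
  exact P.p_mem

omit [Fact (Nat.Prime P.p)] [IsAdicComplete (maximalIdeal O) O] [Finite (ResidueField O)] in
theorem rhobar_det : DetCyclotomic P.ρbar P.p := by
  intro m σ a ha
  have h := Ideal.mem_map_of_mem (residue O) (P.det m σ a ha)
  rw [Ideal.map_span, Set.image_singleton, map_sub, map_natCast, map_natCast] at h
  rwa [LiftProblem.ρbar, mapRep_eq_map, ← RingHom.mapMatrix_apply, ← RingHom.map_det]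

omit [Fact (Nat.Prime P.p)] [IsAdicComplete (maximalIdeal O) O] [Finite (ResidueField O)] in
theorem rhobar_finite : ∃ L : IntermediateField ℚ Qbar, FiniteDimensional ℚ L ∧
    ∀ σ : GalQ, (∀ x ∈ L, σ x = x) → P.ρbar σ = 1 := by
  obtain ⟨L, hL, h⟩ := P.cont 1
  refine ⟨L, hL, fun σ hσ => Matrix.ext fun i j => ?_⟩
  have := h σ hσ i j
  rw [pow_one, ← residue_eq_zero_iff,
    show (P.ρ σ - 1) i j = P.ρ σ i j - (1 : Matrix (Fin 2) (Fin 2) O) i j from rfl,
    map_sub, sub_eq_zero] at this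
  rw [LiftProblem.ρbar, mapRep_eq_map, Matrix.map_apply, this]
  simp [Matrix.one_apply, apply_ite (residue O)]

omit [Fact (Nat.Prime P.p)] [IsAdicComplete (maximalIdeal O) O] [Finite (ResidueField O)] in
theorem rhobar_gamma : (P.ρbar P.γ).det = -1 := by
  rw [LiftProblem.ρbar, mapRep_eq_map, ← RingHom.mapMatrix_apply, ← RingHom.map_det, P.γ_det,
    map_neg, map_one]

omit [Fact (Nat.Prime P.p)] [IsAdicComplete (maximalIdeal O) O] [Finite (ResidueField O)] in
/-- The residual system is not Eisenstein: at any level some good prime `ℓ ≡ 1` has trace not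
congruent to `1 + ℓ`. -/
theorem exists_non_eisenstein (S : Finset ℕ) {L : ℕ} (hL : L ≠ 0) :
    ∃ ℓ, ℓ.Prime ∧ ℓ ∉ S ∧ ℓ % L = 1 % L ∧
      residue O (P.ρ (P.frob ℓ)).trace ≠ residue O (1 + ℓ) := by
  have := charP_residueField P
  obtain ⟨ℓ, hℓ, hℓS, hmod, htr⟩ := exists_prime_trace_ne_two P.hp P.hp2 P.ρbar (rhobar_finite P)
    (rhobar_det P) P.irr P.γ_sq (rhobar_gamma P) (Nat.pos_of_ne_zero hL) S
  refine ⟨ℓ, hℓ, hℓS, Nat.ModEq.of_dvd (dvd_mul_right L P.p) hmod, fun h => htr (P.place ℓ)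
    (P.place_spec ℓ hℓ) (P.frob ℓ) (P.frob_spec ℓ hℓ) ?_⟩
  have h1 : ((ℓ : ℕ) : ResidueField O) = ((1 : ℕ) : ResidueField O) :=
    (CharP.natCast_eq_natCast (ResidueField O) P.p).mpr
      (Nat.ModEq.of_dvd (dvd_mul_left P.p L) hmod)
  rw [map_add, map_one, map_natCast, h1, Nat.cast_one, one_add_one_eq_two] at h
  rw [LiftProblem.ρbar, mapRep_eq_map, ← h, Matrix.trace_fin_two, Matrix.map_apply,
    Matrix.map_apply, Matrix.trace_fin_two, map_add]

/-- The same in the coefficient ring of a level. -/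
theorem exists_non_eisenstein_TW {n : ℕ} (Q : TWSet P n) (S : Finset ℕ) {L : ℕ} (hL : L ≠ 0) :
    ∃ ℓ, ℓ.Prime ∧ ℓ ∉ S ∧ ℓ % L = 1 % L ∧
      residue (TW P n) (Q.aTW ℓ) ≠ residue (TW P n) (1 + ℓ) := by
  obtain ⟨ℓ, hℓ, hℓS, hmod, h⟩ := exists_non_eisenstein P S hL
  refine ⟨ℓ, hℓ, hℓS, hmod, fun he => h ?_⟩
  rw [show (1 + ℓ : TW P n) = algebraMap O (TW P n) (1 + ℓ) by simp, TWSet.aTW,
    ← ResidueField.map_residue, ← ResidueField.map_residue] at he
  exact (ResidueField.map (algebraMap O (TW P n))).injective he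

/-- A local homomorphism maps eigenparts into eigenparts. -/
theorem mapVal_mem_eigenPart_of_isLocalHom {R R' : Type} [CommRing R] [IsLocalRing R] [CommRing R']
    [IsLocalRing R'] (φ : R →+* R') [IsLocalHom φ] {L : ℕ} {δ : DirichletCharacter R L}
    {S : Finset ℕ} (hS : ∀ q, q.Prime → q ∣ L → q ∈ S) {a : ℕ → R} {Φ : Cusp → Cusp → R}
    (hΦ : Φ ∈ eigenPart R δ S a) :
    mapVal φ Φ ∈ eigenPart R' (δ.ringHomComp φ) S (φ ∘ a) := by
  obtain ⟨hΦ1, hΦ2⟩ := (mem_eigenPart_iff hS).mp hΦ
  refine (mem_eigenPart_iff hS).mpr ⟨mapVal_mem φ hΦ1, fun ℓ hℓ hℓS n => ?_⟩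
  obtain ⟨j, hj⟩ := hΦ2 ℓ hℓ hℓS n
  refine ⟨j, ?_⟩
  rw [Function.comp_apply, ← mapVal_pow_shiftOp]
  refine Submodule.smul_mono_left ?_ (mapVal_mem_smul φ hj)
  rw [Ideal.map_pow]
  exact Ideal.pow_right_mono ((local_hom_TFAE φ).out 0 2 |>.mp ‹_›) n

end FLTAgent.PointsDatum
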