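import Fermat.Agent.ModularityLifting.Points.TwistMulti
import Fermat.Agent.ModularityLifting.HeckeOfSymb
import Fermat.Agent.Newforms.Semisimple
import Fermat.Agent.MFIntegral.IntegralStructure
import Mathlib.RingTheory.UniqueFactorizationDomain.Basic

/-!
# Hecke operators on non-Eisenstein symbols with a square character are semisimple

Twisting by `χ` with `χ² ≠ 1` is injective on all symbols, so each `T_l` is killed, up to the
scalar of the twist, by a squarefree integral polynomial killing it on cusp forms.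
-/

set_option autoImplicit false

noncomputable section

open IsLocalRing Polynomial

namespace FLTAgent.PointsDatum

open FLTAgent.LevelRaising FLTAgent.ModularityLifting FLTAgent.HeckePoints

theorem aeval_intertwine {R V W : Type} [CommRing R] [AddCommGroup V] [Module R V] [AddCommGroup W]
    [Module R W] (U : Module.End R V) (U' : Module.End R W) (F : V →ₗ[R] W) (S : Submodule R V)
    (hS : ∀ x ∈ S, U x ∈ S) (hF : ∀ x ∈ S, F (U x) = U' (F x)) (Q : ℤ[X]) {x : V} (hx : x ∈ S) :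
    F (aeval U Q x) = aeval U' Q (F x) ∧ aeval U Q x ∈ S := by
  induction Q using Polynomial.induction_on' with
  | add p q hp hq =>
    rw [map_add, map_add, LinearMap.add_apply, LinearMap.add_apply, map_add, hp.1, hq.1]
    exact ⟨rfl, add_mem hp.2 hq.2⟩
  | monomial m c =>
    have hpow : ∀ j, F ((U ^ j) x) = (U' ^ j) (F x) ∧ (U ^ j) x ∈ S := by
      intro j
      induction j with
      | zero => exact ⟨rfl, hx⟩
      | succ j ih =>
        rw [pow_succ', pow_succ', Module.End.mul_apply, Module.End.mul_apply, hF _ ih.2, ih.1]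
        exact ⟨rfl, hS _ ih.2⟩
    rw [aeval_monomial, aeval_monomial, eq_intCast, eq_intCast, Module.End.mul_apply,
      Module.End.mul_apply, Module.End.intCast_apply, Module.End.intCast_apply, map_zsmul,
      (hpow m).1]
    exact ⟨rfl, zsmul_mem (hpow m).2 c⟩

section Kill

variable {L : ℕ} [NeZero L]

/-- A squarefree rational polynomial with integral coefficients killing `T_m` on cusp forms. -/
theorem exists_squarefree_kill {m : ℕ} (hm : m.Prime) (hmL : ¬ m ∣ L) :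
    ∃ Q : ℤ[X], Squarefree (Q.map (Int.castRingHom ℚ)) ∧
      aeval (CuspForm.heckeTLin (N := L) 2 hm hmL) Q = 0 := by
  classical
  let S : Set ℕ := {q | q ∣ L}
  have hmS : m ∉ S := hmL
  set T := CuspForm.heckeAlgebra.T (k := 2) hm hmL hmS
  have := Newforms.heckeAlgebra_isReduced (N := L) (S := S) fun q _ h => h
  have := Eigenforms.heckeAlgebra_isIntegral (N := L) (MFIntegral.hasIntegralStructure L 2) S
  obtain ⟨P, hPm, hP⟩ := Algebra.IsIntegral.isIntegral (R := ℤ) T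
  set R0 := UniqueFactorizationMonoid.radical (P.map (Int.castRingHom ℚ))
  obtain ⟨b, hb0, hb⟩ := IsLocalization.integerNormalization_spec (nonZeroDivisors ℤ) R0
  set Q := IsLocalization.integerNormalization (nonZeroDivisors ℤ) R0
  have hQ : Q.map (Int.castRingHom ℚ) = C (b : ℚ) * R0 := by
    rw [← algebraMap_int_eq, hb, ← smul_eq_C_mul, Int.cast_smul_eq_zsmul]
  have hP0 : P.map (Int.castRingHom ℚ) ≠ 0 := (hPm.map _).ne_zero
  have hb' : IsUnit (C (b : ℚ)) :=
    isUnit_C.mpr (isUnit_iff_ne_zero.mpr (Int.cast_ne_zero.mpr (nonZeroDivisors.ne_zero hb0)))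
  refine ⟨Q, by
    rw [hQ]
    exact (associated_isUnit_mul_left_iff hb').mpr (Associated.refl R0)
      |>.squarefree_iff.mpr UniqueFactorizationMonoid.squarefree_radical, ?_⟩
  obtain ⟨k, hk⟩ : ∃ k, P.map (Int.castRingHom ℚ) ∣ (Q.map (Int.castRingHom ℚ)) ^ k := by
    obtain ⟨k, hk⟩ := UniqueFactorizationMonoid.exists_dvd_radical_self_pow hP0
    exact ⟨k, hk.trans (pow_dvd_pow_of_dvd (by rw [hQ]; exact dvd_mul_left _ _) k)⟩
  rw [← Polynomial.map_pow] at hk
  have hd : P ∣ Q ^ k :=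
    (Polynomial.map_dvd_map (Int.castRingHom ℚ) Int.cast_injective hPm).mp hk
  have h0 : aeval T Q = 0 := by
    refine IsReduced.eq_zero _ ⟨k, ?_⟩
    rw [← map_pow]
    obtain ⟨c, hc⟩ := hd
    rw [hc, map_mul, aeval_def, hP, zero_mul]
  exact (aeval_algHom_apply (CuspForm.heckeAlgebra L 2 S).val T Q).trans
    (by rw [h0, map_zero])

variable {R : Type} [CommRing R] [IsLocalRing R] [IsDomain R] [CharZero R] [IsNoetherianRing R]

/-- An integral polynomial killing `T_m` on cusp forms kills it on non-Eisenstein symbols. -/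
theorem aeval_tOp_eq_zero (S : Finset ℕ) (hS : ∀ q, q.Prime → q ∣ L → q ∈ S) (a : ℕ → R)
    (hne : ∃ ℓ, ℓ.Prime ∧ ℓ ∉ S ∧ ℓ % L = 1 % L ∧ residue R (a ℓ) ≠ residue R (1 + ℓ))
    {m : ℕ} (hm : m.Prime) (hmL : ¬ m ∣ L) (Q : ℤ[X])
    (hQ : aeval (CuspForm.heckeTLin (N := L) 2 hm hmL) Q = 0) {Φ : Cusp → Cusp → R}
    (hΦ : Φ ∈ eigenPart R (1 : DirichletCharacter R L) S a) : aeval (tOp R m) Q Φ = 0 := by
  set W := eigenPart R (1 : DirichletCharacter R L) S a
  have hW : ∀ x ∈ W, tOp R m x ∈ W := fun x hx => tOp_mem_eigenPart hS hm hmL hx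
  let e0 : Module.End R W := aeval ((tOp R m).restrict hW) Q
  have hcoe : ∀ (Q : ℤ[X]) (x : W), ((aeval ((tOp R m).restrict hW) Q x : W) : Cusp → Cusp → R) =
      aeval (tOp R m) Q (x : Cusp → Cusp → R) := fun Q x =>
    (aeval_intertwine ((tOp R m).restrict hW) (tOp R m) W.subtype ⊤
      (fun _ _ => trivial) (fun _ _ => rfl) Q trivial).1
  have hpair : ∀ (Q : ℤ[X]) (st : CuspForm (CongruenceSubgroup.Gamma0 L) 2 ×
      CuspForm (CongruenceSubgroup.Gamma0 L) 2),
      aeval (tOp ℂ m) Q (pairSymb L st) =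
        pairSymb L (aeval (CuspForm.heckeTLin (N := L) 2 hm hmL) Q st.1,
          aeval (CuspForm.heckeTLin (N := L) 2 hm hmL) Q st.2) := by
    intro Q st
    induction Q using Polynomial.induction_on' with
    | add p q hp hq =>
      rw [map_add, map_add, LinearMap.add_apply, hp, hq, ← map_add]
      rfl
    | monomial j c =>
      rw [aeval_monomial, aeval_monomial, eq_intCast, eq_intCast]
      simp only [Module.End.mul_apply, Module.End.intCast_apply]
      rw [show (c • ((CuspForm.heckeTLin (N := L) 2 hm hmL) ^ j) st.1,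
        c • ((CuspForm.heckeTLin (N := L) 2 hm hmL) ^ j) st.2) =
        c • (((CuspForm.heckeTLin (N := L) 2 hm hmL) ^ j) st.1,
          ((CuspForm.heckeTLin (N := L) 2 hm hmL) ^ j) st.2) from rfl, map_zsmul]
      congr 1
      induction j with
      | zero => rfl
      | succ j ih =>
        rw [pow_succ', pow_succ', Module.End.mul_apply, ih, tOp_pairSymb hm hmL]
        rfl
  have hcomp : ∀ (g : R →+ ℂ) (Q : ℤ[X]) (Ψ : Cusp → Cusp → R),
      compVal g (aeval (tOp R m) Q Ψ) = aeval (tOp ℂ m) Q (compVal g Ψ) := by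
    intro g Q Ψ
    induction Q using Polynomial.induction_on' with
    | add p q hp hq => rw [map_add, map_add, LinearMap.add_apply, compVal_add, hp, hq,
        LinearMap.add_apply]
    | monomial j c =>
      rw [aeval_monomial, aeval_monomial, eq_intCast, eq_intCast, Module.End.mul_apply,
        Module.End.mul_apply, Module.End.intCast_apply, Module.End.intCast_apply]
      induction j with
      | zero => funext x y; exact map_zsmul g c (Ψ x y)
      | succ j ih =>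
        rw [pow_succ', pow_succ', Module.End.mul_apply, Module.End.mul_apply, ← map_zsmul (tOp R m),
          ← map_zsmul (tOp ℂ m), compVal_tOp, ih]
  have h := eq_of_actRel (R := R) (S := S) (a := a) hS hne (h := 0) (e := e0) (e' := 0)
    ⟨aeval (tOp R m) Q, aeval (tOp ℂ m) Q, hcoe Q, fun g Ψ => hcomp g Q Ψ,
      fun s t => by rw [hpair, hQ]⟩
    ⟨0, 0, fun _ => rfl, fun g Ψ => funext fun x => funext fun y => map_zero g,
      fun s t => by simp only [LinearMap.zero_apply]; exact (map_zero (pairSymb L)).symm⟩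
  have h' := congrArg (fun e : Module.End R W => ((e ⟨Φ, hΦ⟩ : W) : Cusp → Cusp → R)) h
  exact (hcoe Q ⟨Φ, hΦ⟩).symm.trans h'

/-- The same on symbols with the square of a character, up to the scalar of the twist. -/
theorem aeval_tOpChar_eq_zero (T : Finset ℕ) (hT : ∀ t ∈ T, t.Prime)
    (χ : ∀ t, DirichletCharacter R t) (hχ : ∀ t ∈ T, χ t ^ 2 ≠ 1) {M L₁ : ℕ} (hM0 : M ≠ 0)
    (hM : ∀ t ∈ T, ¬ t ∣ M) (hL₁ : L₁ = M * ∏ t ∈ T, t) (hL : L = M * ∏ t ∈ T, t ^ 2)
    (δ : DirichletCharacter R L₁)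
    (hδ : ∀ d : ℤ, IsUnit (d : ZMod L₁) →
      δ (d : ZMod L₁) = ∏ t ∈ T, χ t (d : ZMod t) ^ 2)
    (S : Finset ℕ) (hS : ∀ q, q.Prime → q ∣ L₁ → q ∈ S) (a : ℕ → R)
    (hres : ∀ l, l.Prime → l ∉ S → ∀ t ∈ T, residue R ((χ t)⁻¹ (l : ZMod t)) = 1)
    (hne : ∃ ℓ, ℓ.Prime ∧ ℓ ∉ S ∧ ℓ % L = 1 % L ∧ residue R (a ℓ) ≠ residue R (1 + ℓ))
    {m : ℕ} (hm : m.Prime) (hmL : ¬ m ∣ L) (Q : ℤ[X])
    (hQ : aeval (CuspForm.heckeTLin (N := L) 2 hm hmL) Q = 0) {Φ : Cusp → Cusp → R}
    (hΦ : Φ ∈ eigenPart R δ S a) :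
    aeval ((∏ t ∈ T, (χ t)⁻¹ (m : ZMod t)) • tOpChar R δ m) Q Φ = 0 := by
  subst hL₁ hL
  obtain ⟨F, hF1, hF2, hF3, -⟩ := exists_twistMap T hT χ hχ M hM0 hM 1 δ fun d hd => by
    rw [hδ d hd, MulChar.one_apply (isUnit_of_dvd (dvd_mul_right _ _) hd), one_mul]
  simp only [map_one] at hF1 hF3
  have hS' : ∀ q, q.Prime → q ∣ M * ∏ t ∈ T, t ^ 2 → q ∈ S := fun q hq h => hS q hq (by
    rcases hq.dvd_mul.mp h with h | h
    · exact h.mul_right _
    · obtain ⟨t, ht, htq⟩ := hq.prime.exists_mem_finset_dvd h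
      exact ((hq.dvd_of_dvd_pow htq).trans (Finset.dvd_prod_of_mem _ ht)).mul_left _)
  have hnd : ∀ {l : ℕ}, l.Prime → ¬ l ∣ M * ∏ t ∈ T, t ^ 2 → ¬ l ∣ M * ∏ t ∈ T, t := fun hl h hd =>
    h (hd.trans (Nat.mul_dvd_mul_left _ (Finset.prod_dvd_prod_of_dvd _ _ fun t _ =>
      dvd_pow_self t two_ne_zero)))
  set c : ℕ → R := fun l => ∏ t ∈ T, (χ t)⁻¹ (l : ZMod t)
  obtain ⟨hΦ1, hΦ2⟩ := (mem_eigenPart_iff hS).mp hΦ
  have hstab : ∀ {l : ℕ}, l.Prime → ¬ l ∣ M * ∏ t ∈ T, t ^ 2 →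
      ∀ x ∈ SymbChar R δ, (c l • tOpChar R δ l) x ∈ SymbChar R δ := fun hl hlL x hx =>
    Submodule.smul_mem _ _ (tOpChar_mem hl (hnd hl hlL) hx)
  have hint : ∀ {l : ℕ}, l.Prime → ¬ l ∣ M * ∏ t ∈ T, t ^ 2 → ∀ x ∈ SymbChar R δ,
      F ((c l • tOpChar R δ l) x) = tOp R l (F x) := fun {l} hl hlL x hx => by
    rw [LinearMap.smul_apply, map_smul, ← tOpChar_one hl hlL]
    exact (hF3 l hl (hnd hl hlL) x hx).symm
  have hFΦ : F Φ ∈ eigenPart R (1 : DirichletCharacter R (M * ∏ t ∈ T, t ^ 2)) S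
      (fun l => c l * a l) := by
    refine (mem_eigenPart_iff hS').mpr ⟨hF1 _ hΦ1, fun l hl hlS k => ?_⟩
    obtain ⟨j, hj⟩ := hΦ2 l hl hlS k
    have hlL : ¬ l ∣ M * ∏ t ∈ T, t ^ 2 := fun h => hlS (hS' l hl h)
    refine ⟨j, ?_⟩
    have key : ∀ i, (shiftOp R (1 : DirichletCharacter R (M * ∏ t ∈ T, t ^ 2)) l (c l * a l) ^ i)
        (F Φ) = F (c l ^ i • (shiftOp R δ l (a l) ^ i) Φ) := by
      intro i
      induction i with
      | zero => simp
      | succ i ih =>
        rw [pow_succ', Module.End.mul_apply, ih, shiftOp_apply, tOpChar_one hl hlL,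
          ← hint hl hlL _ (Submodule.smul_mem _ _ (pow_shiftOp_mem hl (hnd hl hlL) (a l) i hΦ1)),
          pow_succ' (shiftOp R δ l (a l)), pow_succ', Module.End.mul_apply, shiftOp_apply]
        simp only [LinearMap.smul_apply, map_smul, map_sub, smul_sub, smul_smul]
        congr 1
        · congr 1; ring
        · congr 1; ring
    rw [key]
    have hmem : c l ^ j • (shiftOp R δ l (a l) ^ j) Φ ∈ maximalIdeal R ^ k • SymbChar R δ :=
      Submodule.smul_mem _ _ hj
    refine Submodule.smul_induction_on hmem (fun r hr x hx => ?_) fun x y hx hy => ?_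
    · rw [map_smul]
      exact Submodule.smul_mem_smul hr (hF1 x hx)
    · rw [map_add]
      exact add_mem hx hy
  have hne' : ∃ ℓ, ℓ.Prime ∧ ℓ ∉ S ∧ ℓ % (M * ∏ t ∈ T, t ^ 2) = 1 % (M * ∏ t ∈ T, t ^ 2) ∧
      residue R (c ℓ * a ℓ) ≠ residue R (1 + ℓ) := by
    obtain ⟨ℓ, hℓ, hℓS, hmod, h⟩ := hne
    refine ⟨ℓ, hℓ, hℓS, hmod, ?_⟩
    have hc1 : residue R (c ℓ) = 1 := by
      rw [map_prod]
      exact Finset.prod_eq_one fun t ht => hres ℓ hℓ hℓS t ht
    rwa [map_mul, hc1, one_mul]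
  obtain ⟨h1, h2⟩ := aeval_intertwine (c m • tOpChar R δ m) (tOp R m) F (SymbChar R δ)
    (hstab hm hmL) (hint hm hmL) Q hΦ1
  exact hF2 _ h2 (h1.trans (aeval_tOp_eq_zero S hS' _ hne' hm hmL Q hQ hFΦ))

end Kill

end FLTAgent.PointsDatum
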