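import Fermat.Agent.ModularityLifting.PointsDatum.Residual

/-!
# The twisting characters at a point of the coefficient ring

At a homomorphism of the coefficient ring the characters at the Taylor–Wiles primes are characters
of odd order; the nontrivial ones have nontrivial square.
-/

set_option autoImplicit false

noncomputable section

open IsLocalRing

namespace FLTAgent.PointsDatum

open FLTAgent.LevelRaising FLTAgent.ModularityLifting FLTAgent.DefRing

variable {O : Type} [CommRing O] [IsDomain O] [IsDiscreteValuationRing O] {P : LiftProblem O}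
  {n : ℕ} (Q : TWSet P n) {R : Type} [CommRing R] (φ : TW P n →+* R)

namespace TWSet

open scoped Classical in
/-- The characters at the primes `q i` read through `φ`, and trivial at the other primes. -/
def chiFam (t : ℕ) : DirichletCharacter R t :=
  if h : ∃ i, Q.q i = t then
    DirichletCharacter.changeLevel (dvd_of_eq h.choose_spec) ((Q.twChar h.choose).ringHomComp φ)
  else 1

theorem chiFam_intCast (i : Fin P.r) {d : ℤ} (hd : IsUnit (d : ZMod (Q.q i))) :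
    Q.chiFam φ (Q.q i) (d : ZMod (Q.q i)) = φ (Q.twChar i (d : ZMod (Q.q i))) := by
  have h : ∃ j, Q.q j = Q.q i := ⟨i, rfl⟩
  rw [chiFam, dif_pos h, changeLevel_intCast _ _ _ hd, MulChar.ringHomComp_apply,
    Q.q_inj h.choose_spec]

theorem chiFam_apply (i : Fin P.r) (u : (ZMod (Q.q i))ˣ) :
    Q.chiFam φ (Q.q i) (u : ZMod (Q.q i)) = φ (Q.twChar i (u : ZMod (Q.q i))) := by
  obtain ⟨d, hd⟩ := ZMod.intCast_surjective (u : ZMod (Q.q i))
  rw [← hd]
  exact Q.chiFam_intCast φ i (hd.symm ▸ u.isUnit)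

theorem chiFam_natCast (i : Fin P.r) {d : ℕ} (hd : ¬ Q.q i ∣ d) :
    Q.chiFam φ (Q.q i) (d : ZMod (Q.q i)) = φ (Q.twChar i (d : ZMod (Q.q i))) := by
  have h : IsUnit (d : ZMod (Q.q i)) := (ZMod.isUnit_iff_coprime d (Q.q i)).mpr
    (Nat.coprime_comm.mp ((Q.q_prime i).1.coprime_iff_not_dvd.mpr hd))
  rw [← h.unit_spec, Q.chiFam_apply φ i]

theorem chiFam_pow (i : Fin P.r) : Q.chiFam φ (Q.q i) ^ P.p ^ n = 1 := by
  refine MulChar.ext fun u => ?_
  rw [MulChar.pow_apply_coe, Q.chiFam_apply φ i, ← map_pow, ← MulChar.pow_apply_coe, Q.twChar_pow,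
    MulChar.one_apply_coe, MulChar.one_apply_coe, map_one]

theorem chiFam_sq_ne_one (i : Fin P.r) (h : Q.chiFam φ (Q.q i) ≠ 1) :
    Q.chiFam φ (Q.q i) ^ 2 ≠ 1 := fun h2 => h <| by
  obtain ⟨m, hm⟩ := (P.hp.odd_of_ne_two P.hp2).pow (n := n)
  have := Q.chiFam_pow φ i
  rwa [hm, pow_succ, pow_mul, h2, one_pow, one_mul] at this

open scoped Classical in
/-- The primes with nontrivial character. -/
def twT : Finset ℕ := (Finset.univ.image Q.q).filter fun t => Q.chiFam φ t ≠ 1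

open scoped Classical in
/-- The level without those primes. -/
def twM (J : Finset ℕ) : ℕ :=
  baseLevel P J * ∏ t ∈ (Finset.univ.image Q.q).filter (fun t => Q.chiFam φ t = 1), t

/-- The level of the twist. -/
def twLevel (J : Finset ℕ) : ℕ := Q.twM φ J * ∏ t ∈ Q.twT φ, t ^ 2

theorem twT_spec {t : ℕ} (ht : t ∈ Q.twT φ) :
    ∃ i, Q.q i = t ∧ t.Prime ∧ Q.chiFam φ t ≠ 1 ∧ Q.chiFam φ t ^ 2 ≠ 1 := by
  classical
  simp only [twT, Finset.mem_filter, Finset.mem_image, Finset.mem_univ, true_and] at ht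
  obtain ⟨⟨i, rfl⟩, h⟩ := ht
  exact ⟨i, rfl, (Q.q_prime i).1, h, Q.chiFam_sq_ne_one φ i h⟩

theorem level_eq_twM_mul (J : Finset ℕ) : Q.level J = Q.twM φ J * ∏ t ∈ Q.twT φ, t := by
  classical
  rw [twM, twT, level, mul_assoc, Finset.prod_filter_mul_prod_filter_not,
    Finset.prod_image fun i _ j _ h => Q.q_inj h]

theorem twM_ne_zero {J : Finset ℕ} (hJ : J ⊆ P.raise) : Q.twM φ J ≠ 0 :=
  left_ne_zero_of_mul (Q.level_eq_twM_mul φ J ▸ Q.level_ne_zero hJ)

theorem not_dvd_twM {J : Finset ℕ} (hJ : J ⊆ P.raise) {t : ℕ} (ht : t ∈ Q.twT φ) :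
    ¬ t ∣ Q.twM φ J := by
  classical
  obtain ⟨i, rfl, hti, hne, -⟩ := Q.twT_spec φ ht
  intro h
  rcases hti.dvd_mul.mp h with h | h
  · obtain ⟨v, hv, hd⟩ := hti.prime.exists_mem_finset_dvd h
    obtain ⟨hvP, hvl⟩ := mem_primes hJ hv
    exact (Q.q_prime i).2.1 ((Nat.prime_dvd_prime_iff_eq hti hvP).mp hd ▸ hvl)
  · obtain ⟨s, hs, hd⟩ := hti.prime.exists_mem_finset_dvd h
    simp only [Finset.mem_filter, Finset.mem_image, Finset.mem_univ, true_and] at hs
    obtain ⟨⟨j, rfl⟩, hj⟩ := hs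
    rw [← (Nat.prime_dvd_prime_iff_eq hti (Q.q_prime j).1).mp hd] at hj
    exact hne hj

theorem twLevel_ne_zero {J : Finset ℕ} (hJ : J ⊆ P.raise) : Q.twLevel φ J ≠ 0 :=
  mul_ne_zero (Q.twM_ne_zero φ hJ) (Finset.prod_ne_zero_iff.mpr fun t ht => by
    obtain ⟨i, -, hp, -⟩ := Q.twT_spec φ ht
    exact pow_ne_zero _ hp.ne_zero)

theorem dvd_twLevel_iff {J : Finset ℕ} {l : ℕ} (hl : l.Prime) :
    l ∣ Q.twLevel φ J ↔ l ∣ Q.level J := by
  rw [twLevel, Q.level_eq_twM_mul φ J, hl.dvd_mul, hl.dvd_mul, hl.prime.dvd_finsetProd_iff,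
    hl.prime.dvd_finsetProd_iff]
  refine or_congr_right ⟨?_, ?_⟩
  · rintro ⟨t, ht, h⟩
    exact ⟨t, ht, hl.dvd_of_dvd_pow h⟩
  · rintro ⟨t, ht, h⟩
    exact ⟨t, ht, dvd_pow h two_ne_zero⟩

theorem delta_twT (J : Finset ℕ) {d : ℤ} (hd : IsUnit (d : ZMod (Q.level J))) :
    (Q.delta J).ringHomComp φ (d : ZMod (Q.level J)) =
      ∏ t ∈ Q.twT φ, Q.chiFam φ t (d : ZMod t) ^ 2 := by
  classical
  have hi : ∀ i, IsUnit (d : ZMod (Q.q i)) := fun i => by
    have := hd.map (ZMod.castHom (Q.q_dvd_level i J) (ZMod (Q.q i)))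
    rwa [map_intCast] at this
  rw [MulChar.ringHomComp_apply, Q.delta_apply J hd, map_prod, twT, Finset.prod_filter_of_ne,
    Finset.prod_image fun i _ j _ h => Q.q_inj h]
  · exact Finset.prod_congr rfl fun i _ => by rw [map_pow, Q.chiFam_intCast φ i (hi i)]
  · intro t ht h h1
    simp only [Finset.mem_image, Finset.mem_univ, true_and] at ht
    obtain ⟨i, rfl⟩ := ht
    rw [h1, MulChar.one_apply (hi i), one_pow] at h
    exact h rfl

theorem prod_chiFam (d : ℕ) (hd : ∀ i, ¬ Q.q i ∣ d) :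
    ∏ t ∈ Q.twT φ, Q.chiFam φ t (d : ZMod t) = φ (Q.twScalar d) := by
  classical
  rw [twScalar, map_prod, twT, Finset.prod_filter_of_ne,
    Finset.prod_image fun i _ j _ h => Q.q_inj h]
  · exact Finset.prod_congr rfl fun i _ => Q.chiFam_natCast φ i (hd i)
  · intro t ht h h1
    simp only [Finset.mem_image, Finset.mem_univ, true_and] at ht
    obtain ⟨i, rfl⟩ := ht
    rw [h1, MulChar.one_apply ((ZMod.isUnit_iff_coprime d (Q.q i)).mpr
      (Nat.coprime_comm.mp ((Q.q_prime i).1.coprime_iff_not_dvd.mpr (hd i))))] at h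
    exact h rfl

theorem prod_chiFam_inv_mul (d : ℕ) (hd : ∀ i, ¬ Q.q i ∣ d) :
    (∏ t ∈ Q.twT φ, (Q.chiFam φ t)⁻¹ (d : ZMod t)) * φ (Q.twScalar d) = 1 := by
  rw [← Q.prod_chiFam φ d hd, ← Finset.prod_mul_distrib]
  refine Finset.prod_eq_one fun t ht => ?_
  obtain ⟨i, rfl, -⟩ := Q.twT_spec φ ht
  rw [← MulChar.mul_apply, inv_mul_cancel,
    MulChar.one_apply ((ZMod.isUnit_iff_coprime d (Q.q i)).mpr
    (Nat.coprime_comm.mp ((Q.q_prime i).1.coprime_iff_not_dvd.mpr (hd i))))]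

variable [Fact P.p.Prime] [IsAdicComplete (maximalIdeal O) O] [Finite (ResidueField O)]

theorem residue_chiFam_inv [IsLocalRing R] [IsLocalHom φ] {t : ℕ} (ht : t ∈ Q.twT φ) {d : ℕ}
    (hd : ¬ t ∣ d) : residue R ((Q.chiFam φ t)⁻¹ (d : ZMod t)) = 1 := by
  obtain ⟨i, rfl, -⟩ := Q.twT_spec φ ht
  have h1 : residue R (Q.chiFam φ (Q.q i) (d : ZMod (Q.q i))) = 1 := by
    rw [Q.chiFam_natCast φ i hd, ← ResidueField.map_residue, Q.residue_twChar i hd, map_one]
  have h2 : Q.chiFam φ (Q.q i) (d : ZMod (Q.q i)) *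
      (Q.chiFam φ (Q.q i))⁻¹ (d : ZMod (Q.q i)) = 1 := by
    rw [← MulChar.mul_apply, mul_inv_cancel,
      MulChar.one_apply ((ZMod.isUnit_iff_coprime d (Q.q i)).mpr
      (Nat.coprime_comm.mp ((Q.q_prime i).1.coprime_iff_not_dvd.mpr hd)))]
  have h3 := congrArg (residue R) h2
  rwa [map_mul, h1, one_mul, map_one] at h3

theorem exists_non_eisenstein_map [IsLocalRing R] [IsLocalHom φ] (S : Finset ℕ) {L : ℕ}
    (hL : L ≠ 0) :
    ∃ ℓ, ℓ.Prime ∧ ℓ ∉ S ∧ ℓ % L = 1 % L ∧ residue R (φ (Q.aTW ℓ)) ≠ residue R (1 + ℓ) := by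
  obtain ⟨ℓ, hℓ, hℓS, hmod, h⟩ := exists_non_eisenstein_TW P Q S hL
  refine ⟨ℓ, hℓ, hℓS, hmod, fun he => h ?_⟩
  rw [show (1 + ℓ : R) = φ (1 + ℓ) by simp, ← ResidueField.map_residue,
    ← ResidueField.map_residue] at he
  exact (ResidueField.map φ).injective he

end TWSet

end FLTAgent.PointsDatum
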