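import Fermat.Agent.ModularityLifting.PointsDatum.Hecke
import Fermat.Agent.ModularityLifting.PointsDatum.Twisted
import Fermat.Agent.ModularityLifting.PointsDatum.Semisimple
import Fermat.Agent.ModularityLifting.Points.Coeff
import Mathlib.LinearAlgebra.Semisimple

/-!
# The Hecke algebras of the levels are reduced

At every point of the coefficient ring each `T_l` is, up to a unit, killed by a squarefree integral
polynomial, so the algebras act semisimply over an algebraic closure.
-/

set_option autoImplicit false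

noncomputable section

open IsLocalRing Matrix Polynomial

namespace FLTAgent.PointsDatum

open FLTAgent.LevelRaising FLTAgent.ModularityLifting FLTAgent.DefRing FLTAgent.HeckePoints

/-- An algebra homomorphism to a finite local algebra is local. -/
theorem isLocalHom_of_finite {O A C : Type} [CommRing O] [CommRing A] [CommRing C] [IsLocalRing A]
    [IsLocalRing C] [Algebra O A] [Algebra O C] [Module.Finite O C] (φ : A →ₐ[O] C) :
    IsLocalHom (φ : A →+* C) := by
  let := φ.toRingHom.toAlgebra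
  have : IsScalarTower O A C := IsScalarTower.of_algebraMap_eq fun x => (φ.commutes x).symm
  have : Algebra.IsIntegral O C := Algebra.IsIntegral.of_finite O C
  have : Algebra.IsIntegral A C := Algebra.IsIntegral.tower_top O
  refine ((local_hom_TFAE (φ : A →+* C)).out 0 4).mpr ?_
  exact IsLocalRing.eq_maximalIdeal
    (Ideal.isMaximal_comap_of_isIntegral_of_isMaximal (R := A) (maximalIdeal C))

/-- Evaluation of integral polynomials commutes with ring homomorphisms. -/
theorem map_aeval_int {A B : Type} [Ring A] [Ring B] [Algebra ℤ A] [Algebra ℤ B] (g : A →+* B)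
    (x : A) (R : ℤ[X]) : g (aeval x R) = aeval (g x) R := by
  rw [aeval_def, aeval_def, hom_eval₂]
  exact congrArg (eval₂ · (g x) R) (RingHom.ext_int _ _)

variable {O : Type} [CommRing O] [IsDomain O] [IsDiscreteValuationRing O] {P : LiftProblem O}
  {n : ℕ} (Q : TWSet P n) [Fact P.p.Prime] [IsAdicComplete (maximalIdeal O) O]
  [Finite (ResidueField O)] [CharZero O] [ExtraThree P]

instance charZero_kbar : CharZero (Kbar O) :=
  haveI : CharZero (FractionRing O) :=
    charZero_of_injective_ringHom (IsFractionRing.injective O (FractionRing O))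
  charZero_of_injective_ringHom (algebraMap (FractionRing O) (Kbar O)).injective

namespace TWSet

omit [CharZero O] in
/-- An integral polynomial killing `T_l` on cusp forms at the level of the twist kills the
normalised `T_l` at a point. -/
theorem aeval_tMat_eq_zero {J : Finset ℕ} (hJ : J ⊆ P.raise) {C : Type} [CommRing C]
    [IsLocalRing C] [IsDomain C] [CharZero C] [IsNoetherianRing C] (φ : TW P n →+* C)
    [IsLocalHom φ] {l : ℕ} (hl : l.Prime) (hlL : ¬ l ∣ Q.level J)
    (hlL' : ¬ l ∣ Q.twLevel φ J) (R : ℤ[X])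
    (hR : haveI : NeZero (Q.twLevel φ J) := ⟨Q.twLevel_ne_zero φ hJ⟩
      aeval (CuspForm.heckeTLin (N := Q.twLevel φ J) 2 hl hlL') R = 0) :
    aeval ((∏ t ∈ Q.twT φ, (Q.chiFam φ t)⁻¹ (l : ZMod t)) • ((Q.basis hJ).tMat l).map φ) R = 0 := by
  classical
  set T := Q.twT φ
  have : NeZero (Q.twLevel φ J) := ⟨Q.twLevel_ne_zero φ hJ⟩
  set c : C := ∏ t ∈ T, (Q.chiFam φ t)⁻¹ (l : ZMod t)
  have hS : ∀ q, q.Prime → q ∣ Q.level J → q ∈ Q.badSet := Q.mem_badSet_of_dvd_level hJ
  have hres : ∀ m, m.Prime → m ∉ Q.badSet → ∀ t ∈ T,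
      residue C ((Q.chiFam φ t)⁻¹ (m : ZMod t)) = 1 := fun m hm hmS t ht => by
    refine Q.residue_chiFam_inv φ ht fun h => hmS ?_
    obtain ⟨i, rfl, -⟩ := Q.twT_spec φ ht
    rw [← (Nat.prime_dvd_prime_iff_eq (Q.q_prime i).1 hm).mp h]
    simp [badSet]
  have hcomb : ∀ v, tOpChar C ((Q.delta J).ringHomComp φ) l (comb (Q.symb hJ φ) v) =
      comb (Q.symb hJ φ) (((Q.basis hJ).tMat l).map φ *ᵥ v) := fun v =>
    apply_comb φ (tOpChar (TW P n) (Q.delta J) l) (tOpChar C ((Q.delta J).ringHomComp φ) l)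
      (fun Φ => mapVal_tOpChar φ l Φ) ((Q.basis hJ).tOp_b hS hl hlL) v
  have hint : ∀ v ∈ (⊤ : Submodule C (Fin (Q.rank J) → C)),
      comb (Q.symb hJ φ) (Matrix.toLinAlgEquiv' (c • ((Q.basis hJ).tMat l).map φ) v) =
        (c • tOpChar C ((Q.delta J).ringHomComp φ) l) (comb (Q.symb hJ φ) v) := fun v _ => by
    rw [LinearMap.smul_apply, hcomb, map_smul, LinearMap.smul_apply, map_smul]
    rfl
  have key : ∀ v,
      aeval (Matrix.toLinAlgEquiv' (c • ((Q.basis hJ).tMat l).map φ)) R v = 0 := fun v => by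
    refine Q.symb_comb_injective hJ φ ?_
    rw [map_zero, (aeval_intertwine _ (c • tOpChar C ((Q.delta J).ringHomComp φ) l)
      (comb (Q.symb hJ φ)) ⊤ (fun _ _ => trivial) hint R (Submodule.mem_top (x := v))).1]
    refine aeval_tOpChar_eq_zero T (fun t ht => (Q.twT_spec φ ht).choose_spec.2.1)
      (Q.chiFam φ) (fun t ht => (Q.twT_spec φ ht).choose_spec.2.2.2) (Q.twM_ne_zero φ hJ)
      (fun t ht => Q.not_dvd_twM φ hJ ht) (Q.level_eq_twM_mul φ J)
      (show Q.twLevel φ J = _ from rfl) _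
      (fun d hd => Q.delta_twT φ J hd) Q.badSet hS (φ ∘ Q.aTW) hres ?_ hl hlL' R hR
      (Q.comb_mem_eigenPart hJ φ v)
    exact Q.exists_non_eisenstein_map φ Q.badSet (Q.twLevel_ne_zero φ hJ)
  refine (Matrix.toLinAlgEquiv' (R := C)).injective ?_
  rw [map_zero]
  exact (map_aeval_int (Matrix.toLinAlgEquiv' (R := C) (n := Fin (Q.rank J))).toRingEquiv.toRingHom
    _ R).trans (LinearMap.ext key)

omit [CharZero O] in
/-- A unit multiple of `T_l` at a point is killed by a squarefree integral polynomial. -/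
theorem exists_kill {J : Finset ℕ} (hJ : J ⊆ P.raise) {C : Type} [CommRing C] [IsLocalRing C]
    [IsDomain C] [CharZero C] [IsNoetherianRing C] (φ : TW P n →+* C) [IsLocalHom φ] {l : ℕ}
    (hl : l.Prime) (hlL : ¬ l ∣ Q.level J * P.p) :
    ∃ (c : C) (R : ℤ[X]), c ≠ 0 ∧ Squarefree (R.map (Int.castRingHom ℚ)) ∧
      aeval (c • (Q.tm J l).map φ) R = 0 := by
  have : NeZero (Q.twLevel φ J) := ⟨Q.twLevel_ne_zero φ hJ⟩
  have hlJ : ¬ l ∣ Q.level J := fun h => hlL (h.mul_right _)
  have hlL' : ¬ l ∣ Q.twLevel φ J := fun h => hlJ ((Q.dvd_twLevel_iff φ hl).mp h)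
  obtain ⟨R, hsq, hR⟩ := exists_squarefree_kill (L := Q.twLevel φ J) hl hlL'
  refine ⟨∏ t ∈ Q.twT φ, (Q.chiFam φ t)⁻¹ (l : ZMod t), R, fun h0 => ?_, hsq, ?_⟩
  · have h1 := Q.prod_chiFam_inv_mul φ l fun i h => hlJ
      (((Nat.prime_dvd_prime_iff_eq (Q.q_prime i).1 hl).mp h ▸ Q.q_dvd_level i J))
    rw [h0, zero_mul] at h1
    exact zero_ne_one h1
  · rw [Q.tm_eq hJ hl hlL]
    exact Q.aeval_tMat_eq_zero hJ φ hl hlJ hlL' R hR

omit [ExtraThree P] in
/-- Every point of the coefficient ring factors through a complete discrete valuation ring. -/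
theorem exists_lift_point (f : TW P n →ₐ[O] Kbar O) :
    ∃ (C : Type) (_ : CommRing C) (_ : IsDomain C) (_ : IsLocalRing C) (_ : CharZero C)
      (_ : IsNoetherianRing C) (_ : Algebra O C) (j : C →ₐ[O] Kbar O) (φ : TW P n →+* C),
      IsLocalHom φ ∧ Function.Injective j ∧ ∀ x, j (φ x) = f x := by
  classical
  obtain ⟨s, hs⟩ := Module.Finite.fg_top (R := O) (M := TW P n)
  obtain ⟨C, iC, iD, iV, iA, iF, iZ, iAlg, iFin, iFree, iL, j, hj, -, hsub⟩ :=
    exists_coeff O (f '' (s : Set (TW P n))) (s.finite_toSet.image f) fun z hz => by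
      obtain ⟨x, -, rfl⟩ := hz
      exact (Algebra.IsIntegral.isIntegral (R := O) x).map f
  have hrange : ∀ x, f x ∈ j.range := fun x => by
    have hx : x ∈ Submodule.span O (s : Set (TW P n)) := hs ▸ Submodule.mem_top
    induction hx using Submodule.span_induction with
    | mem y hy => exact hsub ⟨y, hy, rfl⟩
    | zero => rw [map_zero]; exact zero_mem _
    | add a b _ _ ha hb => rw [map_add]; exact add_mem ha hb
    | smul c a _ ha => rw [map_smul]; exact Subalgebra.smul_mem _ ha c
  let φ : TW P n →ₐ[O] C :=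
    (AlgEquiv.ofInjective j hj).symm.toAlgHom.comp (f.codRestrict j.range hrange)
  exact ⟨C, iC, iD, inferInstance, iZ, isNoetherian_of_tower O inferInstance, iAlg, j, φ,
    isLocalHom_of_finite φ, hj,
    fun x => congrArg Subtype.val ((AlgEquiv.ofInjective j hj).apply_symm_apply _)⟩

/-- `T_l` is semisimple at every point over the algebraic closure. -/
theorem isSemisimple_tm {J : Finset ℕ} (hJ : J ⊆ P.raise) (f : TW P n →ₐ[O] Kbar O) (l : ℕ) :
    Module.End.IsSemisimple (Matrix.toLinAlgEquiv' ((Q.tm J l).map f)) := by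
  classical
  by_cases h : l.Prime ∧ ¬ l ∣ Q.level J * P.p
  swap
  · rw [tm, dif_neg fun hh => h hh.2, Matrix.map_zero _ (map_zero f), map_zero]
    exact Module.End.isSemisimple_zero
  obtain ⟨C, iC, iD, iLR, iZ, iN, iAlg, j, φ, iL, hj, hφ⟩ := exists_lift_point f
  obtain ⟨c, R, hc, hsq, hR⟩ := Q.exists_kill hJ φ h.1 h.2
  have hmap : ((Q.tm J l).map f) = ((Q.tm J l).map φ).map j := by
    ext a b
    exact (hφ _).symm
  have hR' : aeval (j c • (Q.tm J l).map f) R = 0 := by
    rw [hmap, show j c • ((Q.tm J l).map φ).map j =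
      j.toRingHom.mapMatrix (c • (Q.tm J l).map φ) by
        ext a b; simp [Matrix.map_apply], ← map_aeval_int, hR, map_zero]
  have hsq' : Squarefree (R.map (algebraMap ℤ (Kbar O))) := by
    have h1 := (PerfectField.separable_iff_squarefree.mpr hsq).map
      (f := algebraMap ℚ (Kbar O))
    rw [Polynomial.map_map] at h1
    rw [show algebraMap ℤ (Kbar O) = (algebraMap ℚ (Kbar O)).comp (Int.castRingHom ℚ) from
      RingHom.ext_int _ _]
    exact h1.squarefree
  refine (Module.End.IsSemisimple_smul_iff (t := j c) fun h0 => hc (hj (by rw [h0, map_zero]))).mp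
    (Module.End.isSemisimple_of_squarefree_aeval_eq_zero hsq' ?_)
  rw [aeval_def, eval₂_map, ← map_smul, show (algebraMap (Kbar O)
    (Module.End (Kbar O) (Fin (Q.rank J) → Kbar O))).comp (algebraMap ℤ (Kbar O)) =
      algebraMap ℤ _ from RingHom.ext_int _ _, ← aeval_def]
  exact (map_aeval_int
    (Matrix.toLinAlgEquiv' (R := Kbar O)
      (n := Fin (Q.rank J))).toRingEquiv.toRingHom _ R).symm.trans
    (by rw [hR', map_zero])

/-- Every element of the Hecke algebra is semisimple at every point. -/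
theorem isSemisimple_heckeAlg {J : Finset ℕ} (hJ : J ⊆ P.raise) (f : TW P n →ₐ[O] Kbar O)
    (x : Q.heckeAlg J) : Module.End.IsSemisimple
      (Matrix.toLinAlgEquiv' ((x : Matrix (Fin (Q.rank J)) (Fin (Q.rank J)) (TW P n)).map f)) := by
  classical
  set ev := (Matrix.toLinAlgEquiv' (R := Kbar O) (n := Fin (Q.rank J))).toRingEquiv.toRingHom.comp
    ((f : TW P n →+* Kbar O).mapMatrix.comp (Q.heckeAlg J).val.toRingHom)
  have hcomm : ∀ a b, Commute (ev a) (ev b) := fun a b => (Commute.all a b).map ev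
  show Module.End.IsSemisimple (ev x)
  obtain ⟨x, hx⟩ := x
  induction hx using Algebra.adjoin_induction with
  | mem y hy =>
    obtain ⟨l, rfl⟩ := hy
    exact Q.isSemisimple_tm hJ f l
  | algebraMap a =>
    have h : ev ⟨algebraMap (TW P n) _ a, Subalgebra.algebraMap_mem _ a⟩ =
        f a • (1 : Module.End (Kbar O) (Fin (Q.rank J) → Kbar O)) := by
      refine LinearMap.ext fun v => funext fun i => ?_
      simp [ev, Matrix.algebraMap_eq_diagonal, Matrix.diagonal_map (map_zero f),
        Matrix.mulVec_diagonal]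
    rw [h]
    exact Module.End.IsSemisimple_smul _ Module.End.isSemisimple_id
  | add a b ha hb iha ihb =>
    have h := iha.add_of_commute (hcomm ⟨a, ha⟩ ⟨b, hb⟩) ihb
    rwa [← map_add] at h
  | mul a b ha hb iha ihb =>
    have h := iha.mul_of_commute (hcomm ⟨a, ha⟩ ⟨b, hb⟩) ihb
    rwa [← map_mul] at h

theorem isReduced_heckeAlg {J : Finset ℕ} (hJ : J ⊆ P.raise) : IsReduced (Q.heckeAlg J) := by
  classical
  refine ⟨fun x hx => Subtype.ext (Matrix.ext fun a b => ?_)⟩
  have h0 : ∀ f : TW P n →ₐ[O] Kbar O,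
      (x : Matrix (Fin (Q.rank J)) (Fin (Q.rank J)) (TW P n)).map f = 0 := fun f => by
    refine (Matrix.toLinAlgEquiv' (R := Kbar O)).injective ?_
    rw [map_zero]
    refine Module.End.eq_zero_of_isNilpotent_isSemisimple ?_ (Q.isSemisimple_heckeAlg hJ f x)
    exact hx.map ((Matrix.toLinAlgEquiv' (R := Kbar O)
      (n := Fin (Q.rank J))).toRingEquiv.toRingHom.comp
      ((f : TW P n →+* Kbar O).mapMatrix.comp (Q.heckeAlg J).val.toRingHom))
  show (x : Matrix _ _ (TW P n)) a b = 0
  exact IsReduced.eq_zero _ (isNilpotent_of_forall_point O (TW P n) fun f =>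
    congrFun (congrFun (h0 f) a) b)

end TWSet

end FLTAgent.PointsDatum
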