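import Fermat.Agent.ModularityLifting.PointsDatum.Residual
import Fermat.Agent.ModularityLifting.Points.Operators
import Mathlib.RingTheory.Adjoin.Basic

/-!
# The Hecke algebras of the levels of a set of Taylor–Wiles primes

Bases of the eigenparts, the matrices of the good Hecke operators and the algebras they generate
over the coefficient ring.
-/

set_option autoImplicit false
set_option linter.unusedSectionVars false

noncomputable section

open IsLocalRing Matrix

namespace FLTAgent.PointsDatum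

open FLTAgent.LevelRaising FLTAgent.ModularityLifting FLTAgent.DefRing FLTAgent.HeckePoints

variable {O : Type} [CommRing O] [IsDomain O] [IsDiscreteValuationRing O] {P : LiftProblem O}
  {n : ℕ} (Q : TWSet P n) [Fact P.p.Prime] [IsAdicComplete (maximalIdeal O) O]
  [Finite (ResidueField O)]

namespace TWSet

/-- The residual eigenpart at a level. -/
def resPart (J : Finset ℕ) :
    Submodule (ResidueField (TW P n)) (Cusp → Cusp → ResidueField (TW P n)) :=
  eigenPart (ResidueField (TW P n)) ((Q.delta J).ringHomComp (residue (TW P n))) Q.badSet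
    (residue (TW P n) ∘ Q.aTW)

open scoped Classical in
/-- The ranks of the eigenparts. -/
def rank (J : Finset ℕ) : ℕ :=
  if J ⊆ P.raise then Module.finrank (ResidueField (TW P n)) (Q.resPart J) else 0

theorem rank_eq {J : Finset ℕ} (hJ : J ⊆ P.raise) :
    Q.rank J = Module.finrank (ResidueField (TW P n)) (Q.resPart J) := if_pos hJ

variable [ExtraThree P]

theorem exists_basis {J : Finset ℕ} (hJ : J ⊆ P.raise) :
    ∃ B : EigenBasis (Q.delta J) Q.badSet Q.aTW (Q.rank J),
      LinearIndependent (ResidueField (TW P n))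
        (fun i => mapVal (residue (TW P n)) (B.b i)) ∧
      Q.resPart J ≤ Submodule.span (ResidueField (TW P n))
        (Set.range fun i => mapVal (residue (TW P n)) (B.b i)) := by
  classical
  have : NeZero (Q.level J) := ⟨Q.level_ne_zero hJ⟩
  have hS : ∀ q, q.Prime → q ∣ Q.level J * P.p → q ∈ Q.badSet := fun q hq h =>
    Q.mem_badSet_of_dvd hJ hq h
  have hne := exists_non_eisenstein_TW P Q Q.badSet (Q.level_ne_zero hJ)
  have hell : P.p = 3 → ∃ t, t.Prime ∧ t ∣ Q.level J ∧ t % 3 = 2 := fun h3 => by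
    obtain ⟨t, ht, ht3⟩ := ExtraThree.out (P := P) h3
    have htP : t.Prime := P.prime t (by simp [ht])
    exact ⟨t, htP, (Q.prime_dvd_level hJ htP).mpr (Or.inl (by simp [ht])), ht3⟩
  rw [Q.rank_eq hJ]
  exact exists_eigenBasis_of_hell P.p P.hp2 hell (fun u => ⟨n, Q.delta_pow J u⟩) hS hne

/-- The basis of the eigenpart at a level. -/
def basis {J : Finset ℕ} (hJ : J ⊆ P.raise) :
    EigenBasis (Q.delta J) Q.badSet Q.aTW (Q.rank J) :=
  (Q.exists_basis hJ).choose

theorem mem_badSet_of_dvd_level {J : Finset ℕ} (hJ : J ⊆ P.raise) :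
    ∀ q, q.Prime → q ∣ Q.level J → q ∈ Q.badSet := fun _ hq h =>
  Q.mem_badSet_of_dvd hJ hq (h.mul_right P.p)

open scoped Classical in
/-- The matrix of `T_l` at a level, for `l` prime to the level and to `p`. -/
def tm (J : Finset ℕ) (l : ℕ) : Matrix (Fin (Q.rank J)) (Fin (Q.rank J)) (TW P n) :=
  if h : J ⊆ P.raise ∧ l.Prime ∧ ¬ l ∣ Q.level J * P.p then (Q.basis h.1).tMat l else 0

theorem tm_eq {J : Finset ℕ} (hJ : J ⊆ P.raise) {l : ℕ} (hl : l.Prime)
    (hlL : ¬ l ∣ Q.level J * P.p) : Q.tm J l = (Q.basis hJ).tMat l :=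
  dif_pos ⟨hJ, hl, hlL⟩

theorem tm_comm (J : Finset ℕ) (l m : ℕ) : Q.tm J l * Q.tm J m = Q.tm J m * Q.tm J l := by
  unfold tm
  split_ifs with h h'
  · exact (Q.basis h.1).tMat_comm (Q.mem_badSet_of_dvd_level h.1) h.2.1
      (fun hd => h.2.2 (hd.mul_right _)) h'.2.1 (fun hd => h'.2.2 (hd.mul_right _))
  all_goals simp

/-- The Hecke algebra at a level. -/
def heckeAlg (J : Finset ℕ) :
    Subalgebra (TW P n) (Matrix (Fin (Q.rank J)) (Fin (Q.rank J)) (TW P n)) :=
  Algebra.adjoin (TW P n) (Set.range (Q.tm J))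

instance instCommRingHeckeAlg (J : Finset ℕ) : CommRing (Q.heckeAlg J) :=
  { (Q.heckeAlg J).toRing with
    mul_comm := fun x y => by
      refine (Algebra.isMulCommutative_adjoin (TW P n)
        (s := Set.range (Q.tm J)) ?_).is_comm.comm x y
      rintro _ ⟨l, rfl⟩ _ ⟨m, rfl⟩
      exact Q.tm_comm J l m }

instance finite_heckeAlg (J : Finset ℕ) : Module.Finite O (Q.heckeAlg J) :=
  Module.Finite.of_injective ((Q.heckeAlg J).val.toLinearMap.restrictScalars O)
    Subtype.val_injective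

instance isTorsionFree_heckeAlg (J : Finset ℕ) : Module.IsTorsionFree O (Q.heckeAlg J) :=
  Function.Injective.moduleIsTorsionFree (Subtype.val : Q.heckeAlg J → _) Subtype.val_injective
    (fun _ _ => rfl)

/-- `T_l` in the Hecke algebra. -/
def tH (J : Finset ℕ) (l : ℕ) : Q.heckeAlg J := ⟨Q.tm J l, Algebra.subset_adjoin ⟨l, rfl⟩⟩

/-- The basis after a change of coefficients. -/
def symb {J : Finset ℕ} (hJ : J ⊆ P.raise) {R : Type} [CommRing R] (φ : TW P n →+* R) :
    Fin (Q.rank J) → Cusp → Cusp → R := fun i => mapVal φ ((Q.basis hJ).b i)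

theorem symb_comb_injective {J : Finset ℕ} (hJ : J ⊆ P.raise) {R : Type} [CommRing R]
    (φ : TW P n →+* R) : Function.Injective (comb (Q.symb hJ φ)) :=
  comb_injective (Q.basis hJ).isUnit_det φ

theorem comb_mem_symbChar {J : Finset ℕ} (hJ : J ⊆ P.raise) {R : Type} [CommRing R]
    (φ : TW P n →+* R) (v : Fin (Q.rank J) → R) :
    comb (Q.symb hJ φ) v ∈ SymbChar R ((Q.delta J).ringHomComp φ) := by
  rw [comb_apply]
  exact Submodule.sum_mem _ fun i _ =>
    Submodule.smul_mem _ _ (mapVal_mem φ ((Q.basis hJ).mem_symbChar i))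

theorem comb_mem_eigenPart {J : Finset ℕ} (hJ : J ⊆ P.raise) {R : Type} [CommRing R]
    [IsLocalRing R] (φ : TW P n →+* R) [IsLocalHom φ] (v : Fin (Q.rank J) → R) :
    comb (Q.symb hJ φ) v ∈ eigenPart R ((Q.delta J).ringHomComp φ) Q.badSet (φ ∘ Q.aTW) := by
  rw [comb_apply]
  exact Submodule.sum_mem _ fun i _ => Submodule.smul_mem _ _
    (mapVal_mem_eigenPart_of_isLocalHom φ (Q.mem_badSet_of_dvd_level hJ) ((Q.basis hJ).mem i))

theorem tOpChar_comb {J : Finset ℕ} (hJ : J ⊆ P.raise) {R : Type} [CommRing R]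
    (φ : TW P n →+* R) {l : ℕ} (hl : l.Prime) (hlL : ¬ l ∣ Q.level J * P.p)
    (v : Fin (Q.rank J) → R) :
    tOpChar R ((Q.delta J).ringHomComp φ) l (comb (Q.symb hJ φ) v) =
      comb (Q.symb hJ φ) ((Q.tm J l).map φ *ᵥ v) := by
  rw [Q.tm_eq hJ hl hlL]
  exact apply_comb φ (tOpChar (TW P n) (Q.delta J) l) (tOpChar R ((Q.delta J).ringHomComp φ) l)
    (fun Φ => mapVal_tOpChar φ l Φ)
    ((Q.basis hJ).tOp_b (Q.mem_badSet_of_dvd_level hJ) hl fun hd => hlL (hd.mul_right _)) v

end TWSet

end FLTAgent.PointsDatum
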