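import Fermat.Agent.ModularityLifting.PointsDatum.TWRing
import Fermat.Agent.ModularityLifting.Levels
import Fermat.Agent.ModularityLifting.Twist
import Mathlib.NumberTheory.MulChar.Lemmas
import Mathlib.RingTheory.ZMod.UnitsCyclic

/-!
# Levels and characters attached to a set of Taylor–Wiles primes

For a lifting problem and primes `q i ≡ 1 (mod pⁿ⁺¹)` with distinct residual Frobenius eigenvalues:
the levels, the common set of bad primes, and the characters with values in the coefficient ring.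
-/

set_option autoImplicit false

noncomputable section

open IsLocalRing

namespace FLTAgent.PointsDatum

open FLTAgent.LevelRaising FLTAgent.ModularityLifting FLTAgent.DefRing

local notation "Qbar" => AlgebraicClosure ℚ

variable {O : Type} [CommRing O] [IsDomain O] [IsDiscreteValuationRing O] (P : LiftProblem O)

/-- The coefficient ring at level `n`. -/
abbrev TW (n : ℕ) : Type := TWRing O P.p P.r n

/-- The level without Taylor–Wiles primes. -/
def baseLevel (J : Finset ℕ) : ℕ := ∏ v ∈ P.minimal ∪ P.extra ∪ J, v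

/-- A set of Taylor–Wiles primes at level `n`. -/
structure TWSet (n : ℕ) where
  q : Fin P.r → ℕ
  q_prime : ∀ i, (q i).Prime ∧ q i ∉ P.loc ∧ q i ≠ P.p
  q_inj : Function.Injective q
  q_cong : ∀ i, q i % P.p ^ (n + 1) = 1
  dist : ∀ i, ∀ A : ValuationSubring Qbar, A.LiesOverPrime (q i) → ∀ φ : AbsGal,
    A.IsFrobeniusAt φ (q i) → ∃ α β : ResidueField O, α ≠ β ∧ α + β = (P.ρbar φ).trace ∧
      α * β = (P.ρbar φ).det

variable {P} {n : ℕ} (Q : TWSet P n)

namespace TWSet

/-- The level attached to a set of raising primes. -/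
def level (J : Finset ℕ) : ℕ := baseLevel P J * ∏ i, Q.q i

/-- The primes at which nothing is prescribed. -/
def badSet : Finset ℕ := P.loc ∪ {P.p} ∪ Finset.univ.image Q.q

/-- The residual system of eigenvalues, in the coefficient ring. -/
def aTW (_ : TWSet P n) : ℕ → TW P n := fun l => algebraMap O (TW P n) (P.ρ (P.frob l)).trace

instance neZero_q (i : Fin P.r) : NeZero (Q.q i) := ⟨(Q.q_prime i).1.ne_zero⟩

theorem pow_dvd_sub_one (i : Fin P.r) : P.p ^ n ∣ Q.q i - 1 := by
  refine (pow_dvd_pow P.p n.le_succ).trans ((Nat.modEq_iff_dvd' (Q.q_prime i).1.one_le).mp ?_)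
  show 1 % P.p ^ (n + 1) = Q.q i % P.p ^ (n + 1)
  rw [Q.q_cong i, Nat.one_mod_eq_one]
  intro h
  exact P.hp.ne_one ((Nat.pow_eq_one.mp h).resolve_right (Nat.succ_ne_zero n))

/-- A generator of the units at `q i`. -/
def gen (i : Fin P.r) : (ZMod (Q.q i))ˣ :=
  haveI : Fact (Q.q i).Prime := ⟨(Q.q_prime i).1⟩
  (IsCyclic.exists_generator (α := (ZMod (Q.q i))ˣ)).choose

theorem gen_spec (i : Fin P.r) (x : (ZMod (Q.q i))ˣ) : x ∈ Subgroup.zpowers (Q.gen i) :=
  haveI : Fact (Q.q i).Prime := ⟨(Q.q_prime i).1⟩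
  (IsCyclic.exists_generator (α := (ZMod (Q.q i))ˣ)).choose_spec x

/-- The unit `1 + X_i`. -/
def uUnit (_ : TWSet P n) (i : Fin P.r) : (TW P n)ˣ :=
  Units.ofPowEqOne _ (P.p ^ n) (twU_pow O P.p P.r n i) (pow_ne_zero _ P.hp.ne_zero)

theorem uUnit_mem (i : Fin P.r) :
    Q.uUnit i ∈ rootsOfUnity (Fintype.card (ZMod (Q.q i))ˣ) (TW P n) := by
  obtain ⟨c, hc⟩ := Q.pow_dvd_sub_one i
  rw [mem_rootsOfUnity, ZMod.card_units_eq_totient, Nat.totient_prime (Q.q_prime i).1, hc, pow_mul,
    uUnit, Units.pow_ofPowEqOne, one_pow]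

/-- The character at `q i` taking the value `1 + X_i` at the generator. -/
def twChar (i : Fin P.r) : DirichletCharacter (TW P n) (Q.q i) :=
  MulChar.ofRootOfUnity (Q.uUnit_mem i) (Q.gen_spec i)

theorem twChar_gen (i : Fin P.r) :
    Q.twChar i (Q.gen i : ZMod (Q.q i)) = twU O P.p P.r n i := by
  rw [twChar, MulChar.ofRootOfUnity_spec]
  rfl

theorem twChar_apply_zpow (i : Fin P.r) (u : (ZMod (Q.q i))ˣ) :
    ∃ k : ℕ, Q.twChar i (u : ZMod (Q.q i)) = twU O P.p P.r n i ^ k := by
  obtain ⟨k, rfl⟩ := (mem_powers_iff_mem_zpowers (x := Q.gen i)).mpr (Q.gen_spec i u)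
  exact ⟨k, by
    show Q.twChar i ((Q.gen i ^ k : (ZMod (Q.q i))ˣ) : ZMod (Q.q i)) = _
    rw [Units.val_pow_eq_pow_val, map_pow, twChar_gen]⟩

theorem twChar_pow (i : Fin P.r) : Q.twChar i ^ P.p ^ n = 1 := by
  refine MulChar.ext fun u => ?_
  obtain ⟨k, hk⟩ := Q.twChar_apply_zpow i u
  rw [MulChar.pow_apply_coe, MulChar.one_apply_coe, hk, pow_right_comm, twU_pow, one_pow]

theorem mem_primes {J : Finset ℕ} (hJ : J ⊆ P.raise) {v : ℕ}
    (hv : v ∈ P.minimal ∪ P.extra ∪ J) : v.Prime ∧ v ∈ P.loc := by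
  have hv' : v ∈ P.minimal ∪ P.raise ∪ P.extra := by
    simp only [Finset.mem_union] at hv ⊢
    rcases hv with (h | h) | h
    · exact Or.inl (Or.inl h)
    · exact Or.inr h
    · exact Or.inl (Or.inr (hJ h))
  exact ⟨P.prime v hv', hv'⟩

theorem level_ne_zero {J : Finset ℕ} (hJ : J ⊆ P.raise) : Q.level J ≠ 0 :=
  mul_ne_zero (Finset.prod_ne_zero_iff.mpr fun _ hv => (mem_primes hJ hv).1.ne_zero)
    (Finset.prod_ne_zero_iff.mpr fun i _ => (Q.q_prime i).1.ne_zero)

theorem prime_dvd_level {J : Finset ℕ} (hJ : J ⊆ P.raise) {l : ℕ} (hl : l.Prime) :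
    l ∣ Q.level J ↔ l ∈ P.minimal ∪ P.extra ∪ J ∨ ∃ i, Q.q i = l := by
  constructor
  · intro h
    rcases hl.dvd_mul.mp h with h | h
    · obtain ⟨v, hv, hlv⟩ := hl.prime.exists_mem_finset_dvd h
      exact Or.inl ((Nat.prime_dvd_prime_iff_eq hl (mem_primes hJ hv).1).mp hlv ▸ hv)
    · obtain ⟨i, -, hli⟩ := hl.prime.exists_mem_finset_dvd h
      exact Or.inr ⟨i, ((Nat.prime_dvd_prime_iff_eq hl (Q.q_prime i).1).mp hli).symm⟩
  · rintro (h | ⟨i, rfl⟩)
    · exact (Finset.dvd_prod_of_mem _ h).mul_right _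
    · exact (Finset.dvd_prod_of_mem _ (Finset.mem_univ i)).mul_left _

theorem mem_badSet_of_dvd {J : Finset ℕ} (hJ : J ⊆ P.raise) {l : ℕ} (hl : l.Prime)
    (h : l ∣ Q.level J * P.p) : l ∈ Q.badSet := by
  simp only [badSet, Finset.mem_union, Finset.mem_singleton, Finset.mem_image, Finset.mem_univ,
    true_and]
  rcases hl.dvd_mul.mp h with h | h
  · rcases (Q.prime_dvd_level hJ hl).mp h with h | h
    · exact Or.inl (Or.inl (mem_primes hJ h).2)
    · exact Or.inr h
  · exact Or.inl (Or.inr ((Nat.prime_dvd_prime_iff_eq hl P.hp).mp h))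

theorem not_dvd_level_of_notMem {J : Finset ℕ} (hJ : J ⊆ P.raise) {v : ℕ} (hv : v ∈ P.raise)
    (hvJ : v ∉ J) : ¬ v ∣ Q.level J := by
  have hvp : v.Prime := P.prime v (by simp [hv])
  rw [Q.prime_dvd_level hJ hvp]
  rintro (h | ⟨i, hi⟩)
  · simp only [Finset.mem_union] at h
    rcases h with (h | h) | h
    · exact Finset.disjoint_left.mp P.disjoint_raise h hv
    · exact Finset.disjoint_left.mp P.disjoint_extra (Finset.mem_union_right _ hv) h
    · exact hvJ h
  · exact (Q.q_prime i).2.1 (by simp [LiftProblem.loc, hi, hv])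

theorem level_insert {J : Finset ℕ} {v : ℕ} (hv : v ∈ P.raise) (hvJ : v ∉ J) :
    Q.level (insert v J) = Q.level J * v := by
  have hv' : v ∉ P.minimal ∪ P.extra ∪ J := by
    simp only [Finset.mem_union, not_or]
    exact ⟨⟨fun h => Finset.disjoint_left.mp P.disjoint_raise h hv,
      fun h => Finset.disjoint_left.mp P.disjoint_extra (Finset.mem_union_right _ hv) h⟩, hvJ⟩
  rw [level, level, baseLevel, baseLevel, Finset.union_insert, Finset.prod_insert hv']
  ring

theorem q_dvd_level (i : Fin P.r) (J : Finset ℕ) : Q.q i ∣ Q.level J :=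
  dvd_mul_of_dvd_right (Finset.dvd_prod_of_mem _ (Finset.mem_univ i)) _

/-- The nebentype: the product of the squares of the characters. -/
def delta (J : Finset ℕ) : DirichletCharacter (TW P n) (Q.level J) :=
  ∏ i, DirichletCharacter.changeLevel (Q.q_dvd_level i J) (Q.twChar i ^ 2)

/-- The product of the characters at an integer: the scalar of the twist. -/
def twScalar (d : ℕ) : TW P n := ∏ i, Q.twChar i (d : ZMod (Q.q i))

theorem delta_apply (J : Finset ℕ) {d : ℤ} (hd : IsUnit (d : ZMod (Q.level J))) :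
    Q.delta J (d : ZMod (Q.level J)) = ∏ i, Q.twChar i (d : ZMod (Q.q i)) ^ 2 := by
  have hprod : ∀ s : Finset (Fin P.r),
      (∏ i ∈ s, DirichletCharacter.changeLevel (Q.q_dvd_level i J) (Q.twChar i ^ 2))
        (d : ZMod (Q.level J)) = ∏ i ∈ s, Q.twChar i (d : ZMod (Q.q i)) ^ 2 := by
    intro s
    classical
    induction s using Finset.induction_on with
    | empty => rw [Finset.prod_empty, Finset.prod_empty, MulChar.one_apply hd]
    | insert i s hi ih =>
      rw [Finset.prod_insert hi, Finset.prod_insert hi, MulChar.mul_apply, ih,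
        changeLevel_intCast _ _ _ hd, MulChar.pow_apply' _ two_ne_zero]
  exact hprod Finset.univ

theorem twScalar_mul_self (J : Finset ℕ) {d : ℕ} (hd : d.Coprime (Q.level J)) :
    Q.twScalar d * Q.twScalar d = Q.delta J (d : ZMod (Q.level J)) := by
  have hu : IsUnit ((d : ℤ) : ZMod (Q.level J)) := by
    rw [Int.cast_natCast]
    exact (ZMod.unitOfCoprime d hd).isUnit
  have h := Q.delta_apply J hu
  simp only [Int.cast_natCast] at h
  rw [h, twScalar, ← Finset.prod_mul_distrib]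
  simp only [pow_two]

theorem isUnit_twScalar {d : ℕ} (hd : ∀ i, ¬ Q.q i ∣ d) : IsUnit (Q.twScalar d) := by
  refine IsUnit.prod_univ_iff.mpr fun i => ?_
  exact ((ZMod.isUnit_iff_coprime d (Q.q i)).mpr
    (Nat.coprime_comm.mp ((Q.q_prime i).1.coprime_iff_not_dvd.mpr (hd i)))).map (Q.twChar i)

theorem residue_twU (_ : TWSet P n) [Fact P.p.Prime] [IsAdicComplete (maximalIdeal O) O]
    [Finite (ResidueField O)] (i : Fin P.r) : residue (TW P n) (twU O P.p P.r n i) = 1 := by
  rw [← sub_eq_zero, ← map_one (residue (TW P n)), ← map_sub, residue_eq_zero_iff]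
  exact twU_sub_one_mem O P.p P.r n P.p_mem i

theorem residue_twChar [Fact P.p.Prime] [IsAdicComplete (maximalIdeal O) O]
    [Finite (ResidueField O)] (i : Fin P.r) {d : ℕ} (hd : ¬ Q.q i ∣ d) :
    residue (TW P n) (Q.twChar i (d : ZMod (Q.q i))) = 1 := by
  obtain ⟨k, hk⟩ := Q.twChar_apply_zpow i (ZMod.unitOfCoprime d
    (Nat.coprime_comm.mp ((Q.q_prime i).1.coprime_iff_not_dvd.mpr hd)))
  rw [ZMod.coe_unitOfCoprime] at hk
  rw [hk, map_pow, Q.residue_twU, one_pow]

theorem residue_twScalar [Fact P.p.Prime] [IsAdicComplete (maximalIdeal O) O]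
    [Finite (ResidueField O)] {d : ℕ} (hd : ∀ i, ¬ Q.q i ∣ d) :
    residue (TW P n) (Q.twScalar d) = 1 := by
  rw [twScalar, map_prod]
  exact Finset.prod_eq_one fun i _ => Q.residue_twChar i (hd i)

theorem delta_pow (J : Finset ℕ) (u : (ZMod (Q.level J))ˣ) :
    Q.delta J (u : ZMod (Q.level J)) ^ P.p ^ n = 1 := by
  obtain ⟨d, hd⟩ := ZMod.intCast_surjective (u : ZMod (Q.level J))
  have hu : IsUnit (d : ZMod (Q.level J)) := hd.symm ▸ u.isUnit
  rw [← hd, Q.delta_apply J hu, ← Finset.prod_pow]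
  refine Finset.prod_eq_one fun i _ => ?_
  have hi : IsUnit (d : ZMod (Q.q i)) := by
    have := hu.map (ZMod.castHom (Q.q_dvd_level i J) (ZMod (Q.q i)))
    rwa [map_intCast] at this
  rw [← pow_mul, mul_comm, pow_mul, ← hi.unit_spec, ← MulChar.pow_apply_coe, twChar_pow,
    MulChar.one_apply_coe, one_pow]

theorem delta_changeLevel {J J' : Finset ℕ} {v : ℕ} (h : Q.level J' = Q.level J * v) (d : ℤ)
    (hd : IsUnit (d : ZMod (Q.level J'))) :
    Q.delta J' (d : ZMod (Q.level J')) =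
      DirichletCharacter.changeLevel (dvd_mul_right (Q.level J) v) (Q.delta J)
        (d : ZMod (Q.level J * v)) := by
  have hd1 : IsUnit (d : ZMod (Q.level J * v)) := h ▸ hd
  have hd2 : IsUnit (d : ZMod (Q.level J)) := by
    have := hd1.map (ZMod.castHom (dvd_mul_right (Q.level J) v) (ZMod (Q.level J)))
    rwa [map_intCast] at this
  rw [changeLevel_intCast _ _ _ hd1, Q.delta_apply J' hd, Q.delta_apply J hd2]

end TWSet

/-- Characters of equal levels with equal values have the same symbols, operators and parts. -/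
theorem eigenPart_congr {R : Type} [CommRing R] [IsLocalRing R] {L L' : ℕ} (h : L = L')
    (δ : DirichletCharacter R L) (δ' : DirichletCharacter R L')
    (hv : ∀ d : ℤ, IsUnit (d : ZMod L) → δ (d : ZMod L) = δ' (d : ZMod L')) (S : Finset ℕ)
    (a : ℕ → R) :
    eigenPart R δ S a = eigenPart R δ' S a ∧ ∀ l, tOpChar R δ l = tOpChar R δ' l := by
  subst h
  have : δ = δ' := MulChar.ext fun u => by
    obtain ⟨d, hd⟩ := ZMod.intCast_surjective (u : ZMod L)
    rw [← hd]
    exact hv d (hd.symm ▸ u.isUnit)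
  subst this
  exact ⟨rfl, fun _ => rfl⟩

end FLTAgent.PointsDatum
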