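import Fermat.Agent.ModularityLifting.Engine.Interface
import Fermat.Agent.ModularityLifting.Points.Galois

/-!
# The determinant of a lifting problem is the cyclotomic character

`detHom_eq_cycChar`: the determinant of the representation of a lifting problem is the cyclotomic
character with values in the coefficient ring, also in complete local algebras over it.
-/

set_option autoImplicit false

noncomputable section

open IsLocalRing

namespace FLTAgent.PointsDatum

open FLTAgent.ModularityLifting FLTAgent.GaloisAttach FLTAgent.HeckePoints
open FLTAgent.Density (GalQ)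

variable {O : Type} [CommRing O] [IsDomain O] [IsDiscreteValuationRing O] (P : LiftProblem O)
  [Fact P.p.Prime] [IsAdicComplete (maximalIdeal O) O]

/-- The determinant, as a character. -/
def detHom : GalQ →* O := Matrix.detMonoidHom.comp P.ρ

omit [Fact (Nat.Prime P.p)] [IsAdicComplete (maximalIdeal O) O] in
theorem detHom_apply (g : GalQ) : detHom P g = (P.ρ g).det := rfl

theorem detHom_eq_cycChar : detHom P = cycChar P.p_mem := by
  refine MonoidHom.ext fun g => eq_of_forall_sub_mem_pow (I := maximalIdeal O) fun m => ?_
  set a := (PadicInt.toZModPow m (cyc P.p g)).val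
  have h1 := P.det m g a fun μ hμ => apply_rootOfUnity P.p g hμ
  have h2 : Ideal.span {((P.p ^ m : ℕ) : O)} ≤ maximalIdeal O ^ m := by
    rw [Ideal.span_singleton_le_iff_mem, Nat.cast_pow]
    exact Ideal.pow_mem_pow P.p_mem m
  have h3 := sub_mem (h2 h1) (padicTo_sub_mem P.p_mem m (cyc P.p g))
  rwa [sub_sub_sub_cancel_right] at h3

/-- The same in a complete local algebra. -/
theorem algebraMap_detHom {C : Type} [CommRing C] [IsLocalRing C] [Algebra O C]
    [IsLocalHom (algebraMap O C)] [IsAdicComplete (maximalIdeal C) C]
    (hp : (P.p : C) ∈ maximalIdeal C) :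
    (algebraMap O C).toMonoidHom.comp (detHom P) = cycChar hp := by
  refine MonoidHom.ext fun g => ?_
  show algebraMap O C (detHom P g) = _
  rw [detHom_eq_cycChar]
  exact map_cycChar P.p_mem hp (algebraMap O C)
    ((local_hom_TFAE (algebraMap O C)).out 0 3 |>.mp ‹_›) g

omit [Fact (Nat.Prime P.p)] [IsAdicComplete (maximalIdeal O) O] in
theorem p_mem_of_isLocalHom {C : Type} [CommRing C] [IsLocalRing C] [Algebra O C]
    [IsLocalHom (algebraMap O C)] : (P.p : C) ∈ maximalIdeal C := by
  rw [← map_natCast (algebraMap O C)]
  exact map_nonunit _ _ P.p_mem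

end FLTAgent.PointsDatum
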