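import Fermat.Agent.ModularityLifting.PointsDatum.Local

/-!
# The fields of the level datum carried by the points

The representation at a point is continuous with the prescribed determinant and residual trace,
unramified away from the level, and has the Steinberg, flat and strictly ordinary types asked for
by `LevelDatum`.
-/

set_option autoImplicit false

noncomputable section

open IsLocalRing Matrix

namespace FLTAgent.PointsDatum

open FLTAgent.LevelRaising FLTAgent.ModularityLifting FLTAgent.DefRing FLTAgent.HeckePoints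
open FLTAgent.Density (GalQ Qbar)

variable {O : Type} [CommRing O] [IsDomain O] [IsDiscreteValuationRing O] {P : LiftProblem O}
  {n : ℕ} {Q : TWSet P n} [Fact P.p.Prime] [IsAdicComplete (maximalIdeal O) O]
  [Finite (ResidueField O)] [CharZero O] [ExtraThree P]
  {C : Type} [CommRing C] [IsDomain C] [IsDiscreteValuationRing C] [Algebra O C]
  [IsLocalHom (algebraMap O C)] [IsAdicComplete (maximalIdeal C) C] [Module.Finite O C] [CharZero C]
  [Finite (ResidueField C)]
  {j : C →ₐ[O] Kbar O} (hj : Function.Injective j)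

namespace TWSet

omit [Finite (ResidueField C)] in
theorem rep_cont (θ : Q.Point C) : MatCont (rep hj θ) := matCont_pointRep hj _ θ.2

omit [Finite (ResidueField C)] in
theorem rep_det (θ : Q.Point C) (σ : AbsGal) :
    (rep hj θ σ).det = algebraMap O C (P.ρ σ).det :=
  det_pointRep hj _ θ.2 σ

omit [Finite (ResidueField C)] in
theorem rep_trace (θ : Q.Point C) (σ : AbsGal) :
    (rep hj θ σ).trace - algebraMap O C (P.ρ σ).trace ∈ maximalIdeal C :=
  trace_pointRep_sub_mem hj _ θ.2 σ

omit [Finite (ResidueField C)] in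
theorem rep_unram (θ : Q.Point C) (l : ℕ) (hl : l.Prime) (hloc : l ∉ P.loc) (hlp : l ≠ P.p)
    (hlq : ∀ i, Q.q i ≠ l) : UnramifiedAt (rep hj θ) l :=
  unramifiedAt_pointRep hj (point_subset θ) θ.2 hl fun hd => by
    rcases hl.dvd_mul.mp hd with hd | hd
    · rcases (Q.prime_dvd_level (point_subset θ) hl).mp hd with h | ⟨i, hi⟩
      · exact hloc (mem_primes (point_subset θ) h).2
      · exact hlq i hi
    · exact hlp ((Nat.prime_dvd_prime_iff_eq hl P.hp).mp hd)

theorem pts_unram
    (hextra : ∀ t ∈ P.extra,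
      residue O (P.ρ (P.frob t)).trace ^ 2 ≠ ((t : ResidueField O) + 1) ^ 2)
    (J : Finset ℕ) (θ : Q.Point C) (hθ : θ ∈ pts J) (v : ℕ) (hv : v ∈ P.loc) (hvp : v ≠ P.p)
    (hvJ : v ∉ P.minimal ∪ J) : UnramifiedAt (rep hj θ) v :=
  unramifiedAt_of_notMem hj (point_subset θ) θ.2 hextra hv hvp
    (by rwa [show (θ.1 : Finset ℕ) = J from hθ])

theorem pts_steinberg (J : Finset ℕ)
    (hJ : J ⊆ P.raise) (θ : Q.Point C) (v : ℕ) (hv : v ∈ P.minimal ∪ J) (hvp : v ≠ P.p) :
    UnramifiedAt (rep hj θ) v ∨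
      ∃ e : C, (e = 1 ∨ e = -1) ∧ SteinbergAt (rep hj θ) v e := by
  have hloc : v ∈ P.loc := by
    simp only [LiftProblem.loc, Finset.mem_union] at hv ⊢
    rcases hv with h | h
    · exact Or.inl (Or.inl h)
    · exact Or.inl (Or.inr (hJ h))
  exact unramified_or_steinberg hj (point_subset θ) θ.2 (P.prime v hloc) hvp
    fun i h => (Q.q_prime i).2.1 (h ▸ hloc)

theorem pts_flat (J : Finset ℕ) (θ : Q.Point C) (hθ : θ ∈ pts J) (hp : P.p ∉ P.minimal ∪ J) :
    FlatAt (rep hj θ) P.p :=
  flatAt_pointRep hj (point_subset θ) θ.2 (by rwa [show (θ.1 : Finset ℕ) = J from hθ])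

theorem pts_strict (hnf : P.p ∈ P.minimal → ¬ FlatAt P.ρbar P.p)
    (θ : Q.Point C) (hmin : P.p ∈ P.minimal) :
    StrictAt (rep hj θ) P.p (algebraMap O C (P.ε P.p)) :=
  strictAt_pointRep hj (point_subset θ) θ.2 hmin (hnf hmin)

theorem pts_p (J : Finset ℕ) (hJ : J ⊆ P.raise) (θ : Q.Point C)
    (hpJ : P.p ∈ J) :
    FlatAt (rep hj θ) P.p ∨ StrictAt (rep hj θ) P.p (algebraMap O C (P.ε P.p)) :=
  flat_or_strict hj (point_subset θ) θ.2 (Finset.mem_union_right _ (hJ hpJ))

end TWSet

end FLTAgent.PointsDatum
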