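import Fermat.Agent.ModularityLifting.PointsDatum.Points
import Fermat.Agent.ModularityLifting.Engine.NormalRep

/-!
# The representation at a point

The trace function of a point is residually the one of the problem, hence carries a frame at the
involution of the problem and a representation; it is unramified outside the level and residually
conjugate to the residual representation.
-/

set_option autoImplicit false
set_option linter.unusedSectionVars false

noncomputable section

open IsLocalRing Matrix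

namespace FLTAgent.PointsDatum

open FLTAgent.LevelRaising FLTAgent.ModularityLifting FLTAgent.DefRing FLTAgent.HeckePoints
  FLTAgent.GaloisAttach
open FLTAgent.Density (GalQ Qbar)

variable {O : Type} [CommRing O] [IsDomain O] [IsDiscreteValuationRing O] {P : LiftProblem O}
  {n : ℕ} {Q : TWSet P n} [Fact P.p.Prime] [IsAdicComplete (maximalIdeal O) O]
  [Finite (ResidueField O)] [CharZero O] [ExtraThree P]
  {C : Type} [CommRing C] [IsDomain C] [IsDiscreteValuationRing C] [Algebra O C]
  [IsLocalHom (algebraMap O C)] [IsAdicComplete (maximalIdeal C) C] [Module.Finite O C] [CharZero C]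
  {j : C →ₐ[O] Kbar O} (hj : Function.Injective j)
  {J : Finset ℕ} (hJ : J ⊆ P.raise) (x : Q.heckeAlg J →ₐ[O] C)

namespace TWSet

/-- The determinant at a point. -/
def detC (P : LiftProblem O) (C : Type) [CommRing C] [Algebra O C] : GalQ →* C :=
  (algebraMap O C).toMonoidHom.comp (detHom P)

/-- The trace function at a point. -/
def pointTrace : GalQ → C :=
  haveI : NeZero (Q.twLevel (Q.geomHom j x) J) := ⟨Q.twLevel_ne_zero _ hJ⟩
  (Q.exists_attached j hj hJ x).choose_spec.2.choose.f

theorem isPseudoRep_pointTrace : IsPseudoRep (pointTrace hj hJ x) (detC P C) := by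
  have : NeZero (Q.twLevel (Q.geomHom j x) J) := ⟨Q.twLevel_ne_zero _ hJ⟩
  set A := (Q.exists_attached j hj hJ x).choose_spec.2.choose
  have hε : A.ε = detC P C := (Q.exists_attached j hj hJ x).choose_spec.2.choose_spec
  rw [← hε]
  exact ⟨A.one, A.comm, A.mul⟩

theorem traceCont_pointTrace :
    TraceCont (maximalIdeal C) (pointTrace hj hJ x) (detC P C) := by
  have : NeZero (Q.twLevel (Q.geomHom j x) J) := ⟨Q.twLevel_ne_zero _ hJ⟩
  set A := (Q.exists_attached j hj hJ x).choose_spec.2.choose
  have hε : A.ε = detC P C := (Q.exists_attached j hj hJ x).choose_spec.2.choose_spec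
  rw [← hε]
  exact A.continuous

theorem not_dvd_twLevel {l : ℕ} (hl : l.Prime) (hlL : ¬ l ∣ Q.level J * P.p)
    (φ : TW P n →+* Kbar O) :
    ¬ l ∣ Q.twLevel φ J ∧ l ∉ (Q.levelPrimes J : Set ℕ) ∧ l ≠ P.p ∧ ¬ l ∣ Q.twLevel φ J * P.p := by
  have h1 : ¬ l ∣ Q.twLevel φ J := fun h => hlL (((Q.dvd_twLevel_iff φ hl).mp h).mul_right _)
  have h2 : l ≠ P.p := fun h => hlL (by rw [h]; exact dvd_mul_left P.p _)
  refine ⟨h1, fun h => hlL (Nat.dvd_of_mem_primeFactors (Finset.mem_coe.mp h)), h2, fun h => ?_⟩
  rcases hl.dvd_mul.mp h with h | h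
  · exact h1 h
  · exact h2 ((Nat.prime_dvd_prime_iff_eq hl P.hp).mp h)

theorem pointTrace_frobenius {l : ℕ} (hl : l.Prime) (hlL : ¬ l ∣ Q.level J * P.p)
    {A : ValuationSubring Qbar} (hA : A.LiesOverPrime l) {σ : GalQ} (hσ : A.IsFrobeniusAt σ l) :
    pointTrace hj hJ x σ = x (Q.frobElt J l) := by
  have : NeZero (Q.twLevel (Q.geomHom j x) J) := ⟨Q.twLevel_ne_zero _ hJ⟩
  obtain ⟨h1, h2, h3, -⟩ := not_dvd_twLevel hl hlL (Q.geomHom j x)
  exact ((Q.exists_attached j hj hJ x).choose_spec.2.choose.frob l hl h1 h2 h3 A hA σ hσ).1.trans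
    ((Q.exists_attached j hj hJ x).choose_spec.1 l hl h1 h2)

theorem pointTrace_inertia {q : ℕ} (hq : q.Prime) (hqL : ¬ q ∣ Q.level J * P.p)
    {A : ValuationSubring Qbar} (hA : A.LiesOverPrime q) {σ : GalQ}
    (hσ : σ ∈ A.inertiaSubgroupIn ℚ) (y : GalQ) :
    pointTrace hj hJ x (y * σ) = pointTrace hj hJ x y := by
  have : NeZero (Q.twLevel (Q.geomHom j x) J) := ⟨Q.twLevel_ne_zero _ hJ⟩
  obtain ⟨-, -, -, h4⟩ := not_dvd_twLevel hq hqL (Q.geomHom j x)
  exact ((Q.exists_attached j hj hJ x).choose_spec.2.choose.inertia q hq h4 A hA σ hσ).2 y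

theorem detC_gamma : detC P C P.γ = -1 := by
  show algebraMap O C (detHom P P.γ) = _
  rw [detHom_apply, P.γ_det, map_neg, map_one]

theorem pointTrace_gamma : pointTrace hj hJ x P.γ = 0 := by
  have h := (isPseudoRep_pointTrace hj hJ x).mul P.γ P.γ
  rw [P.γ_sq, mul_inv_cancel, detC_gamma, (isPseudoRep_pointTrace hj hJ x).one] at h
  exact mul_self_eq_zero.mp (by linear_combination -h)

/-- Residually the trace function is the one of the problem. -/
theorem residue_pointTrace (g : GalQ) :
    residue C (pointTrace hj hJ x g) = residue C (algebraMap O C (P.ρ g).trace) := by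
  have hf := (isPseudoRep_pointTrace hj hJ x).map (residue C)
  have hρ : IsPseudoRep (fun g => algebraMap O C (P.ρ g).trace) (detC P C) :=
    (isPseudoRep_of_matRep P.ρ (detHom P) fun _ => rfl).map (algebraMap O C)
  obtain ⟨L, hL, hLfix⟩ := rhobar_finite P
  obtain ⟨L', hL', hL'fix⟩ := traceCont_pointTrace hj hJ x 1
  have hdet : ∀ σ : GalQ, (∀ y ∈ L, σ y = y) → residue C (detC P C σ) = 1 := fun σ hσ => by
    show residue C (algebraMap O C (P.ρ σ).det) = 1
    rw [← ResidueField.map_residue, RingHom.map_det,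
      show (residue O).mapMatrix (P.ρ σ) = P.ρbar σ from rfl, hLfix σ hσ, det_one, map_one]
  refine congrFun (eq_of_frobenius (I := ⊥) frobeniusDivisions hf (hρ.map (residue C)) ?_ ?_
    Q.badSet fun l hl hlS A hA σ hσ => ⟨?_, rfl⟩).1 g
  · intro k
    refine ⟨L', hL', fun σ hσ => ?_⟩
    obtain ⟨h1, h2⟩ := hL'fix σ hσ
    rw [pow_one] at h1
    simp only [MonoidHom.coe_comp, RingHom.toMonoidHom_eq_coe, MonoidHom.coe_coe,
      Function.comp_apply]
    refine ⟨?_, fun y => ?_⟩
    · rw [← map_one (residue C), ← map_sub, (residue_eq_zero_iff _).mpr h1]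
      exact zero_mem _
    · have h3 := h2 y
      rw [pow_one] at h3
      rw [← map_sub, (residue_eq_zero_iff _).mpr h3]
      exact zero_mem _
  · intro k
    refine ⟨L, hL, fun σ hσ => ?_⟩
    simp only [MonoidHom.coe_comp, RingHom.toMonoidHom_eq_coe, MonoidHom.coe_coe,
      Function.comp_apply]
    refine ⟨?_, fun y => ?_⟩
    · rw [hdet σ hσ, sub_self]
      exact zero_mem _
    · have h1 : residue O (P.ρ (y * σ)).trace = residue O (P.ρ y).trace := by
        rw [AddMonoidHom.map_trace (residue O), AddMonoidHom.map_trace (residue O)]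
        show (P.ρbar (y * σ)).trace = (P.ρbar y).trace
        rw [map_mul, hLfix σ hσ, mul_one]
      rw [← ResidueField.map_residue, ← ResidueField.map_residue (algebraMap O C) (P.ρ y).trace,
        h1, sub_self]
      exact zero_mem _
  · have hlL : ¬ l ∣ Q.level J * P.p := fun h => hlS (Q.mem_badSet_of_dvd hJ hl h)
    simp only [Function.comp_apply]
    rw [pointTrace_frobenius hj hJ x hl hlL hA hσ, Q.residue_frobElt hJ x hl hlS]
    have hlU : l ∉ P.minimal ∪ P.raise := fun h => hlS (by
      simp only [badSet, LiftProblem.loc, Finset.mem_union] at h ⊢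
      tauto)
    have hlp : l ≠ P.p := fun h => hlS (by simp [badSet, h])
    rw [(trace_frobenius_eq hl (P.unram l hl hlU hlp) hA (P.place_spec l hl) hσ
      (P.frob_spec l hl)).1]

theorem exists_pointFrame : ∃ F : Frame (pointTrace hj hJ x) (detC P C),
    F.γ = P.γ ∧ F.α = 1 ∧ F.β = -1 := by
  refine exists_frame P.γ 1 (-1) (by rw [pointTrace_gamma hj hJ x, add_neg_cancel])
    (by rw [detC_gamma, one_mul]) ?_
    (mapRep (ResidueField.map (algebraMap O C)) P.ρbar) (fun σ => ?_) ?_ ?_
  · rw [sub_neg_eq_add, one_add_one_eq_two, ← map_ofNat (algebraMap O C) 2]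
    exact P.isUnit_two.map _
  · rw [residue_pointTrace hj hJ x σ, ← ResidueField.map_residue]
    show (((ResidueField.map (algebraMap O C)).mapMatrix) ((residue O).mapMatrix (P.ρ σ))).trace = _
    simp [Matrix.trace_fin_two]
  · show (((ResidueField.map (algebraMap O C)).mapMatrix) ((residue O).mapMatrix (P.ρ P.γ))).det = _
    rw [← RingHom.map_det, ← RingHom.map_det, ResidueField.map_residue]
    rfl
  · refine DefRing.span_range_eq_top
      (algebraMap (ResidueField C) (AlgebraicClosure (ResidueField C))) _ fun v hv hall => hv ?_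
    refine P.irr _ ((algebraMap (ResidueField C) (AlgebraicClosure (ResidueField C))).comp
      (ResidueField.map (algebraMap O C))) v fun σ _ => ?_
    obtain ⟨c, hc⟩ := hall σ
    exact ⟨c, by
      rw [← hc]
      simp [mapRep_eq_map, Matrix.map_map, LiftProblem.ρbar, Function.comp_def]⟩

/-- The frame at a point. -/
def pointFrame : Frame (pointTrace hj hJ x) (detC P C) := (exists_pointFrame hj hJ x).choose

/-- The representation at a point. -/
def pointRep : MatRep C := (pointFrame hj hJ x).rep (isPseudoRep_pointTrace hj hJ x)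

theorem trace_pointRep (σ : GalQ) : (pointRep hj hJ x σ).trace = pointTrace hj hJ x σ :=
  Frame.trace_rep _ _ σ

theorem det_pointRep (σ : GalQ) :
    (pointRep hj hJ x σ).det = algebraMap O C (P.ρ σ).det :=
  Frame.det_rep _ _ σ

theorem trace_pointRep_sub_mem (σ : GalQ) :
    (pointRep hj hJ x σ).trace - algebraMap O C (P.ρ σ).trace ∈ maximalIdeal C := by
  rw [trace_pointRep, ← residue_eq_zero_iff, map_sub, residue_pointTrace, sub_self]

theorem matCont_pointRep : MatCont (pointRep hj hJ x) := by
  intro m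
  obtain ⟨L, hL, h⟩ := traceCont_pointTrace hj hJ x m
  exact ⟨L, hL, fun σ hσ i k => Frame.rep_sub_one_mem _ _ (h σ hσ).2 i k⟩

theorem unramifiedAt_pointRep {q : ℕ} (hq : q.Prime) (hqL : ¬ q ∣ Q.level J * P.p) :
    UnramifiedAt (pointRep hj hJ x) q := fun A hA σ hσ => Matrix.ext fun i k => by
  have h := Frame.rep_sub_one_mem (I := (⊥ : Ideal C)) (pointFrame hj hJ x)
    (isPseudoRep_pointTrace hj hJ x) (h := σ)
    (fun y => by rw [pointTrace_inertia hj hJ x hq hqL hA hσ y, sub_self]; exact zero_mem _) i k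
  rw [Ideal.mem_bot] at h
  exact sub_eq_zero.mp h

theorem exists_conj_residual : ∃ g : GL (Fin 2) (ResidueField C),
    mapRep (residue C) (pointRep hj hJ x) =
      Engine.conjRep g (mapRep (ResidueField.map (algebraMap O C)) P.ρbar) := by
  obtain ⟨hγ, hα, hβ⟩ := (exists_pointFrame hj hJ x).choose_spec
  set F := pointFrame hj hJ x
  have hf := (isPseudoRep_pointTrace hj hJ x).map (residue C)
  have h2 : IsUnit (2 : ResidueField C) := by
    rw [← map_ofNat ((residue C).comp (algebraMap O C)) 2]
    exact P.isUnit_two.map _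
  obtain ⟨g, hg⟩ := Engine.exists_conj_frameRep h2
    (mapRep (ResidueField.map (algebraMap O C)) P.ρbar) hf (F.map (residue C))
    (by show residue C F.α = 1; rw [show F.α = 1 from hα, map_one])
    (by show residue C F.β = -1; rw [show F.β = -1 from hβ, map_neg, map_one])
    (fun σ => by
      simp only [Function.comp_apply]
      rw [residue_pointTrace hj hJ x σ, ← ResidueField.map_residue]
      show (((ResidueField.map (algebraMap O C)).mapMatrix)
        ((residue O).mapMatrix (P.ρ σ))).trace = _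
      simp [Matrix.trace_fin_two])
    (by
      show (((ResidueField.map (algebraMap O C)).mapMatrix)
        ((residue O).mapMatrix (P.ρ F.γ))).det = residue C (algebraMap O C (detHom P F.γ))
      rw [← RingHom.map_det, ← RingHom.map_det, ResidueField.map_residue]
      rfl)
  exact ⟨g, (MonoidHom.ext fun σ =>
    (F.rep_map (isPseudoRep_pointTrace hj hJ x) (residue C) σ).symm).trans hg⟩

theorem absIrreducible_pointRep :
    AbsIrreducibleOn (mapRep (residue C) (pointRep hj hJ x)) ⊤ := by
  obtain ⟨g, hg⟩ := exists_conj_residual hj hJ x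
  intro K _ ι v hv
  set G : GL (Fin 2) K := Units.map (ι.mapMatrix (m := Fin 2)).toMonoidHom g
  have key : ∀ σ, ((mapRep (residue C) (pointRep hj hJ x) σ).map ι) =
      (G : Matrix (Fin 2) (Fin 2) K) *
        ((P.ρbar σ).map (ι.comp (ResidueField.map (algebraMap O C)))) * (G⁻¹ : GL (Fin 2) K) := by
    intro σ
    rw [hg, Engine.conjRep_apply]
    show ι.mapMatrix (_ * _ * _) = _
    rw [map_mul, map_mul]
    rfl
  have h0 : ((G⁻¹ : GL (Fin 2) K) : Matrix (Fin 2) (Fin 2) K) *ᵥ v = 0 := by
    refine P.irr K (ι.comp (ResidueField.map (algebraMap O C))) _ fun σ hσ => ?_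
    obtain ⟨c, hc⟩ := hv σ hσ
    refine ⟨c, ?_⟩
    rw [key σ, ← mulVec_mulVec, ← mulVec_mulVec] at hc
    have := congrArg (((G⁻¹ : GL (Fin 2) K) : Matrix (Fin 2) (Fin 2) K) *ᵥ ·) hc
    rwa [mulVec_mulVec, ← Units.val_mul, inv_mul_cancel, Units.val_one, one_mulVec,
      mulVec_smul] at this
  have h1 := congrArg ((G : Matrix (Fin 2) (Fin 2) K) *ᵥ ·) h0
  simp only [mulVec_zero] at h1
  rwa [mulVec_mulVec, ← Units.val_mul, mul_inv_cancel, Units.val_one, one_mulVec] at h1

end TWSet

end FLTAgent.PointsDatum
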