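import Fermat.Agent.ModularityLifting.PointsDatum.Hecke
import Fermat.Agent.ModularityLifting.PointsDatum.Twisted
import Fermat.Agent.ModularityLifting.PointsDatum.Cyclo
import Fermat.Agent.ModularityLifting.Points.Galois
import Fermat.Agent.ModularityLifting.Points.Coeff
import Fermat.Agent.ModularityLifting.PointsDatum.Reduced
import Mathlib.LinearAlgebra.Matrix.Charpoly.Coeff
import Mathlib.RingTheory.Polynomial.Nilpotent

/-!
# The trace function of a point of a Hecke algebra

A point of the Hecke algebra of a level is an eigenvector; twisting its symbol gives a Hecke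
character of trivial nebentype and a trace function with determinant the one of the problem, whose
values at Frobenius elements are the twisted eigenvalues and which is residually the given one.
-/

set_option autoImplicit false
set_option linter.unusedSectionVars false

noncomputable section

open IsLocalRing Matrix Polynomial

namespace FLTAgent.PointsDatum

open FLTAgent.LevelRaising FLTAgent.ModularityLifting FLTAgent.DefRing FLTAgent.HeckePoints
  FLTAgent.GaloisAttach
open FLTAgent.Density (GalQ Qbar)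

variable {O : Type} [CommRing O] [IsDomain O] [IsDiscreteValuationRing O] {P : LiftProblem O}
  {n : ℕ} (Q : TWSet P n) [Fact P.p.Prime] [IsAdicComplete (maximalIdeal O) O]
  [Finite (ResidueField O)] [CharZero O] [ExtraThree P]

namespace TWSet

instance finite_TW_heckeAlg (J : Finset ℕ) : Module.Finite (TW P n) (Q.heckeAlg J) :=
  Module.Finite.of_injective (Q.heckeAlg J).val.toLinearMap Subtype.val_injective

/-- The eigenvalue `ψ(l)⁻¹ T_l` in the Hecke algebra. -/
def frobElt (J : Finset ℕ) (l : ℕ) : Q.heckeAlg J :=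
  algebraMap (TW P n) (Q.heckeAlg J) (Ring.inverse (Q.twScalar l)) * Q.tH J l

theorem not_dvd_q {J : Finset ℕ} {l : ℕ} (hl : l.Prime) (hlL : ¬ l ∣ Q.level J * P.p)
    (i : Fin P.r) : ¬ Q.q i ∣ l := fun h =>
  hlL (((Nat.prime_dvd_prime_iff_eq (Q.q_prime i).1 hl).mp h ▸ Q.q_dvd_level i J).mul_right _)

/-- The primes of a level and `p`. -/
def levelPrimes (J : Finset ℕ) : Finset ℕ := (Q.level J * P.p).primeFactors

theorem notMem_levelPrimes {J : Finset ℕ} (hJ : J ⊆ P.raise) {l : ℕ} (hl : l.Prime) :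
    l ∉ Q.levelPrimes J ↔ ¬ l ∣ Q.level J * P.p := by
  simp [levelPrimes, Nat.mem_primeFactors, hl, Q.level_ne_zero hJ, P.hp.ne_zero]

variable {C : Type} [CommRing C] [IsDomain C] [IsDiscreteValuationRing C] [Algebra O C]
  [IsLocalHom (algebraMap O C)] [IsAdicComplete (maximalIdeal C) C] [Module.Finite O C] [CharZero C]

/-- The homomorphism of the coefficient ring at a point. -/
def pointHom {J : Finset ℕ} (x : Q.heckeAlg J →ₐ[O] C) : TW P n →ₐ[O] C :=
  x.comp (IsScalarTower.toAlgHom O (TW P n) (Q.heckeAlg J))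

theorem apply_algebraMap {J : Finset ℕ} (x : Q.heckeAlg J →ₐ[O] C) (a : TW P n) :
    x (algebraMap (TW P n) (Q.heckeAlg J) a) = Q.pointHom x a := rfl

theorem pointHom_twScalar_mul {J : Finset ℕ} (x : Q.heckeAlg J →ₐ[O] C) {l : ℕ} (hl : l.Prime)
    (hlL : ¬ l ∣ Q.level J * P.p) :
    x (Q.frobElt J l) * Q.pointHom x (Q.twScalar l) = x (Q.tH J l) := by
  rw [frobElt, map_mul, apply_algebraMap, mul_right_comm, ← map_mul,
    Ring.inverse_mul_cancel _ (Q.isUnit_twScalar fun i => Q.not_dvd_q hl hlL i), map_one, one_mul]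

/-- At a good prime the eigenvalue is congruent to the residual one. -/
theorem residue_tH {J : Finset ℕ} (hJ : J ⊆ P.raise) (x : Q.heckeAlg J →ₐ[O] C) {l : ℕ}
    (hl : l.Prime) (hlS : l ∉ Q.badSet) :
    residue C (x (Q.tH J l)) = residue C (Q.pointHom x (Q.aTW l)) := by
  classical
  have hlL : ¬ l ∣ Q.level J * P.p := fun h => hlS (Q.mem_badSet_of_dvd hJ hl h)
  have := isLocalHom_of_finite (Q.pointHom x)
  set N : Matrix (Fin (Q.rank J)) (Fin (Q.rank J)) (TW P n) :=
    Q.tm J l - Matrix.scalar (Fin (Q.rank J)) (Q.aTW l) with hN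
  set NH : Q.heckeAlg J := Q.tH J l - algebraMap (TW P n) (Q.heckeAlg J) (Q.aTW l) with hNH
  have hval : (NH : Matrix (Fin (Q.rank J)) (Fin (Q.rank J)) (TW P n)) = N := rfl
  have hnil : IsNilpotent ((residue (TW P n)).mapMatrix N) := by
    rw [hN, Q.tm_eq hJ hl hlL]
    exact (Q.basis hJ).isNilpotent_residual (Q.mem_badSet_of_dvd_level hJ) hl hlS
  have hchar : N.charpoly.map (residue (TW P n)) = X ^ Q.rank J := by
    rw [← Matrix.charpoly_map]
    have h := Matrix.isNilpotent_charpoly_sub_pow_of_isNilpotent hnil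
    rw [Fintype.card_fin] at h
    exact sub_eq_zero.mp (Polynomial.ext fun m => by
      simpa using (Polynomial.isNilpotent_iff.mp h m).eq_zero)
  have hroot : N.charpoly.eval₂ ((Q.pointHom x : TW P n →+* C)) (x NH) = 0 := by
    have h0 : aeval NH N.charpoly = 0 := Subtype.ext (by
      have h1 := aeval_algHom_apply (Q.heckeAlg J).val NH N.charpoly
      have hcoe : (Q.heckeAlg J).val NH = N := hval
      rw [hcoe, Matrix.aeval_self_charpoly] at h1
      exact h1.symm)
    have h2 := congrArg x h0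
    rw [map_zero, aeval_def] at h2
    rw [← h2]
    exact (hom_eval₂ _ _ x.toRingHom _).symm
  have h3 : residue C (x NH) ^ Q.rank J = 0 := by
    have h4 := congrArg (residue C) hroot
    rw [map_zero, hom_eval₂, show (residue C).comp (Q.pointHom x : TW P n →+* C) =
      (ResidueField.map (Q.pointHom x : TW P n →+* C)).comp (residue (TW P n)) from
        RingHom.ext fun a => (ResidueField.map_residue _ a).symm, ← eval₂_map, hchar,
      eval₂_X_pow] at h4
    exact h4
  rcases Nat.eq_zero_or_pos (Q.rank J) with h | h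
  · exact absurd (pow_eq_zero_iff'.mp h3).2 (by simp [h])
  · have h5 := pow_eq_zero_iff h.ne' |>.mp h3
    rwa [hNH, map_sub, apply_algebraMap, map_sub, sub_eq_zero] at h5

theorem residue_frobElt {J : Finset ℕ} (hJ : J ⊆ P.raise) (x : Q.heckeAlg J →ₐ[O] C) {l : ℕ}
    (hl : l.Prime) (hlS : l ∉ Q.badSet) :
    residue C (x (Q.frobElt J l)) = residue C (algebraMap O C (P.ρ (P.frob l)).trace) := by
  have hlL : ¬ l ∣ Q.level J * P.p := fun h => hlS (Q.mem_badSet_of_dvd hJ hl h)
  have := isLocalHom_of_finite (Q.pointHom x)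
  have h := congrArg (residue C) (Q.pointHom_twScalar_mul x hl hlL)
  rw [map_mul, Q.residue_tH hJ x hl hlS,
    show residue C (Q.pointHom x (Q.twScalar l)) =
      ResidueField.map (Q.pointHom x : TW P n →+* C) (residue (TW P n) (Q.twScalar l)) from rfl,
    Q.residue_twScalar fun i => Q.not_dvd_q hl hlL i, map_one, mul_one] at h
  rw [h, aTW, AlgHom.commutes]

variable (j : C →ₐ[O] Kbar O) (hj : Function.Injective j)

/-- The homomorphism into the algebraic closure at a point. -/
def geomHom {J : Finset ℕ} (x : Q.heckeAlg J →ₐ[O] C) : TW P n →+* Kbar O :=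
  (j.comp (Q.pointHom x) : TW P n →ₐ[O] Kbar O)

theorem geomHom_apply {J : Finset ℕ} (x : Q.heckeAlg J →ₐ[O] C) (a : TW P n) :
    Q.geomHom j x a = j (Q.pointHom x a) := rfl

include hj in
/-- The symbol of a point. -/
theorem exists_eigensymbol {J : Finset ℕ} (hJ : J ⊆ P.raise) (x : Q.heckeAlg J →ₐ[O] C) :
    ∃ Φ ∈ SymbChar (Kbar O) ((Q.delta J).ringHomComp (Q.geomHom j x)), Φ ≠ 0 ∧
      ∀ l, l.Prime → ¬ l ∣ Q.level J * P.p →
        tOpChar (Kbar O) ((Q.delta J).ringHomComp (Q.geomHom j x)) l Φ =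
          j (x (Q.tH J l)) • Φ := by
  obtain ⟨v, hv0, hv⟩ := exists_eigenvector (Q.heckeAlg J).val (Q.geomHom j x)
    (j.comp x : Q.heckeAlg J →ₐ[O] Kbar O).toRingHom (fun _ => rfl) fun t ht => by
      rw [show t = 0 from Subtype.ext ht, map_zero]
  refine ⟨comb (Q.symb hJ (Q.geomHom j x)) v, Q.comb_mem_symbChar hJ _ v,
    fun h0 => hv0 (Q.symb_comb_injective hJ _ (by rw [h0, map_zero])), fun l hl hlL => ?_⟩
  rw [Q.tOpChar_comb hJ _ hl hlL, show Q.tm J l = (Q.heckeAlg J).val (Q.tH J l) from rfl, hv,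
    map_smul]
  rfl

include hj in
/-- The twisted Hecke character of a point, with its trace function. -/
theorem exists_attached {J : Finset ℕ} (hJ : J ⊆ P.raise) (x : Q.heckeAlg J →ₐ[O] C) :
    haveI : NeZero (Q.twLevel (Q.geomHom j x) J) := ⟨Q.twLevel_ne_zero _ hJ⟩
    ∃ θ : CuspForm.heckeAlgebra (Q.twLevel (Q.geomHom j x) J) 2 (Q.levelPrimes J : Set ℕ) →+* C,
      (∀ (l : ℕ) (hl : l.Prime) (hlL : ¬ l ∣ Q.twLevel (Q.geomHom j x) J)
        (hlS : l ∉ (Q.levelPrimes J : Set ℕ)),
          θ (CuspForm.heckeAlgebra.T hl hlL hlS) = x (Q.frobElt J l)) ∧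
      ∃ A : AttachedTrace (Q.twLevel (Q.geomHom j x) J) P.p (Q.levelPrimes J : Set ℕ)
        (maximalIdeal C) θ, A.ε = (algebraMap O C).toMonoidHom.comp (detHom P) := by
  classical
  have : NeZero (Q.twLevel (Q.geomHom j x) J) := ⟨Q.twLevel_ne_zero _ hJ⟩
  obtain ⟨Φ, hΦ, hne0, ha⟩ := Q.exists_eigensymbol j hj hJ x
  set φK := Q.geomHom j x
  set a : ℕ → Kbar O := fun l => j (x (Q.tH J l))
  have hval : ∀ l, l.Prime → l ∉ Q.levelPrimes J →
      (∏ t ∈ Q.twT φK, (Q.chiFam φK t)⁻¹ (l : ZMod t)) * a l = j (x (Q.frobElt J l)) := by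
    intro l hl hlS
    have hlL := (Q.notMem_levelPrimes hJ hl).mp hlS
    have h1 := Q.prod_chiFam_inv_mul φK l fun i => Q.not_dvd_q hl hlL i
    rw [Q.geomHom_apply j x] at h1
    have h2 : a l = j (x (Q.frobElt J l)) * j (Q.pointHom x (Q.twScalar l)) := by
      rw [← map_mul, Q.pointHom_twScalar_mul x hl hlL]
    rw [h2]
    linear_combination j (x (Q.frobElt J l)) * h1
  have hne : ∃ ℓ, ℓ.Prime ∧ ℓ ∉ Q.levelPrimes J ∧ ℓ % Q.twLevel φK J = 1 % Q.twLevel φK J ∧
      (∏ t ∈ Q.twT φK, (Q.chiFam φK t)⁻¹ (ℓ : ZMod t)) * a ℓ ≠ 1 + ℓ := by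
    obtain ⟨ℓ, hℓ, hℓS, hmod, h⟩ :=
      exists_non_eisenstein P Q.badSet (Q.twLevel_ne_zero φK hJ)
    have hℓS' : ℓ ∉ Q.levelPrimes J :=
      (Q.notMem_levelPrimes hJ hℓ).mpr fun hd => hℓS (Q.mem_badSet_of_dvd hJ hℓ hd)
    refine ⟨ℓ, hℓ, hℓS', hmod, fun he => h ?_⟩
    rw [hval ℓ hℓ hℓS'] at he
    have he' : x (Q.frobElt J ℓ) = 1 + ℓ := hj (by rw [he, map_add, map_one, map_natCast])
    refine (ResidueField.map (algebraMap O C)).injective ?_
    rw [ResidueField.map_residue, ResidueField.map_residue, ← Q.residue_frobElt hJ x hℓ hℓS, he',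
      map_add (algebraMap O C), map_one (algebraMap O C), map_natCast (algebraMap O C)]
  have hhp : (P.p : C) ∈ maximalIdeal C := p_mem_of_isLocalHom P
  obtain ⟨Ψ, -, -, -, θ, hθ, A, hA⟩ := exists_twisted_trace (maximalIdeal C) hhp
    (j : C →+* Kbar O) hj (Q.twT φK) (fun t ht => (Q.twT_spec φK ht).choose_spec.2.1)
    (Q.chiFam φK) (fun t ht => (Q.twT_spec φK ht).choose_spec.2.2.2)
    (fun t ht => Q.not_dvd_twM φK hJ ht) (Q.level_eq_twM_mul φK J)
    (show Q.twLevel φK J = _ from rfl)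
    ((Q.delta J).ringHomComp φK) (fun d hd => Q.delta_twT φK J hd) (Q.levelPrimes J)
    (fun l hl hlL => by
      by_contra h
      exact (Q.notMem_levelPrimes hJ hl).mp h (hlL.mul_right _))
    a hΦ hne0 (fun l hl hlS => ha l hl ((Q.notMem_levelPrimes hJ hl).mp hlS))
    (fun l hl hlS => ⟨_, (hval l hl hlS).symm⟩) hne
  refine ⟨θ, fun l hl hlL hlS => hj ((hθ l hl hlL hlS).trans (hval l hl fun h => hlS ?_)), A, ?_⟩
  · exact Finset.mem_coe.mpr h
  · rw [hA]
    exact (algebraMap_detHom P hhp).symm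

end TWSet

end FLTAgent.PointsDatum
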