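import Fermat.Agent.ModularityLifting.Engine.Interface
import Fermat.Agent.ModularityLifting.Local.Eval
import Fermat.Agent.LevelLowering.Level.GroupAlg

/-!
# The coefficient rings of the Taylor–Wiles levels

`TWRing O p r n` is the group algebra of `(ℤ/pⁿ)ʳ`: it is finite free over `O`, local, complete,
reduced, and its augmentation has kernel `augIdeal`.
-/

set_option autoImplicit false
set_option linter.unusedSectionVars false

noncomputable section

open IsLocalRing

namespace FLTAgent.PointsDatum

open FLTAgent.ModularityLifting FLTAgent.LevelLowering FLTAgent.DefRing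

variable (O : Type) [CommRing O] (p r n : ℕ)

/-- The class of `1 + X_i`. -/
def twU (i : Fin r) : TWRing O p r n := 1 + Ideal.Quotient.mk _ (MvPowerSeries.X i)

theorem twU_pow (i : Fin r) : twU O p r n i ^ p ^ n = 1 := by
  rw [twU, ← map_one (Ideal.Quotient.mk _), ← map_add, ← map_pow, Ideal.Quotient.eq]
  exact Ideal.subset_span ⟨i, rfl⟩

theorem twU_eq (i : Fin r) :
    (Ideal.Quotient.mk _ (MvPowerSeries.X i) : TWRing O p r n) = twU O p r n i - 1 :=
  (add_sub_cancel_left _ _).symm

instance instIsLocalRingTWRing [IsLocalRing O] : IsLocalRing (TWRing O p r n) :=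
  haveI : Nontrivial (TWRing O p r n) := by
    refine Ideal.Quotient.nontrivial_iff.mpr fun htop => ?_
    have hle : Ideal.span (Set.range fun i : Fin r =>
        (1 + MvPowerSeries.X i : MvPowerSeries (Fin r) O) ^ p ^ n - 1) ≤
          RingHom.ker (MvPowerSeries.constantCoeff (σ := Fin r) (R := O)) := by
      rw [Ideal.span_le]
      rintro _ ⟨i, rfl⟩
      simp
    rw [htop, top_le_iff] at hle
    exact (RingHom.ker_ne_top _) hle
  .of_surjective' (Ideal.Quotient.mk _) Ideal.Quotient.mk_surjective

variable [Fact p.Prime]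

theorem neZero_pow : NeZero (p ^ n) := ⟨pow_ne_zero _ (Fact.out : p.Prime).ne_zero⟩

/-- The comparison from the group algebra. -/
def ofGroupAlg : LevelAlg O r (p ^ n) →ₐ[O] TWRing O p r n :=
  haveI := neZero_pow p n
  MonoidAlgebra.lift O (TWRing O p r n) _ (levelChar (twU O p r n) (twU_pow O p r n))

theorem ofGroupAlg_gen (i : Fin r) :
    ofGroupAlg O p r n (MonoidAlgebra.of O _ (levelGen r (p ^ n) i)) = twU O p r n i := by
  have := neZero_pow p n
  rw [ofGroupAlg, MonoidAlgebra.lift_of]
  show ∏ t, twU O p r n t ^ ((Pi.single i (1 : ZMod (p ^ n)) : Fin r → ZMod (p ^ n)) t).val = _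
  rw [Finset.prod_eq_single i (fun t _ ht => by simp [Pi.single_eq_of_ne ht]) (by simp),
    Pi.single_eq_same, ZMod.val_one_eq_one_mod,
    ← pow_eq_pow_mod _ (twU_pow O p r n i), pow_one]

variable [IsDomain O] [IsDiscreteValuationRing O] [IsAdicComplete (maximalIdeal O) O]
  [Finite (ResidueField O)] (hp : (p : O) ∈ maximalIdeal O)

include hp

theorem twU_sub_one_mem (i : Fin r) :
    twU O p r n i - 1 ∈ maximalIdeal (TWRing O p r n) := by
  rw [← twU_eq]
  intro hu
  have : IsLocalHom (Ideal.Quotient.mk _ : MvPowerSeries (Fin r) O →+* TWRing O p r n) :=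
    .of_surjective _ Ideal.Quotient.mk_surjective
  have h := (MvPowerSeries.isUnit_iff_constantCoeff).mp (IsLocalHom.map_nonunit _ hu)
  simp at h

theorem isHausdorff_twRing :
    IsHausdorff (maximalIdeal (TWRing O p r n)) (TWRing O p r n) := by
  have := FLTAgent.LevelLowering.finite_residueField_mvPowerSeries (O := O) r
  infer_instance

/-- The comparison to the group algebra. -/
theorem exists_toGroupAlg : ∃ g : TWRing O p r n →ₐ[O] LevelAlg O r (p ^ n),
    (ofGroupAlg O p r n).comp g = AlgHom.id O _ ∧ g.comp (ofGroupAlg O p r n) = AlgHom.id O _ := by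
  have := neZero_pow p n
  have := isLocalRing_levelAlg (r := r) (n := n) hp
  have := isAdicComplete_levelAlg (O := O) (r := r) (p := p) (n := n)
  have := isHausdorff_twRing O p r n hp
  set gen := fun i : Fin r => (MonoidAlgebra.of O _ (levelGen r (p ^ n) i) : LevelAlg O r (p ^ n))
  have hgen : ∀ i, gen i ^ p ^ n = 1 := fun i => by
    rw [← map_pow, show levelGen r (p ^ n) i ^ p ^ n = 1 from Multiplicative.toAdd.injective
      (by ext; simp), map_one]
  have hy : ∀ i, gen i - 1 ∈ maximalIdeal (LevelAlg O r (p ^ n)) := fun i hu => by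
    have h := hu.map (levelAug O r (p ^ n))
    simp [gen, levelAug] at h
  let e := evalAdic (O := O) (maximalIdeal (LevelAlg O r (p ^ n))) (fun i => gen i - 1) hy
  let g : TWRing O p r n →ₐ[O] LevelAlg O r (p ^ n) := Ideal.Quotient.liftₐ _ e fun a ha => by
    refine (Ideal.span_le (I := RingHom.ker e)).mpr ?_ ha
    rintro _ ⟨i, rfl⟩
    rw [SetLike.mem_coe, RingHom.mem_ker, map_sub, map_pow, map_add, map_one, evalAdic_X,
      add_sub_cancel, hgen, sub_self]
  have hgX : ∀ i, g (twU O p r n i) = gen i := fun i => by
    rw [twU, map_add, map_one]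
    show 1 + e (MvPowerSeries.X i) = _
    rw [evalAdic_X, add_sub_cancel]
  have h1 : (ofGroupAlg O p r n).comp g = AlgHom.id O _ := by
    refine Ideal.Quotient.algHom_ext _ ?_
    have hmk : ∀ i, Ideal.Quotient.mkₐ O _ (MvPowerSeries.X i) =
        twU O p r n i - 1 := twU_eq O p r n
    refine algHom_ext_of_hausdorff (maximalIdeal (TWRing O p r n)) _ _ (fun i => ?_) fun i => ?_
    all_goals simp only [AlgHom.comp_apply, AlgHom.id_apply, hmk, map_sub, map_one, hgX, gen,
      ofGroupAlg_gen]
    exact twU_sub_one_mem O p r n hp i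
  refine ⟨g, h1, ?_⟩
  have key : ∀ x : LevelGroup r (p ^ n), g (ofGroupAlg O p r n (MonoidAlgebra.of O _ x)) =
      MonoidAlgebra.of O _ x := fun x => by
    rw [levelGen_prod x]
    simp only [map_prod, map_pow, ofGroupAlg_gen, hgX, gen]
  refine AlgHom.ext fun z => ?_
  induction z using MonoidAlgebra.induction_on with
  | of x => exact key x
  | add a b ha hb => rw [map_add, map_add, ha, hb]
  | smul c a ha => rw [map_smul, map_smul, ha]

/-- The structure of the coefficient ring. -/
def twEquiv : TWRing O p r n ≃ₐ[O] LevelAlg O r (p ^ n) :=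
  AlgEquiv.ofAlgHom (exists_toGroupAlg O p r n hp).choose (ofGroupAlg O p r n)
    (exists_toGroupAlg O p r n hp).choose_spec.2 (exists_toGroupAlg O p r n hp).choose_spec.1

theorem free_twRing : Module.Free O (TWRing O p r n) :=
  Module.Free.of_equiv (twEquiv O p r n hp).symm.toLinearEquiv

theorem finite_twRing : Module.Finite O (TWRing O p r n) :=
  haveI := neZero_pow p n
  Module.Finite.equiv (twEquiv O p r n hp).symm.toLinearEquiv

theorem isReduced_twRing [CharZero O] : IsReduced (TWRing O p r n) :=
  haveI := neZero_pow p n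
  haveI := isReduced_levelAlg (O := O) (r := r) (N := p ^ n)
  isReduced_of_injective (twEquiv O p r n hp).toRingEquiv.toRingHom
    (twEquiv O p r n hp).injective

section Local


theorem isLocalHom_twRing : IsLocalHom (algebraMap O (TWRing O p r n)) := by
  refine ⟨fun a ha => ?_⟩
  have h := ha.map ((levelAug O r (p ^ n)).comp (twEquiv O p r n hp).toAlgHom)
  rwa [AlgHom.commutes] at h

theorem isAdicComplete_twRing : IsAdicComplete (maximalIdeal (TWRing O p r n)) (TWRing O p r n) :=
  haveI := finite_twRing O p r n hp
  haveI := free_twRing O p r n hp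
  haveI := isLocalHom_twRing O p r n hp
  isAdicComplete_of_finite_free O _

theorem finite_residueField_twRing : Finite (ResidueField (TWRing O p r n)) :=
  haveI := finite_twRing O p r n hp
  haveI := free_twRing O p r n hp
  haveI := isLocalHom_twRing O p r n hp
  finite_residueField_of_finite O _

theorem charP_residueField_twRing : CharP (ResidueField (TWRing O p r n)) p := by
  have := isLocalHom_twRing O p r n hp
  refine (CharP.charP_iff_prime_eq_zero (Fact.out : p.Prime)).mpr ?_
  rw [← map_natCast (residue (TWRing O p r n)), residue_eq_zero_iff,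
    ← map_natCast (algebraMap O (TWRing O p r n))]
  exact map_nonunit _ _ hp

theorem isNoetherianRing_twRing : IsNoetherianRing (TWRing O p r n) :=
  haveI := finite_twRing O p r n hp
  isNoetherian_of_tower O inferInstance

end Local

omit hp in
/-- The augmentation. -/
theorem aug_wellDefined (a : MvPowerSeries (Fin r) O)
    (ha : a ∈ Ideal.span (Set.range fun i : Fin r =>
      (1 + MvPowerSeries.X i : MvPowerSeries (Fin r) O) ^ p ^ n - 1)) :
    MvPowerSeries.constantCoeff a = 0 := by
  refine (Ideal.span_le (I := RingHom.ker (MvPowerSeries.constantCoeff (σ := Fin r) (R := O)))).mpr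
    ?_ ha
  rintro _ ⟨i, rfl⟩
  simp

omit hp in
/-- The augmentation of the coefficient ring. -/
def twAug : TWRing O p r n →ₐ[O] O :=
  Ideal.Quotient.liftₐ _
    { MvPowerSeries.constantCoeff (σ := Fin r) (R := O) with
      commutes' := fun c => by simp [MvPowerSeries.algebraMap_apply] }
    (aug_wellDefined O p r n)

omit hp in
theorem twAug_twU (i : Fin r) : twAug O p r n (twU O p r n i) = 1 := by
  rw [twU, map_add, map_one]
  show 1 + MvPowerSeries.constantCoeff (MvPowerSeries.X i) = _
  simp

theorem ker_twAug : RingHom.ker (twAug O p r n) = augIdeal O p r n := by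
  have := neZero_pow p n
  refine le_antisymm (fun a ha => ?_) (Ideal.span_le.mpr ?_)
  · set e := twEquiv O p r n hp
    have hcomp : (levelAug O r (p ^ n)).comp e.toAlgHom = twAug O p r n := by
      have h1 : ((levelAug O r (p ^ n)).comp e.toAlgHom).comp (ofGroupAlg O p r n) =
          (twAug O p r n).comp (ofGroupAlg O p r n) := by
        refine AlgHom.ext fun z => ?_
        induction z using MonoidAlgebra.induction_on with
        | of x =>
          show levelAug O r (p ^ n) (e (e.symm (MonoidAlgebra.of O _ x))) = _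
          rw [AlgEquiv.apply_symm_apply, levelGen_prod x, AlgHom.comp_apply]
          simp only [map_prod, map_pow, ofGroupAlg_gen, twAug_twU]
          simp [levelAug]
        | add a b ha hb => rw [map_add, map_add, ha, hb]
        | smul c a ha => rw [map_smul, map_smul, ha]
      refine AlgHom.ext fun b => ?_
      have h := AlgHom.congr_fun h1 (e b)
      have hb : ofGroupAlg O p r n (e b) = b := e.symm_apply_apply b
      rw [AlgHom.comp_apply]
      rw [AlgHom.comp_apply, AlgHom.comp_apply, AlgHom.comp_apply] at h
      rw [hb] at h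
      exact h
    rw [RingHom.mem_ker, ← hcomp] at ha
    have hz : levelAug O r (p ^ n) (e a) = 0 := ha
    have h := sub_levelAug_mem (O := O) (e a)
    rw [hz, map_zero, sub_zero] at h
    rw [← e.symm_apply_apply a]
    refine (Ideal.span_le (I := (augIdeal O p r n).comap e.symm.toAlgHom)).mpr ?_ h
    rintro _ ⟨i, rfl⟩
    show ofGroupAlg O p r n (yA O i) ∈ augIdeal O p r n
    rw [yA, map_sub, map_one, ofGroupAlg_gen, ← twU_eq]
    exact Ideal.subset_span ⟨i, rfl⟩
  · rintro _ ⟨i, rfl⟩
    show twAug O p r n (Ideal.Quotient.mk _ (MvPowerSeries.X i)) = 0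
    rw [twU_eq, map_sub, map_one, twAug_twU, sub_self]

theorem mem_augIdeal_of_smul {c : O} (hc : c ≠ 0) {a : TWRing O p r n}
    (h : c • a ∈ augIdeal O p r n) : a ∈ augIdeal O p r n := by
  rw [← ker_twAug O p r n hp, RingHom.mem_ker] at h ⊢
  rw [map_smul, smul_eq_mul] at h
  exact (mul_eq_zero.mp h).resolve_left hc

end FLTAgent.PointsDatum
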