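import Fermat.Agent.ModularityLifting.PointsDatum.Points
import Fermat.Agent.ModularityLifting.Degeneracy.NewSymb

/-!
# An integral eigenvector of `U_q` at a point

After a finite extension of the coefficient ring a point has an eigenvector which is an eigenvector
of `U_q` and has a unit coordinate.
-/

set_option autoImplicit false

noncomputable section

open IsLocalRing Matrix

namespace FLTAgent.PointsDatum

open FLTAgent.LevelRaising FLTAgent.ModularityLifting FLTAgent.DefRing FLTAgent.HeckePoints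

variable {O : Type} [CommRing O] [IsDomain O] [IsDiscreteValuationRing O] {P : LiftProblem O}
  {n : ℕ} (Q : TWSet P n) [Fact P.p.Prime] [IsAdicComplete (maximalIdeal O) O]
  [Finite (ResidueField O)] [CharZero O] [ExtraThree P]

namespace TWSet

/-- The matrix of `U_q` for a prime `q` dividing the level. -/
def uM {J : Finset ℕ} (hJ : J ⊆ P.raise) (q : ℕ) :
    Matrix (Fin (Q.rank J)) (Fin (Q.rank J)) (TW P n) :=
  (Q.basis hJ).uMat q

omit [CharZero O] in
theorem uOp_comb {J : Finset ℕ} (hJ : J ⊆ P.raise) {R : Type} [CommRing R] (φ : TW P n →+* R)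
    {q : ℕ} (hq : q.Prime) (hqL : q ∣ Q.level J) (v : Fin (Q.rank J) → R) :
    uOp R q (comb (Q.symb hJ φ) v) = comb (Q.symb hJ φ) ((Q.uM hJ q).map φ *ᵥ v) :=
  apply_comb φ (uOp (TW P n) q) (uOp R q) (fun Φ => Degeneracy.map_uOp φ Φ)
    ((Q.basis hJ).uOp_b (Q.mem_badSet_of_dvd_level hJ) hq hqL) v

omit [CharZero O] in
theorem tm_uM_comm {J : Finset ℕ} (hJ : J ⊆ P.raise) {q : ℕ} (hq : q.Prime) (hqL : q ∣ Q.level J)
    (l : ℕ) : Q.tm J l * Q.uM hJ q = Q.uM hJ q * Q.tm J l := by
  unfold tm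
  split_ifs with h
  · exact (Q.basis hJ).tMat_uMat_comm (Q.mem_badSet_of_dvd_level hJ) h.2.1
      (fun hd => h.2.2 (hd.mul_right _)) hq hqL
  · simp

/-- A point has an eigenvector which is also one of `U_q`. -/
theorem exists_uEigen {J : Finset ℕ} (hJ : J ⊆ P.raise) (f : Q.heckeAlg J →ₐ[O] Kbar O) {q : ℕ}
    (hq : q.Prime) (hqL : q ∣ Q.level J) :
    ∃ (v : Fin (Q.rank J) → Kbar O) (b : Kbar O), v ≠ 0 ∧ IsIntegral O b ∧
      (∀ l, (Q.tm J l).map (f.comp (IsScalarTower.toAlgHom O (TW P n) (Q.heckeAlg J))) *ᵥ v =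
        f (Q.tH J l) • v) ∧
      (Q.uM hJ q).map (f.comp (IsScalarTower.toAlgHom O (TW P n) (Q.heckeAlg J))) *ᵥ v = b • v := by
  classical
  set φ : TW P n →ₐ[O] Kbar O := f.comp (IsScalarTower.toAlgHom O (TW P n) (Q.heckeAlg J))
  obtain ⟨v₀, hv₀, hv⟩ := exists_eigenvector (Q.heckeAlg J).val (φ : TW P n →+* Kbar O)
    f.toRingHom (fun _ => rfl) fun t ht => by rw [show t = 0 from Subtype.ext ht, map_zero]
  let V : Submodule (Kbar O) (Fin (Q.rank J) → Kbar O) :=
    ⨅ l : ℕ, LinearMap.ker (Matrix.toLin' ((Q.tm J l).map φ) - f (Q.tH J l) • LinearMap.id)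
  have hV : ∀ w, w ∈ V ↔ ∀ l, (Q.tm J l).map φ *ᵥ w = f (Q.tH J l) • w := fun w => by
    simp [V, Submodule.mem_iInf, sub_eq_zero]
  set U := (Q.uM hJ q).map φ
  have hstab : ∀ w ∈ V, Matrix.toLin' U w ∈ V := fun w hw => (hV _).mpr fun l => by
    have hc : (Q.tm J l).map φ * U = U * (Q.tm J l).map φ := by
      rw [← Matrix.map_mul, ← Matrix.map_mul, Q.tm_uM_comm hJ hq hqL l]
    rw [Matrix.toLin'_apply, mulVec_mulVec, hc, ← mulVec_mulVec, (hV w).mp hw l, mulVec_smul]
  have : Nontrivial V := ⟨⟨v₀, (hV v₀).mpr fun l => hv (Q.tH J l)⟩, 0,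
    fun h => hv₀ (congrArg Subtype.val h)⟩
  obtain ⟨b, hb⟩ := Module.End.exists_eigenvalue ((Matrix.toLin' U).restrict hstab)
  obtain ⟨w, hw⟩ := hb.exists_hasEigenvector
  have hw' : U *ᵥ (w : Fin (Q.rank J) → Kbar O) = b • (w : Fin (Q.rank J) → Kbar O) := by
    rw [← Matrix.toLin'_apply]
    exact congrArg Subtype.val (Module.End.HasEigenvector.apply_eq_smul hw)
  refine ⟨w.1, b, fun h => hw.2 (Subtype.ext h), ?_, (hV w.1).mp w.2, hw'⟩
  -- the eigenvalue is a root of a monic polynomial over the coefficient ring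
  have hroot : (Q.uM hJ q).charpoly.eval₂ (φ : TW P n →+* Kbar O) b = 0 := by
    rw [← Polynomial.eval_map, ← Matrix.charpoly_map, Matrix.eval_charpoly]
    refine Matrix.exists_mulVec_eq_zero_iff.mp ⟨w.1, fun h => hw.2 (Subtype.ext h), ?_⟩
    rw [Matrix.sub_mulVec, show (Q.uM hJ q).map (φ : TW P n →+* Kbar O) = U from rfl, hw']
    funext i
    simp
  let := (φ : TW P n →+* Kbar O).toAlgebra
  have : IsScalarTower O (TW P n) (Kbar O) :=
    IsScalarTower.of_algebraMap_eq fun o => (φ.commutes o).symm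
  have : Algebra.IsIntegral O (TW P n) := Algebra.IsIntegral.of_finite O _
  exact isIntegral_trans b ⟨_, (Q.uM hJ q).charpoly_monic, hroot⟩

variable {C : Type} [CommRing C] [IsDomain C] [IsDiscreteValuationRing C] [Algebra O C]
  [Module.Finite O C] (j : C →ₐ[O] Kbar O)

omit [IsDomain C] [IsDiscreteValuationRing C] in
/-- An integral primitive eigenvector after a finite extension. -/
theorem exists_integral_uEigen {J : Finset ℕ} (hJ : J ⊆ P.raise) (x : Q.heckeAlg J →ₐ[O] C)
    {q : ℕ} (hq : q.Prime) (hqL : q ∣ Q.level J) :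
    ∃ (C' : Type) (_ : CommRing C') (_ : IsDomain C') (_ : IsDiscreteValuationRing C')
      (_ : IsAdicComplete (maximalIdeal C') C') (_ : Finite (ResidueField C')) (_ : CharZero C')
      (_ : Algebra O C') (_ : Module.Finite O C') (_ : IsLocalHom (algebraMap O C'))
      (i : C →ₐ[O] C') (j' : C' →ₐ[O] Kbar O), Function.Injective j' ∧ j'.comp i = j ∧
      ∃ (w : Fin (Q.rank J) → C') (b : C'), (∃ k, IsUnit (w k)) ∧
        (∀ l, (Q.tm J l).map (i.comp (Q.pointHom x)) *ᵥ w = i (x (Q.tH J l)) • w) ∧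
        (Q.uM hJ q).map (i.comp (Q.pointHom x)) *ᵥ w = b • w := by
  classical
  obtain ⟨v, b, hv, hb, hT, hU⟩ := Q.exists_uEigen hJ (j.comp x) hq hqL
  have : Algebra.IsAlgebraic O (Kbar O) :=
    (IsFractionRing.comap_isAlgebraic_iff (K := FractionRing O)).mpr inferInstance
  obtain ⟨o, ho, hint⟩ :=
    Algebra.IsAlgebraic.exists_integral_multiples O (Finset.univ.image v)
  obtain ⟨C', iC, iD, iV, iA, iF, iZ, iAlg, iFin, -, iL, i, j', hj', hi', hsub⟩ :=
    exists_coeff_extend O j (insert b (Set.range fun k => o • v k))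
      ((Set.finite_range _).insert b) (by
      rintro z (rfl | ⟨k, rfl⟩)
      · exact hb
      · exact hint _ (Finset.mem_image_of_mem v (Finset.mem_univ k)))
  have hi : j'.comp i = j := AlgHom.ext hi'
  obtain ⟨bC, hbC⟩ := hsub (Or.inl rfl)
  choose w hw using fun k => hsub (Or.inr ⟨k, rfl⟩)
  have hw' : j' ∘ w = algebraMap O (Kbar O) o • v := funext fun k => by
    rw [Function.comp_apply, Pi.smul_apply, smul_eq_mul, ← Algebra.smul_def, hw k]
  have key : ∀ (M : Matrix (Fin (Q.rank J)) (Fin (Q.rank J)) (TW P n)) (c : C'),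
      M.map ((j.comp x).comp (IsScalarTower.toAlgHom O (TW P n) (Q.heckeAlg J))) *ᵥ v = j' c • v →
      M.map (i.comp (Q.pointHom x)) *ᵥ w = c • w := fun M c h => by
    funext k
    refine hj' ?_
    rw [Pi.smul_apply, smul_eq_mul, map_mul, ← AlgHom.coe_toRingHom j', RingHom.map_mulVec,
      AlgHom.coe_toRingHom, Matrix.map_map, hw',
      show j' (w k) = algebraMap O (Kbar O) o * v k from congrFun hw' k,
      show (j' : C' → Kbar O) ∘ (i.comp (Q.pointHom x)) =
        (j.comp x).comp (IsScalarTower.toAlgHom O (TW P n) (Q.heckeAlg J)) from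
          funext fun a => AlgHom.congr_fun hi (Q.pointHom x a), mulVec_smul, h]
    simp only [Pi.smul_apply, smul_eq_mul]
    ring
  have hw0 : w ≠ 0 := fun h => hv (funext fun k => by
    have h1 := congrFun hw' k
    rw [h, Function.comp_apply, Pi.zero_apply, map_zero, Pi.smul_apply, smul_eq_mul] at h1
    exact (mul_eq_zero.mp h1.symm).resolve_left fun h2 =>
      ho (algebraMap_kbar_injective O (by rw [h2, map_zero])))
  obtain ⟨c, w', hc, hwc, hunit⟩ := exists_primitive (C := C') (E := FractionRing C')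
    (v := fun k => algebraMap C' (FractionRing C') (w k)) fun h => hw0 (funext fun k =>
      IsFractionRing.injective C' (FractionRing C') (by rw [congrFun h k]; simp))
  have prim : ∀ (M : Matrix (Fin (Q.rank J)) (Fin (Q.rank J)) C') (e : C'),
      M *ᵥ w = e • w → M *ᵥ w' = e • w' := fun M e h => by
    funext k
    refine IsFractionRing.injective C' (FractionRing C') ?_
    have e1 : (algebraMap C' (FractionRing C')) ∘ w' =
        c • fun k => algebraMap C' (FractionRing C') (w k) := funext hwc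
    rw [RingHom.map_mulVec, e1, mulVec_smul, Pi.smul_apply, smul_eq_mul, Pi.smul_apply,
      smul_eq_mul, map_mul, hwc k, show (M.map (algebraMap C' (FractionRing C')) *ᵥ fun k =>
        algebraMap C' (FractionRing C') (w k)) k = algebraMap C' (FractionRing C') ((M *ᵥ w) k) from
          (RingHom.map_mulVec _ M w k).symm, h, Pi.smul_apply, smul_eq_mul, map_mul]
    ring
  refine ⟨C', iC, iD, iV, iA, iF, iZ, iAlg, iFin, iL, i, j', hj', hi, w', bC, hunit,
    fun l => prim _ _ (key _ _ ?_), prim _ _ (key _ _ ?_)⟩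
  · rw [show j' (i (x (Q.tH J l))) = (j.comp x) (Q.tH J l) from AlgHom.congr_fun hi _]
    exact hT l
  · rw [hbC]
    exact hU

end TWSet

end FLTAgent.PointsDatum
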